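import Mathlib.LinearAlgebra.FiniteDimensional.Basic
import Mathlib.LinearAlgebra.FiniteDimensional.Lemmas
import Mathlib.Analysis.Complex.Basic

/-!
# S48, B1, leaf NebOfRel: the "no old forms" lemma on coefficient sequences (helper31)

`seqV p c a n = c a_{n/p}` if `p ∣ n`, else `0` (the coefficients of `c · h(p z)`).

`seq_noOld` : let `W` be a finite dimensional space of sequences with `a 0 = 0`, stable under
`a ↦ (a_{p n} + θ (V a)_n)_n` (`θ ≠ 0`, `c ≠ 0`, `1 < p`).  If `a ∈ W` and `V a ∈ W` then `a = 0`.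

Proof: `U = {w ∈ W : V w ∈ W}` is stable under the injective map `V`
(`V² w = θ⁻¹ (T (V w) - c w)`), so `V` is bijective on `U`; an element of `⋂ range V ^ j` vanishes
at every `n ≥ 1`.
-/

set_option autoImplicit false

noncomputable section

namespace Fermat.Agent.S48.B1.H31

/-- The operator `a ↦ (c · a_{n/p} [p ∣ n])_n` on sequences. -/
def seqV (p : ℕ) (c : ℂ) : (ℕ → ℂ) →ₗ[ℂ] (ℕ → ℂ) where
  toFun a n := if p ∣ n then c * a (n / p) else 0
  map_add' a b := by
    funext n
    simp only [Pi.add_apply]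
    split_ifs <;> ring
  map_smul' r a := by
    funext n
    simp only [Pi.smul_apply, smul_eq_mul, RingHom.id_apply]
    split_ifs <;> ring

theorem seqV_apply (p : ℕ) (c : ℂ) (a : ℕ → ℂ) (n : ℕ) :
    seqV p c a n = if p ∣ n then c * a (n / p) else 0 := rfl

theorem seqV_mul (p : ℕ) (hp : 0 < p) (c : ℂ) (a : ℕ → ℂ) (n : ℕ) :
    seqV p c a (p * n) = c * a n := by
  rw [seqV_apply, if_pos (dvd_mul_right p n), Nat.mul_div_cancel_left n hp]

theorem seqV_injective (p : ℕ) (hp : 0 < p) (c : ℂ) (hc : c ≠ 0) :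
    Function.Injective (seqV p c) := by
  rw [← LinearMap.ker_eq_bot, LinearMap.ker_eq_bot']
  intro a ha
  funext n
  have h := congrFun ha (p * n)
  rw [seqV_mul p hp, Pi.zero_apply] at h
  exact (mul_eq_zero.mp h).resolve_left hc

/-- **NoOld** on coefficient sequences. -/
theorem seq_noOld (p : ℕ) (hp : 1 < p) (c θ : ℂ) (hc : c ≠ 0) (hθ : θ ≠ 0)
    (W : Submodule ℂ (ℕ → ℂ)) [FiniteDimensional ℂ W]
    (hT : ∀ a ∈ W, (fun n => a (p * n) + θ * seqV p c a n) ∈ W)
    (h0 : ∀ a ∈ W, a 0 = 0)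
    (a : ℕ → ℂ) (ha : a ∈ W) (hVa : seqV p c a ∈ W) : a = 0 := by
  have hp0 : 0 < p := by omega
  -- step 1
  have hVV : ∀ w ∈ W, seqV p c w ∈ W → seqV p c (seqV p c w) ∈ W := by
    intro w hw hVw
    have h1 := hT _ hVw
    have h2 : seqV p c (seqV p c w) =
        θ⁻¹ • ((fun n => seqV p c w (p * n) + θ * seqV p c (seqV p c w) n) - c • w) := by
      funext n
      simp only [Pi.smul_apply, Pi.sub_apply, smul_eq_mul, seqV_mul p hp0]
      field_simp
      ring
    rw [h2]
    exact W.smul_mem _ (W.sub_mem h1 (W.smul_mem _ hw))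
  -- step 2
  set U : Submodule ℂ (ℕ → ℂ) := W ⊓ W.comap (seqV p c) with hU
  have hUW : U ≤ W := inf_le_left
  haveI : FiniteDimensional ℂ U := Submodule.finiteDimensional_of_le hUW
  have hstab : ∀ u ∈ U, seqV p c u ∈ U := by
    intro u hu
    rw [hU, Submodule.mem_inf, Submodule.mem_comap] at hu ⊢
    exact ⟨hu.2, hVV u hu.1 hu.2⟩
  set f : U →ₗ[ℂ] U := (seqV p c).restrict hstab with hf
  have hfinj : Function.Injective f := by
    intro x y hxy
    have h1 : seqV p c x = seqV p c y := congrArg Subtype.val hxy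
    exact Subtype.ext (seqV_injective p hp0 c hc h1)
  have hfsurj : Function.Surjective f := LinearMap.surjective_of_injective hfinj
  -- step 5
  have hvan : ∀ j : ℕ, ∀ u ∈ U, ∀ n : ℕ, ¬ p ^ j ∣ n → u n = 0 := by
    intro j
    induction j with
    | zero =>
      intro u _ n hn
      exact absurd (by simp) hn
    | succ j ih =>
      intro u hu n hn
      obtain ⟨u', hu'⟩ := hfsurj ⟨u, hu⟩
      have h1 : seqV p c (u' : ℕ → ℂ) = u := congrArg Subtype.val hu'
      rw [← h1, seqV_apply]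
      split_ifs with hpn
      · obtain ⟨m, rfl⟩ := hpn
        rw [Nat.mul_div_cancel_left m hp0]
        have h2 : ¬ p ^ j ∣ m := by
          intro hm
          apply hn
          rw [pow_succ, mul_comm]
          exact Nat.mul_dvd_mul_left p hm
        rw [ih u' u'.2 m h2, mul_zero]
      · rfl
  have haU : a ∈ U := by
    rw [hU, Submodule.mem_inf, Submodule.mem_comap]
    exact ⟨ha, hVa⟩
  funext n
  rcases Nat.eq_zero_or_pos n with rfl | hn
  · exact h0 a ha
  · refine hvan n a haU n ?_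
    exact Nat.not_dvd_of_pos_of_lt hn (Nat.lt_pow_self hp)

end Fermat.Agent.S48.B1.H31
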