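import Fermat.Agent.S48.B1.H55_Asm4

/-!
# S48, B1 assembly, part 5 (helper55): `Stmt_EisLift` from the leaves

`stmt_EisLiftNeb_of`: Teich + Eis1 + HeckeNeb + FinDimNeb + NebOfRel + EigInt + AlgForm + Int
`⟹ Stmt_EisLiftNeb` (= `B.Stmt_EisLift` together with the nebentypus of `G`).
-/

set_option autoImplicit false

open CongruenceSubgroup UpperHalfPlane ModularForm
open scoped MatrixGroups ModularForm Manifold

noncomputable section

namespace Fermat.Agent.S48.B1.H55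

open Fermat.Agent.S48.Int (HasNeb)

variable {k : Type} [Field k]

/-- The conclusion of `Stmt_Teich`. -/
def IsTeich (ℓ : ℕ) [NeZero ℓ] (k : Type) [Field k] [CharP k ℓ]
    (φ : integralClosure ℤ ℂ →+* k) (ψ : DirichletCharacter ℂ ℓ) : Prop :=
  ∀ (a : (ZMod ℓ)ˣ) (e : integralClosure ℤ ℂ), (e : ℂ) = ψ (a : ZMod ℓ) →
    φ e * (ZMod.castHom (dvd_refl ℓ) k (a : ZMod ℓ)) = 1

theorem red_teich {ℓ : ℕ} [NeZero ℓ] [CharP k ℓ] {φ : integralClosure ℤ ℂ →+* k}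
    {ψ : DirichletCharacter ℂ ℓ} (hT : IsTeich ℓ k φ ψ) (a : ℕ) (ha : a.Coprime ℓ) :
    red φ (ψ (a : ZMod ℓ)) * (a : k) = 1 := by
  have hint : IsIntegral ℤ (ψ (a : ZMod ℓ)) := Fermat.Agent.S48.Int.H55.isIntegral_charVal ψ _
  have h := hT (ZMod.unitOfCoprime a ha) ⟨ψ (a : ZMod ℓ), hint⟩ (by
    rw [ZMod.coe_unitOfCoprime])
  have hc : (ZMod.castHom (dvd_refl ℓ) k) ((ZMod.unitOfCoprime a ha : (ZMod ℓ)ˣ) : ZMod ℓ) =
      (a : k) := by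
    rw [ZMod.coe_unitOfCoprime]
    exact map_natCast _ a
  rw [hc] at h
  have hr : red φ (ψ (a : ZMod ℓ)) = φ ⟨ψ (a : ZMod ℓ), hint⟩ :=
    red_coe φ ⟨ψ (a : ZMod ℓ), hint⟩
  rw [hr]
  exact h

theorem red_eis1_pos {ℓ : ℕ} [NeZero ℓ] [CharP k ℓ] (φ : integralClosure ℤ ℂ →+* k)
    (ψ : DirichletCharacter ℂ ℓ) {n : ℕ} (hn : n ≠ 0) :
    red φ ((eis1Series ℓ ψ).coeff n) = 0 := by
  rw [coeff_eis1_pos ℓ ψ hn]
  have h2 : IsIntegral ℤ (-2 * ∑ d ∈ n.divisors, ψ (d : ZMod ℓ)) :=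
    isIntegral_neg_two.mul
      (IsIntegral.sum _ fun a _ => Fermat.Agent.S48.Int.H55.isIntegral_charVal ψ _)
  rw [red_mul φ (isIntegral_natC ℓ) h2, red_natCast, CharP.cast_eq_zero, zero_mul]

theorem red_eis1_zero {ℓ : ℕ} [NeZero ℓ] [CharP k ℓ] (hℓ : ℓ.Prime)
    {φ : integralClosure ℤ ℂ →+* k} {ψ : DirichletCharacter ℂ ℓ} (hT : IsTeich ℓ k φ ψ) :
    red φ ((eis1Series ℓ ψ).coeff 0) = -1 := by
  rw [coeff_eis1_zero, red_sum φ _ _ fun a _ =>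
    (Fermat.Agent.S48.Int.H55.isIntegral_charVal ψ _).mul (isIntegral_natC a)]
  have hterm : ∀ a ∈ Finset.range ℓ,
      red φ (ψ (a : ZMod ℓ) * (a : ℂ)) = if a = 0 then (0 : k) else 1 := by
    intro a ha
    rw [red_mul φ (Fermat.Agent.S48.Int.H55.isIntegral_charVal ψ _) (isIntegral_natC a),
      red_natCast]
    split_ifs with h0
    · subst h0
      simp
    · have hlt : a < ℓ := Finset.mem_range.1 ha
      have hcop : a.Coprime ℓ :=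
        Nat.Coprime.symm ((Nat.Prime.coprime_iff_not_dvd hℓ).2
          (Nat.not_dvd_of_pos_of_lt (Nat.pos_of_ne_zero h0) hlt))
      exact red_teich hT a hcop
  rw [Finset.sum_congr rfl hterm]
  obtain ⟨m, rfl⟩ : ∃ m, ℓ = m + 1 := ⟨ℓ - 1, by have := hℓ.pos; omega⟩
  rw [Finset.sum_range_succ']
  simp only [Nat.succ_ne_zero, if_false, if_true, add_zero, Finset.sum_const, Finset.card_range,
    nsmul_eq_mul, mul_one]
  have h0 : ((m + 1 : ℕ) : k) = 0 := CharP.cast_eq_zero k (m + 1)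
  rw [Nat.cast_add, Nat.cast_one] at h0
  exact eq_neg_of_add_eq_zero_left h0

/-- `Stmt_EisLift` together with the nebentypus of `G`. -/
def Stmt_EisLiftNeb : Prop :=
  ∀ (N : ℕ) [NeZero N] (ε : DirichletCharacter ℂ N) (f : CuspForm (Gamma1 N) 1),
    IsDSForm N ε f →
      ∃ ℓ₀ : ℕ, ∀ (ℓ : ℕ) [NeZero (N * ℓ)], ℓ.Prime → ℓ₀ ≤ ℓ →
        ∀ (k : Type) [Field k] [CharP k ℓ] [IsAlgClosed k] (φ : integralClosure ℤ ℂ →+* k),
          ∃ (χ : DirichletCharacter ℂ (N * ℓ)) (G : CuspForm (Gamma1 (N * ℓ)) 2) (b : ℕ → ℂ),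
            B.IsEigenvec2 (N * ℓ) χ G b ∧ HasNeb (N * ℓ) χ 2 G ∧
            ∀ p : ℕ, p.Prime → ¬ p ∣ N * ℓ →
              ∃ β c : integralClosure ℤ ℂ, (β : ℂ) = b p ∧
                (c : ℂ) = χ (p : ZMod (N * ℓ)) * (p : ℂ) ∧
                (∀ a : integralClosure ℤ ℂ, (a : ℂ) = ModularFormClass.qCoeff f p → φ β = φ a) ∧
                (∀ e : integralClosure ℤ ℂ, (e : ℂ) = ε (p : ZMod N) → φ c = φ e)

theorem stmt_EisLift_of_neb (h : Stmt_EisLiftNeb) : B.Stmt_EisLift := by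
  intro N _ ε f hf
  obtain ⟨ℓ₀, h0⟩ := h N ε f hf
  refine ⟨ℓ₀, ?_⟩
  intro ℓ _ hℓ hℓ₀ k _ _ _ φ
  obtain ⟨χ, G, b, h1, -, h2⟩ := h0 ℓ hℓ hℓ₀ k φ
  exact ⟨χ, G, b, h1, h2⟩

/-- The core of the assembly, with all the data fixed. -/
theorem eisLift_core (hH : Stmt_HeckeNeb) (hFin : Stmt_FinDimNeb) (hEig : Stmt_EigInt)
    (N : ℕ) [NeZero N] (ε : DirichletCharacter ℂ N) (f f' : CuspForm (Gamma1 N) 1)
    (hf' : IsDSForm N ε f')
    (hpp : ∀ p : ℕ, p.Prime → ¬ p ∣ N →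
      ModularFormClass.qCoeff f' p = ModularFormClass.qCoeff f p)
    (hint : ∀ p : ℕ, p.Prime → ¬ p ∣ N → IsIntegral ℤ (ModularFormClass.qCoeff f p))
    (D : ℕ) (hD0 : D ≠ 0) (hDint : ∀ n : ℕ, IsIntegral ℤ ((D : ℂ) * ModularFormClass.qCoeff f' n))
    (ℓ : ℕ) [NeZero ℓ] [NeZero (N * ℓ)] (hℓ : ℓ.Prime) (hDℓ : D < ℓ)
    (k : Type) [Field k] [CharP k ℓ] [IsAlgClosed k] (φ : integralClosure ℤ ℂ →+* k)
    (ψ : DirichletCharacter ℂ ℓ) (hT : IsTeich ℓ k φ ψ)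
    (G0 : CuspForm (Gamma1 (N * ℓ)) 2) (hG0n : HasNeb (N * ℓ) (prodChar N ℓ ε ψ) 2 G0)
    (hG0q : qExpansion 1 G0 = qExpansion 1 f' * eis1Series ℓ ψ) :
    ∃ (G : CuspForm (Gamma1 (N * ℓ)) 2) (b : ℕ → ℂ),
      B.IsEigenvec2 (N * ℓ) (prodChar N ℓ ε ψ) G b ∧ HasNeb (N * ℓ) (prodChar N ℓ ε ψ) 2 G ∧
      ∀ p : ℕ, p.Prime → ¬ p ∣ N * ℓ →
        ∃ β c : integralClosure ℤ ℂ, (β : ℂ) = b p ∧
          (c : ℂ) = prodChar N ℓ ε ψ (p : ZMod (N * ℓ)) * (p : ℂ) ∧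
          (∀ a : integralClosure ℤ ℂ, (a : ℂ) = ModularFormClass.qCoeff f p → φ β = φ a) ∧
          (∀ e : integralClosure ℤ ℂ, (e : ℂ) = ε (p : ZMod N) → φ c = φ e) := by
  classical
  set χ : DirichletCharacter ℂ (N * ℓ) := prodChar N ℓ ε ψ with hχ
  haveI : FiniteDimensional ℂ (nebSubmodule (N * ℓ) χ 2) := hFin (N * ℓ) χ 2 (Or.inr rfl)
  -- divisibility facts
  have hN_of : ∀ p : ℕ, ¬ p ∣ N * ℓ → ¬ p ∣ N := fun p h h' => h (dvd_mul_of_dvd_left h' ℓ)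
  have hℓ_of : ∀ p : ℕ, ¬ p ∣ N * ℓ → ¬ p ∣ ℓ := fun p h h' => h (dvd_mul_of_dvd_right h' N)
  have hcopℓ : ∀ p : ℕ, p.Prime → ¬ p ∣ N * ℓ → p.Coprime ℓ := by
    intro p hp h
    exact (Nat.Prime.coprime_iff_not_dvd hp).2 (hℓ_of p h)
  have hcop : ∀ p : ℕ, p.Prime → ¬ p ∣ N * ℓ → p.Coprime (N * ℓ) := by
    intro p hp h
    exact (Nat.Prime.coprime_iff_not_dvd hp).2 h
  -- the sequences
  set u : ℕ → ℂ := fun n => (D : ℂ) * ModularFormClass.qCoeff f' n with hu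
  set e : ℕ → ℂ := fun n => (eis1Series ℓ ψ).coeff n with he
  have huint : ∀ n, IsIntegral ℤ (u n) := hDint
  have heint : ∀ n, IsIntegral ℤ (e n) := eis1_integral ℓ ψ
  have he0 : red φ (e 0) = -1 := red_eis1_zero hℓ hT
  have hej : ∀ j, j ≠ 0 → red φ (e j) = 0 := fun j hj => red_eis1_pos φ ψ hj
  -- the approximate eigenvector
  let v0 : nebSubmodule (N * ℓ) χ 2 := (D : ℂ) • (⟨G0, hG0n⟩ : nebSubmodule (N * ℓ) χ 2)
  have hv0seq : ∀ n, coeffSeq (v0 : CuspForm (Gamma1 (N * ℓ)) 2) n =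
      ∑ x ∈ Finset.HasAntidiagonal.antidiagonal n, u x.1 * e x.2 := by
    intro n
    have h1 : coeffSeq (v0 : CuspForm (Gamma1 (N * ℓ)) 2) n =
        (D : ℂ) * coeffSeq (G0 : CuspForm (Gamma1 (N * ℓ)) 2) n :=
      coeffSeq_smul_sub (D : ℂ) (⟨G0, hG0n⟩ : nebSubmodule (N * ℓ) χ 2) n
    rw [h1, coeffSeq_eq, hG0q, PowerSeries.coeff_mul, Finset.mul_sum]
    refine Finset.sum_congr rfl fun x _ => ?_
    simp only [hu, he, ModularFormClass.qCoeff]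
    ring
  have hconv := red_conv φ u e huint heint he0 hej
  have hwint : ∀ n, IsIntegral ℤ (coeffSeq (v0 : CuspForm (Gamma1 (N * ℓ)) 2) n) := by
    intro n
    rw [hv0seq]
    exact (hconv n).1
  have hwu : ∀ n, red φ (coeffSeq (v0 : CuspForm (Gamma1 (N * ℓ)) 2) n) = -red φ (u n) := by
    intro n
    rw [hv0seq]
    exact (hconv n).2
  -- the character values
  have hχp : ∀ p : ℕ, p.Prime → ¬ p ∣ N * ℓ →
      red φ (heckeFactor χ 2 p) = red φ (ε (p : ZMod N)) := by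
    intro p hp hpM
    rw [heckeFactor_two, hχ, prodChar_natCast ε ψ p (hcop p hp hpM)]
    have i1 : IsIntegral ℤ (ε (p : ZMod N)) := Fermat.Agent.S48.Int.H55.isIntegral_charVal ε _
    have i2 : IsIntegral ℤ (ψ (p : ZMod ℓ)) := Fermat.Agent.S48.Int.H55.isIntegral_charVal ψ _
    rw [red_mul φ (i1.mul i2) (isIntegral_natC p), red_mul φ i1 i2, red_natCast, mul_assoc,
      red_teich hT p (hcopℓ p hp hpM), mul_one]
  -- the index type and the operators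
  let ι : Type := {p : ℕ // p.Prime ∧ ¬ p ∣ N * ℓ}
  let T : ι → Module.End ℂ (nebSubmodule (N * ℓ) χ 2) :=
    fun i => heckeOp hH (N * ℓ) χ 2 i.1 i.2.1 i.2.2
  let a : ι → integralClosure ℤ ℂ :=
    fun i => ⟨ModularFormClass.qCoeff f i.1, hint i.1 i.2.1 (hN_of i.1 i.2.2)⟩
  have hDk : (D : k) ≠ 0 := by
    intro h0
    rw [CharP.cast_eq_zero_iff k ℓ] at h0
    exact absurd (Nat.le_of_dvd (Nat.pos_of_ne_zero hD0) h0) (not_le.2 hDℓ)
  have hu1 : u 1 = (D : ℂ) := by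
    simp only [hu, hf'.one, mul_one]
  obtain ⟨b', v, hv0, hveig, hcong⟩ := Fermat.Agent.S49.H44.abstract_lifting (K := ℂ)
    (V := nebSubmodule (N * ℓ) χ 2) (ι := ι) T
    (fun i j => heckeOp_commute hH (N * ℓ) χ 2 i.1 j.1 i.2.1 i.2.2 j.2.1 j.2.2)
    (A := integralClosure ℤ ℂ) (RingHom.ker φ) (RingHom.ker_isPrime φ)
    (latA (N * ℓ) χ 2) (latI φ (N * ℓ) χ 2)
    (fun x g hg => smul_mem_latA x g hg)
    (fun x g hg => smul_mem_latI φ x g hg)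
    (fun i g hg => heckeOp_mem_latA hH i.2.1 i.2.2 (isIntegral_heckeFactor_two χ i.1) g hg)
    (fun i g hg => heckeOp_mem_latI hH φ i.2.1 i.2.2 (isIntegral_heckeFactor_two χ i.1) g hg)
    (fun i μ hμ => heckeOp_eigenvalue_integral hH hEig i.2.1 i.2.2 μ hμ)
    a v0 hwint
    (by
      intro i n
      have hseq : coeffSeq (((T i v0 - (algebraMap (integralClosure ℤ ℂ) ℂ (a i)) • v0 :
          nebSubmodule (N * ℓ) χ 2)) : CuspForm (Gamma1 (N * ℓ)) 2) n =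
          coeffOp i.1 (heckeFactor χ 2 i.1) (coeffSeq (v0 : CuspForm (Gamma1 (N * ℓ)) 2)) n -
            ModularFormClass.qCoeff f i.1 * coeffSeq (v0 : CuspForm (Gamma1 (N * ℓ)) 2) n := by
        have h1 : coeffSeq (((T i v0 - (algebraMap (integralClosure ℤ ℂ) ℂ (a i)) • v0 :
          nebSubmodule (N * ℓ) χ 2)) : CuspForm (Gamma1 (N * ℓ)) 2) =
            coeffSeq ((T i v0 : nebSubmodule (N * ℓ) χ 2) : CuspForm (Gamma1 (N * ℓ)) 2) -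
            coeffSeq ((((algebraMap (integralClosure ℤ ℂ) ℂ (a i)) • v0 :
              nebSubmodule (N * ℓ) χ 2)) : CuspForm (Gamma1 (N * ℓ)) 2) := coeffSeq_sub _ _
        rw [h1, Pi.sub_apply, coeffSeq_smul_sub]
        have h2 : coeffSeq ((T i v0 : nebSubmodule (N * ℓ) χ 2) : CuspForm (Gamma1 (N * ℓ)) 2) =
            coeffOp i.1 (heckeFactor χ 2 i.1) (coeffSeq (v0 : CuspForm (Gamma1 (N * ℓ)) 2)) :=
          coeffSeq_heckeOp hH (N * ℓ) χ 2 i.1 i.2.1 i.2.2 v0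
        rw [h2]
        rfl
      rw [hseq]
      refine red_hecke_rel φ u _ huint hwint hwu i.1 (heckeFactor χ 2 i.1)
        (ModularFormClass.qCoeff f i.1) (ε (i.1 : ZMod N)) (isIntegral_heckeFactor_two χ i.1)
        (hint i.1 i.2.1 (hN_of i.1 i.2.2)) (Fermat.Agent.S48.Int.H55.isIntegral_charVal ε _)
        (hχp i.1 i.2.1 i.2.2) ?_ n
      intro m
      have hrel := hf'.hecke i.1 i.2.1 (hN_of i.1 i.2.2) m
      rw [hpp i.1 i.2.1 (hN_of i.1 i.2.2)] at hrel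
      simp only [hu]
      split_ifs with hd
      · rw [if_pos hd] at hrel
        linear_combination (D : ℂ) * hrel
      · rw [if_neg hd] at hrel
        linear_combination (D : ℂ) * hrel)
    (by
      intro c hc
      have h1 := hc 1
      rw [coeffSeq_smul_sub] at h1
      have hcint : IsIntegral ℤ (c : ℂ) := c.2
      have h2 : red φ ((c : ℂ) * coeffSeq (v0 : CuspForm (Gamma1 (N * ℓ)) 2) 1) = 0 := h1.2
      rw [red_mul φ hcint (hwint 1), hwu 1, hu1, red_natCast, red_coe] at h2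
      rw [RingHom.mem_ker]
      rcases mul_eq_zero.1 h2 with h3 | h3
      · exact h3
      · exact absurd (neg_eq_zero.1 h3) hDk)
  -- the output
  refine ⟨(v : CuspForm (Gamma1 (N * ℓ)) 2),
    fun p => if h : p.Prime ∧ ¬ p ∣ N * ℓ then ((b' ⟨p, h⟩ : integralClosure ℤ ℂ) : ℂ) else 0,
    ⟨fun h => hv0 (Subtype.ext h), ?_⟩, v.2, ?_⟩
  · intro p hp hpM n
    have hb : (if h : p.Prime ∧ ¬ p ∣ N * ℓ then ((b' ⟨p, h⟩ : integralClosure ℤ ℂ) : ℂ) else 0) =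
        ((b' ⟨p, hp, hpM⟩ : integralClosure ℤ ℂ) : ℂ) := dif_pos ⟨hp, hpM⟩
    show _ = (if h : p.Prime ∧ ¬ p ∣ N * ℓ then ((b' ⟨p, h⟩ : integralClosure ℤ ℂ) : ℂ) else 0) * _
    rw [hb]
    have h1 := congrFun (coeffSeq_heckeOp hH (N * ℓ) χ 2 p hp hpM v) n
    have h2 : heckeOp hH (N * ℓ) χ 2 p hp hpM v =
        (algebraMap (integralClosure ℤ ℂ) ℂ (b' ⟨p, hp, hpM⟩)) • v := hveig ⟨p, hp, hpM⟩
    rw [h2, coeffSeq_smul_sub, coeffOp_apply, heckeFactor_two] at h1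
    exact h1.symm
  · intro p hp hpM
    refine ⟨b' ⟨p, hp, hpM⟩, ⟨heckeFactor χ 2 p, isIntegral_heckeFactor_two χ p⟩, ?_, ?_, ?_, ?_⟩
    · beta_reduce
      rw [dif_pos (⟨hp, hpM⟩ : p.Prime ∧ ¬ p ∣ N * ℓ)]
    · exact heckeFactor_two χ p
    · intro x hx
      have hmem := hcong ⟨p, hp, hpM⟩
      rw [RingHom.mem_ker, map_sub, sub_eq_zero] at hmem
      rw [hmem]
      congr 1
      exact Subtype.ext hx.symm
    · intro x hx
      have h1 := hχp p hp hpM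
      have h2 : red φ (heckeFactor χ 2 p) =
          φ ⟨heckeFactor χ 2 p, isIntegral_heckeFactor_two χ p⟩ :=
        red_coe φ ⟨heckeFactor χ 2 p, isIntegral_heckeFactor_two χ p⟩
      rw [← h2, h1, ← hx, red_coe]

/-- **B1 assembly**: `Stmt_EisLiftNeb` from the leaves. -/
theorem stmt_EisLiftNeb_of (hTeich : Stmt_Teich) (hEis1 : Stmt_Eis1) (hH : Stmt_HeckeNeb)
    (hFin : Stmt_FinDimNeb) (hNeb : Stmt_NebOfRel) (hEig : Stmt_EigInt) (hAlg : Stmt_AlgForm)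
    (hInt : Stmt_Int) : Stmt_EisLiftNeb := by
  intro N _ ε f hf
  obtain ⟨f', hf', hpp, D, hD0, hDint⟩ := hAlg N ε f hf
  have hnebf' : HasNeb N ε 1 f' := by
    refine hNeb N ε 1 (Or.inl rfl) f' (fun p => ModularFormClass.qCoeff f' p) ?_
    intro p hp hpN n
    have h := hf'.hecke p hp hpN n
    have h1 : ((p : ℂ) ^ ((1 : ℤ) - 1)) = 1 := by norm_num
    rw [h1, mul_one]
    exact h
  obtain ⟨hint, -, -⟩ := hInt N ε f hf
  refine ⟨max D 2 + 1, ?_⟩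
  intro ℓ _ hℓ hℓ₀ k _ _ _ φ
  haveI : NeZero ℓ := ⟨hℓ.ne_zero⟩
  have hDℓ : D < ℓ := by
    have := le_max_left D 2
    omega
  have hℓ2 : ℓ ≠ 2 := by
    have := le_max_right D 2
    omega
  obtain ⟨ψ, hψodd, hψT⟩ := hTeich ℓ hℓ hℓ2 k φ
  obtain ⟨E, hEd, hEb, hEn, hEq⟩ := hEis1 ℓ hℓ ψ hψodd
  obtain ⟨G0, hG0n, hG0q⟩ := prodNeb N ℓ ε ψ f' E hnebf' hEd hEb hEn
  rw [hEq] at hG0q
  obtain ⟨G, b, h1, h2, h3⟩ := eisLift_core hH hFin hEig N ε f f' hf' hpp hint D hD0 hDint ℓ hℓ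
    hDℓ k φ ψ hψT G0 hG0n hG0q
  exact ⟨prodChar N ℓ ε ψ, G, b, h1, h2, h3⟩

end Fermat.Agent.S48.B1.H55
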