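import Fermat.Agent.S48.Int.Defs
import Fermat.Agent.S48.B.Defs

/-!
# S48, mountain B, part B1 = `B.Stmt_EisLift` (Deligne–Serre §6): interfaces (helper55)

Route.  `f` as in S48 (`IsDSForm N ε f`), `ℓ` large, `φ : ℤ̄ → k`, `𝔩 = ker φ`.
1. (`Stmt_NebOfRel`, "A3") the relations force `f ∈ S₁(N, ε)`.
2. (`Stmt_AlgForm`) there is `f'` with the same relations and eigenvalues, whose coefficients are
   algebraic with a common denominator `D` (descent along `Aut(ℂ/ℚ̄)` + leaf A).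
3. (`Stmt_Eis1`, helper22) `E = -2ℓ E_{1,ψ}`, `ψ = ω⁻¹` the inverse Teichmüller character w.r.t. `φ`:
   coefficients in `ℤ[ψ]`, constant term `s = ∑ ψ(a) a ≡ -1`, other coefficients `≡ 0 mod 𝔩`.
4. `v₀ = D f' · E ∈ S₂(N ℓ, χ)`, `χ = ε ψ`: integral coefficients, `v₀ ≡ -D f' mod 𝔩`,
   `T_p v₀ ≡ a_p v₀ mod 𝔩` (`χ(p) p ≡ ε(p)`).
5. (`Stmt_HeckeNeb`) `T_p` on `S₂(N ℓ, χ)`; (`Stmt_FinDimNeb`, `Stmt_EigInt`) finite dimension and
   integrality of the eigenvalues; then `S49.H44.abstract_lifting` gives the eigenvector `G`.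
-/

set_option autoImplicit false

open CongruenceSubgroup UpperHalfPlane ModularForm
open scoped MatrixGroups ModularForm Manifold

namespace Fermat.Agent.S48.B1

open Fermat.Agent.S48.Int (HasNeb)

/-- `q`-series of `(-2ℓ) · E_{1,ψ}`: integral coefficients, constant term `∑_{a<ℓ} ψ(a) a`. -/
noncomputable def eis1Series (ℓ : ℕ) (ψ : DirichletCharacter ℂ ℓ) : PowerSeries ℂ :=
  PowerSeries.mk fun n =>
    if n = 0 then ∑ a ∈ Finset.range ℓ, ψ (a : ZMod ℓ) * (a : ℂ)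
    else -2 * (ℓ : ℂ) * ∑ d ∈ n.divisors, ψ (d : ZMod ℓ)

/-- **B1(a) Eis1** (helper22): the weight one Eisenstein series of an odd character mod `ℓ`. -/
def Stmt_Eis1 : Prop :=
  ∀ (ℓ : ℕ) [NeZero ℓ], ℓ.Prime → ∀ ψ : DirichletCharacter ℂ ℓ, ψ (-1) = -1 →
    ∃ E : ℍ → ℂ, MDifferentiable 𝓘(ℂ) 𝓘(ℂ) E ∧
      (∀ A : SL(2, ℤ), IsBoundedAtImInfty (E ∣[(1 : ℤ)] A)) ∧
      HasNeb ℓ ψ 1 E ∧ qExpansion 1 E = eis1Series ℓ ψ

/-- **B1(b) HeckeNeb**: the Hecke operator `T_p`, `p ∤ M`, on cusp forms of weight `k` on `Γ₁(M)`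
with nebentypus `χ`: `a_n(T_p g) = a_{pn}(g) + χ(p) p^{k-1} a_{n/p}(g)`.
(`T_p g = heckeU k p g + χ(p) • g ∣[k] heckeDiagMatrix p` with the prelude's `ModularForm.heckeU`;
the prelude gives holomorphy, the cusps and the `q`-expansion for free, only the slash rule with
character is new: port of `ModularForm.heckeT_slash_eq_self_of_mem_Gamma0`.) -/
def Stmt_HeckeNeb : Prop :=
  ∀ (M : ℕ) [NeZero M] (χ : DirichletCharacter ℂ M) (k : ℤ) (g : CuspForm (Gamma1 M) k),
    HasNeb M χ k g → ∀ p : ℕ, p.Prime → ¬ p ∣ M →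
      ∃ g' : CuspForm (Gamma1 M) k, HasNeb M χ k g' ∧
        ∀ n : ℕ, ModularFormClass.qCoeff g' n =
          ModularFormClass.qCoeff g (p * n) + χ (p : ZMod M) * (p : ℂ) ^ (k - 1) *
            (if p ∣ n then ModularFormClass.qCoeff g (n / p) else 0)

/-- **A3 NebOfRel**: a cusp form of weight `k ∈ {1, 2}` on `Γ₁(M)` whose `q`-coefficients satisfy
the Hecke relations for the character `χ` at all primes `p ∤ M` has nebentypus `χ`.
(`g = ∑_ψ g_ψ`; the relations give `(χ(p) - ψ(p)) g_ψ(p z) ∈ S_k(M, ψ)`; if `h` and `h(p z)` are both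
in `S_k(M, ψ)` then so are all `h(p^j z)` by `T_p`, so `h = 0` by finite dimension; Dirichlet.) -/
def Stmt_NebOfRel : Prop :=
  ∀ (M : ℕ) [NeZero M] (χ : DirichletCharacter ℂ M) (k : ℤ), k = 1 ∨ k = 2 →
    ∀ (g : CuspForm (Gamma1 M) k) (b : ℕ → ℂ),
      (∀ p : ℕ, p.Prime → ¬ p ∣ M → ∀ n : ℕ,
        ModularFormClass.qCoeff g (p * n) + χ (p : ZMod M) * (p : ℂ) ^ (k - 1) *
            (if p ∣ n then ModularFormClass.qCoeff g (n / p) else 0) =
          b p * ModularFormClass.qCoeff g n) →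
      HasNeb M χ k g

/-- The space of cusp forms of weight `k` on `Γ₁(M)` with nebentypus `χ`. -/
def nebSubmodule (M : ℕ) (χ : DirichletCharacter ℂ M) (k : ℤ) :
    Submodule ℂ (CuspForm (Gamma1 M) k) where
  carrier := {g | HasNeb M χ k g}
  add_mem' := by
    intro a b ha hb γ hγ
    have h1 := ha γ hγ
    have h2 := hb γ hγ
    simp only [CuspForm.coe_add, SlashAction.add_slash, h1, h2, smul_add]
  zero_mem' := by
    intro γ _
    simp only [CuspForm.coe_zero, SlashAction.zero_slash, smul_zero]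
  smul_mem' := by
    intro c a ha γ hγ
    have h1 := ha γ hγ
    have hcoe : ((c • a : CuspForm (Gamma1 M) k) : ℍ → ℂ) = c • (a : ℍ → ℂ) := rfl
    rw [hcoe, ModularForm.SL_smul_slash, h1, smul_comm]

/-- **FinDimNeb**: `S_k(M, χ)` is finite dimensional for `k ∈ {1, 2}`
(multiply by Eisenstein series of weight 3 to land in `S_*(Γ₀(M))`, which is finite dimensional by
the prelude's Sturm bound `trunc_injective`). -/
def Stmt_FinDimNeb : Prop :=
  ∀ (M : ℕ) [NeZero M] (χ : DirichletCharacter ℂ M) (k : ℤ), k = 1 ∨ k = 2 →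
    FiniteDimensional ℂ (nebSubmodule M χ k)

/-- **EigInt**: an eigenvalue of a single `T_p` on `S₂(M, χ)` is an algebraic integer
(leaf A argument: the coefficients of `g` lie in a finitely generated subgroup of `ℂ` stable under
the values of `χ`). -/
def Stmt_EigInt : Prop :=
  ∀ (M : ℕ) [NeZero M] (χ : DirichletCharacter ℂ M) (g : CuspForm (Gamma1 M) 2),
    HasNeb M χ 2 g → g ≠ 0 → ∀ p : ℕ, p.Prime → ¬ p ∣ M → ∀ μ : ℂ,
      (∀ n : ℕ, ModularFormClass.qCoeff g (p * n) + χ (p : ZMod M) * (p : ℂ) *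
          (if p ∣ n then ModularFormClass.qCoeff g (n / p) else 0) =
        μ * ModularFormClass.qCoeff g n) →
      IsIntegral ℤ μ

/-- **AlgForm**: a form with the same relations and eigenvalues as `f`, all of whose coefficients
are algebraic, with a common denominator. -/
def Stmt_AlgForm : Prop :=
  ∀ (N : ℕ) [NeZero N] (ε : DirichletCharacter ℂ N) (f : CuspForm (Gamma1 N) 1),
    IsDSForm N ε f →
      ∃ f' : CuspForm (Gamma1 N) 1, IsDSForm N ε f' ∧
        (∀ p : ℕ, p.Prime → ¬ p ∣ N → ModularFormClass.qCoeff f' p = ModularFormClass.qCoeff f p) ∧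
        ∃ D : ℕ, D ≠ 0 ∧ ∀ n : ℕ, IsIntegral ℤ ((D : ℂ) * ModularFormClass.qCoeff f' n)

/-- **Teich**: the inverse Teichmüller character with respect to a residue map `φ` into a field of
characteristic `ℓ` (odd prime): an odd character `ψ` mod `ℓ` with `φ(ψ(a)) · a = 1` for all units
`a` (the `(ℓ-1)`-th roots of unity of `ℂ` are algebraic integers and `φ` maps them bijectively onto
the `(ℓ-1)`-th roots of unity of `k`). -/
def Stmt_Teich : Prop :=
  ∀ (ℓ : ℕ) [NeZero ℓ], ℓ.Prime → ℓ ≠ 2 → ∀ (k : Type) [Field k] [CharP k ℓ]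
    (φ : integralClosure ℤ ℂ →+* k),
    ∃ ψ : DirichletCharacter ℂ ℓ, ψ (-1) = -1 ∧
      ∀ (a : (ZMod ℓ)ˣ) (e : integralClosure ℤ ℂ), (e : ℂ) = ψ (a : ZMod ℓ) →
        φ e * (ZMod.castHom (dvd_refl ℓ) k (a : ZMod ℓ)) = 1

end Fermat.Agent.S48.B1
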