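import Fermat.Agent.S48.B1.Defs
import Fermat.Prelude.Sol.S_UpperHalfPlane_qCoeff_heckeT
import Fermat.Prelude.Thm_CuspFormClass_isZeroAt_heckeT
import Fermat.Prelude.Thm_CuspFormClass_isZeroAt_heckeU

/-!
# S48, mountain B1, leaf HeckeNeb (helper19)

The Hecke operator `T_p`, `p ∤ M`, on cusp forms of weight `k` on `Γ₁(M)` with nebentypus `χ`:
`T_p g = heckeU k p g + χ(p) • g ∣[k] heckeDiagMatrix p`.

* `hm_mul_of_eq`, `hm_mul_of_eq'`, `hd_mul_of_eq`, `hd_mul_of_eq'` : the four commutation rules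
  `a_x * g = g' * a_{x'}` with BOTH lower entries of `g'`;
* `rep_mul_chi` : for `g ∈ Γ₀(M)` and `x ∈ ℙ¹(𝔽_p)`: `a_x * g = g' * a_{g x}`, `g' ∈ Γ₀(M)`,
  `w(x) χ(d_{g'}) = χ(d_g) w(g x)`  (`w(∞) = χ(p)`, `w(j) = 1`);
* `TChi_slash` : `T_p g ∣[k] γ = χ(d_γ) • T_p g` for `γ ∈ Γ₀(M)`;
* `stmt_HeckeNeb : Stmt_HeckeNeb`.
-/

set_option autoImplicit false
set_option linter.unusedSectionVars false

noncomputable section

open Matrix.SpecialLinearGroup UpperHalfPlane ModularForm CongruenceSubgroup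
open scoped MatrixGroups ModularForm OnePoint Manifold

namespace Fermat.Agent.S48.B1.H19

open Fermat.Agent.S48.Int (HasNeb)

@[local simp] theorem mapGL_apply' (g : SL(2, ℤ)) (i j : Fin 2) :
    (mapGL ℝ g : GL (Fin 2) ℝ) i j = ((g i j : ℤ) : ℝ) := by
  simp

theorem det_eq (g : SL(2, ℤ)) : g 0 0 * g 1 1 - g 0 1 * g 1 0 = 1 := by
  have h := g.det_coe
  rwa [Matrix.det_fin_two] at h

section commutation

variable {p : ℕ} (hp : p ≠ 0)
include hp

theorem hm_mul_of_eq (g : SL(2, ℤ)) (j j' : ℕ) (e : ℤ)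
    (he : g 0 1 + j * g 1 1 = j' * (g 0 0 + j * g 1 0) + p * e) :
    ∃ g' : SL(2, ℤ), g' 1 0 = p * g 1 0 ∧ g' 1 1 = g 1 1 - g 1 0 * j' ∧
      heckeMatrix p j * mapGL ℝ g = mapGL ℝ g' * heckeMatrix p j' := by
  have hdet := det_eq g
  refine ⟨⟨!![g 0 0 + j * g 1 0, e; p * g 1 0, g 1 1 - g 1 0 * j'], ?_⟩, rfl, rfl, ?_⟩
  · rw [Matrix.det_fin_two_of]
    linear_combination hdet + (g 1 0) * he
  · ext i j
    fin_cases i <;> fin_cases j <;>
      simp [hp, Matrix.mul_apply, Fin.sum_univ_two]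
    all_goals first
      | (have := congrArg (Int.cast : ℤ → ℝ) he; push_cast at this ⊢; linear_combination this)
      | (have := congrArg (Int.cast : ℤ → ℝ) he; push_cast at this ⊢; linear_combination -this)
      | ring1

theorem hm_mul_of_eq' (g : SL(2, ℤ)) (j : ℕ) (e : ℤ)
    (he : g 0 0 + j * g 1 0 = p * e) :
    ∃ g' : SL(2, ℤ), g' 1 0 = g 1 0 ∧ g' 1 1 = p * g 1 1 ∧
      heckeMatrix p j * mapGL ℝ g = mapGL ℝ g' * heckeDiagMatrix p := by
  have hdet := det_eq g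
  refine ⟨⟨!![e, g 0 1 + j * g 1 1; g 1 0, p * g 1 1], ?_⟩, rfl, rfl, ?_⟩
  · rw [Matrix.det_fin_two_of]
    linear_combination hdet - (g 1 1) * he
  · ext i j
    fin_cases i <;> fin_cases j <;>
      simp [hp, Matrix.mul_apply, Fin.sum_univ_two]
    all_goals first
      | (have := congrArg (Int.cast : ℤ → ℝ) he; push_cast at this ⊢; linear_combination this)
      | (have := congrArg (Int.cast : ℤ → ℝ) he; push_cast at this ⊢; linear_combination -this)
      | ring1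

theorem hd_mul_of_eq (g : SL(2, ℤ)) (j' : ℕ) (e : ℤ)
    (he : g 1 1 = g 1 0 * j' + p * e) :
    ∃ g' : SL(2, ℤ), g' 1 0 = g 1 0 ∧ g' 1 1 = e ∧
      heckeDiagMatrix p * mapGL ℝ g = mapGL ℝ g' * heckeMatrix p j' := by
  have hdet := det_eq g
  refine ⟨⟨!![p * g 0 0, g 0 1 - g 0 0 * j'; g 1 0, e], ?_⟩, rfl, rfl, ?_⟩
  · rw [Matrix.det_fin_two_of]
    linear_combination hdet - (g 0 0) * he
  · ext i j
    fin_cases i <;> fin_cases j <;>
      simp [hp, Matrix.mul_apply, Fin.sum_univ_two]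
    all_goals first
      | (have := congrArg (Int.cast : ℤ → ℝ) he; push_cast at this ⊢; linear_combination this)
      | (have := congrArg (Int.cast : ℤ → ℝ) he; push_cast at this ⊢; linear_combination -this)
      | ring1

theorem hd_mul_of_eq' (g : SL(2, ℤ)) (e : ℤ) (he : g 1 0 = p * e) :
    ∃ g' : SL(2, ℤ), g' 1 0 = e ∧ g' 1 1 = g 1 1 ∧
      heckeDiagMatrix p * mapGL ℝ g = mapGL ℝ g' * heckeDiagMatrix p := by
  have hdet := det_eq g
  refine ⟨⟨!![g 0 0, p * g 0 1; e, g 1 1], ?_⟩, rfl, rfl, ?_⟩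
  · rw [Matrix.det_fin_two_of]
    linear_combination hdet + (g 0 1) * he
  · ext i j
    fin_cases i <;> fin_cases j <;>
      simp [hp, Matrix.mul_apply, Fin.sum_univ_two]
    all_goals first
      | (have := congrArg (Int.cast : ℤ → ℝ) he; push_cast at this ⊢; linear_combination this)
      | (have := congrArg (Int.cast : ℤ → ℝ) he; push_cast at this ⊢; linear_combination -this)
      | ring1

end commutation

section reindex

variable {p : ℕ} [NeZero p]

theorem sum_range_eq_sum_zmod' {M : Type*} [AddCommMonoid M] (F : ℕ → M) :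
    ∑ j ∈ Finset.range p, F j = ∑ x : ZMod p, F x.val := by
  refine Finset.sum_nbij' (fun j : ℕ ↦ (j : ZMod p)) (fun x : ZMod p ↦ x.val)
    (fun _ _ ↦ Finset.mem_univ _)
    (fun x _ ↦ Finset.mem_range.mpr x.val_lt) (fun j hj ↦ ?_) (fun x _ ↦ ?_) (fun j hj ↦ ?_)
  · exact ZMod.val_cast_of_lt (Finset.mem_range.mp hj)
  · exact ZMod.natCast_zmod_val x
  · rw [ZMod.val_cast_of_lt (Finset.mem_range.mp hj)]

end reindex

section rep

variable {p : ℕ}

/-- The representatives `a_x`, `x ∈ ℙ¹(𝔽_p)`. -/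
def rep (p : ℕ) (x : OnePoint (ZMod p)) : GL (Fin 2) ℝ :=
  x.elim (heckeDiagMatrix p) (fun j ↦ heckeMatrix p j.val)

theorem rep_infty : rep p ∞ = heckeDiagMatrix p := rfl

theorem rep_coe (j : ZMod p) : rep p j = heckeMatrix p j.val := rfl

/-- The weights: `c` at `∞`, `1` at the finite points. -/
def wt (c : ℂ) (x : OnePoint (ZMod p)) : ℂ :=
  x.elim c (fun _ ↦ 1)

theorem wt_infty (c : ℂ) : wt (p := p) c ∞ = c := rfl

theorem wt_coe (c : ℂ) (j : ZMod p) : wt c (j : OnePoint (ZMod p)) = 1 := rfl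

/-- The twisted Hecke operator as a function. -/
def TChi (k : ℤ) (p : ℕ) (c : ℂ) (f : ℍ → ℂ) : ℍ → ℂ :=
  heckeU k p f + c • (f ∣[k] heckeDiagMatrix p)

theorem TChi_eq_sum [NeZero p] (k : ℤ) (c : ℂ) (f : ℍ → ℂ) :
    TChi k p c f = ∑ x : OnePoint (ZMod p), wt c x • (f ∣[k] rep p x) := by
  have h := Fintype.sum_option (fun x : OnePoint (ZMod p) ↦ wt c x • (f ∣[k] rep p x))
  refine Eq.trans ?_ h.symm
  rw [TChi, heckeU_def, sum_range_eq_sum_zmod', add_comm]
  congr 1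
  refine Finset.sum_congr rfl fun x _ ↦ ?_
  change f ∣[k] heckeMatrix p x.val = (1 : ℂ) • (f ∣[k] heckeMatrix p x.val)
  rw [one_smul]

end rep

section red

variable {p : ℕ} [Fact p.Prime]

/-- The matrix `[[d, b], [c, a]]` mod `p` of `g = [[a, b], [c, d]]`. -/
def redM (p : ℕ) [Fact p.Prime] (g : SL(2, ℤ)) : GL (Fin 2) (ZMod p) :=
  Matrix.GeneralLinearGroup.mkOfDetNeZero
    !![((g 1 1 : ℤ) : ZMod p), ((g 0 1 : ℤ) : ZMod p);
      ((g 1 0 : ℤ) : ZMod p), ((g 0 0 : ℤ) : ZMod p)]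
    (by
      have := congrArg (Int.cast : ℤ → ZMod p) (det_eq g)
      push_cast at this
      rw [Matrix.det_fin_two_of,
        show ((g 1 1 : ℤ) : ZMod p) * ((g 0 0 : ℤ) : ZMod p) -
            ((g 0 1 : ℤ) : ZMod p) * ((g 1 0 : ℤ) : ZMod p) = 1 by linear_combination this]
      exact one_ne_zero)

theorem redM_00 (g : SL(2, ℤ)) : redM p g 0 0 = ((g 1 1 : ℤ) : ZMod p) := by
  simp [redM]

theorem redM_01 (g : SL(2, ℤ)) : redM p g 0 1 = ((g 0 1 : ℤ) : ZMod p) := by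
  simp [redM]

theorem redM_10 (g : SL(2, ℤ)) : redM p g 1 0 = ((g 1 0 : ℤ) : ZMod p) := by
  simp [redM]

theorem redM_11 (g : SL(2, ℤ)) : redM p g 1 1 = ((g 0 0 : ℤ) : ZMod p) := by
  simp [redM]

end red

section repmul

variable {p : ℕ} [Fact p.Prime]

theorem rep_mul_chi {M : ℕ} (χ : DirichletCharacter ℂ M) (hpM : ¬ p ∣ M) (g : SL(2, ℤ))
    (hg : (M : ℤ) ∣ g 1 0) (x : OnePoint (ZMod p)) :
    ∃ g' : SL(2, ℤ), (M : ℤ) ∣ g' 1 0 ∧
      rep p x * mapGL ℝ g = mapGL ℝ g' * rep p (redM p g • x) ∧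
      wt (χ (p : ZMod M)) x * χ (((g' 1 1 : ℤ)) : ZMod M) =
        χ (((g 1 1 : ℤ)) : ZMod M) * wt (χ (p : ZMod M)) (redM p g • x) := by
  have hp : p ≠ 0 := (Fact.out : p.Prime).ne_zero
  have : NeZero p := ⟨hp⟩
  have hc0 : (((g 1 0 : ℤ)) : ZMod M) = 0 := (ZMod.intCast_zmod_eq_zero_iff_dvd _ _).mpr hg
  induction x using OnePoint.rec with
  | infty =>
    rw [OnePoint.smul_infty_eq_ite]
    by_cases hc : ((g 1 0 : ℤ) : ZMod p) = 0
    · rw [if_pos (by simpa [redM_10] using hc), rep_infty]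
      obtain ⟨e, he⟩ := (ZMod.intCast_zmod_eq_zero_iff_dvd _ _).mp hc
      obtain ⟨g', hg', hg'', hmul⟩ := hd_mul_of_eq' hp g e he
      refine ⟨g', ?_, hmul, ?_⟩
      · rw [hg']
        have hcop : IsCoprime (M : ℤ) (p : ℤ) :=
          Nat.isCoprime_iff_coprime.mpr
            ((Nat.Prime.coprime_iff_not_dvd Fact.out).mpr hpM).symm
        exact hcop.dvd_of_dvd_mul_left (he ▸ hg)
      · rw [hg'', mul_comm]
    · rw [if_neg (by simpa [redM_10] using hc), rep_infty, rep_coe]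
      set y : ZMod p := redM p g 0 0 / redM p g 1 0 with hy
      obtain ⟨e, he⟩ : (p : ℤ) ∣ g 1 1 - g 1 0 * y.val := by
        rw [← ZMod.intCast_zmod_eq_zero_iff_dvd]
        push_cast
        rw [ZMod.natCast_zmod_val, hy, redM_00, redM_10, mul_div_cancel₀ _ hc, sub_self]
      obtain ⟨g', hg', hg'', hmul⟩ := hd_mul_of_eq hp g y.val e (by linear_combination he)
      refine ⟨g', hg' ▸ hg, hmul, ?_⟩
      rw [wt_infty, wt_coe, mul_one, hg'', ← map_mul]
      congr 1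
      have h1 := congrArg (Int.cast : ℤ → ZMod M) he
      push_cast at h1
      rw [hc0, zero_mul, sub_zero] at h1
      exact h1.symm
  | coe j =>
    rw [OnePoint.smul_some_eq_ite]
    by_cases h : redM p g 1 0 * j + redM p g 1 1 = 0
    · rw [if_pos h, rep_infty, rep_coe]
      rw [redM_10, redM_11] at h
      obtain ⟨e, he⟩ : (p : ℤ) ∣ g 0 0 + j.val * g 1 0 := by
        rw [← ZMod.intCast_zmod_eq_zero_iff_dvd]
        push_cast
        rw [ZMod.natCast_zmod_val]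
        linear_combination h
      obtain ⟨g', hg', hg'', hmul⟩ := hm_mul_of_eq' hp g j.val e he
      refine ⟨g', hg' ▸ hg, hmul, ?_⟩
      rw [wt_infty, wt_coe, one_mul, hg'']
      push_cast
      rw [map_mul, mul_comm]
    · rw [if_neg h, rep_coe, rep_coe]
      set y : ZMod p := (redM p g 0 0 * j + redM p g 0 1) /
        (redM p g 1 0 * j + redM p g 1 1) with hy
      obtain ⟨e, he⟩ : (p : ℤ) ∣ g 0 1 + j.val * g 1 1 - y.val * (g 0 0 + j.val * g 1 0) := by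
        rw [← ZMod.intCast_zmod_eq_zero_iff_dvd]
        push_cast
        rw [ZMod.natCast_zmod_val, ZMod.natCast_zmod_val,
          show ((g 0 0 : ℤ) : ZMod p) + j * ((g 1 0 : ℤ) : ZMod p)
            = redM p g 1 0 * j + redM p g 1 1 by
              rw [redM_10, redM_11]; ring,
          hy, div_mul_cancel₀ _ h, redM_00, redM_01]
        ring
      obtain ⟨g', hg', hg'', hmul⟩ := hm_mul_of_eq hp g j.val y.val e (by linear_combination he)
      refine ⟨g', hg' ▸ dvd_mul_of_dvd_right hg _, hmul, ?_⟩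
      rw [wt_coe, wt_coe, one_mul, mul_one, hg'']
      congr 1
      push_cast
      rw [hc0, zero_mul, sub_zero]

end repmul

section slash

variable {p : ℕ}

theorem σ_rep (x : OnePoint (ZMod p)) : UpperHalfPlane.σ (rep p x) = .refl ℝ ℂ := by
  induction x using OnePoint.rec with
  | infty => exact σ_heckeDiagMatrix p
  | coe j => exact σ_heckeMatrix p j.val

theorem smul_slash_rep (k : ℤ) (c : ℂ) (f : ℍ → ℂ) (x : OnePoint (ZMod p)) :
    (c • f) ∣[k] rep p x = c • (f ∣[k] rep p x) := by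
  rw [ModularForm.smul_slash, σ_rep, ContinuousAlgEquiv.refl_apply]

variable [Fact p.Prime] {M : ℕ}

theorem TChi_slash (χ : DirichletCharacter ℂ M) (k : ℤ) (hpM : ¬ p ∣ M) (f : ℍ → ℂ)
    (hf : HasNeb M χ k f) (g : SL(2, ℤ)) (hg : g ∈ Gamma0 M) :
    TChi k p (χ (p : ZMod M)) f ∣[k] g =
      χ (((g 1 1 : ℤ)) : ZMod M) • TChi k p (χ (p : ZMod M)) f := by
  have : NeZero p := ⟨(Fact.out : p.Prime).ne_zero⟩
  have hcM : (M : ℤ) ∣ g 1 0 :=
    (ZMod.intCast_zmod_eq_zero_iff_dvd _ _).mp (Gamma0_mem.mp hg)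
  rw [TChi_eq_sum, SlashAction.sum_slash, Finset.smul_sum]
  calc ∑ x : OnePoint (ZMod p), (wt (χ (p : ZMod M)) x • (f ∣[k] rep p x)) ∣[k] g
      = ∑ x : OnePoint (ZMod p), χ (((g 1 1 : ℤ)) : ZMod M) •
          (wt (χ (p : ZMod M)) (redM p g • x) • (f ∣[k] rep p (redM p g • x))) := by
        refine Finset.sum_congr rfl fun x _ ↦ ?_
        obtain ⟨g', hg', hmul, hw⟩ := rep_mul_chi χ hpM g hcM x
        have hg'M : g' ∈ Gamma0 M :=
          Gamma0_mem.mpr ((ZMod.intCast_zmod_eq_zero_iff_dvd _ _).mpr hg')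
        have h1 : (f ∣[k] rep p x) ∣[k] g = (f ∣[k] g') ∣[k] rep p (redM p g • x) := by
          change (f ∣[k] rep p x) ∣[k] (mapGL ℝ g) =
            (f ∣[k] (mapGL ℝ g')) ∣[k] rep p (redM p g • x)
          rw [← SlashAction.slash_mul, hmul, SlashAction.slash_mul]
        rw [SL_smul_slash, h1, hf g' hg'M, smul_slash_rep, smul_smul, smul_smul, hw]
    _ = ∑ x : OnePoint (ZMod p), χ (((g 1 1 : ℤ)) : ZMod M) •
          (wt (χ (p : ZMod M)) x • (f ∣[k] rep p x)) :=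
        Equiv.sum_comp (MulAction.toPerm (redM p g))
          (fun x ↦ χ (((g 1 1 : ℤ)) : ZMod M) • (wt (χ (p : ZMod M)) x • (f ∣[k] rep p x)))

end slash

section form

theorem isZeroAt_const_smul {c : OnePoint ℝ} {f : ℍ → ℂ} {k : ℤ} (a : ℂ)
    (hf : c.IsZeroAt f k) : c.IsZeroAt (a • f) k := by
  intro g hg
  rw [ModularForm.smul_slash]
  exact Filter.ZeroAtFilter.smul _ (hf g hg)

variable {M : ℕ} [NeZero M] {k : ℤ}

theorem isZeroAt_diag (g : CuspForm (Gamma1 M) k) (p : ℕ) {c : OnePoint ℝ}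
    (hc : IsCusp c (Gamma1 M : Subgroup (GL (Fin 2) ℝ))) :
    c.IsZeroAt ((g : ℍ → ℂ) ∣[k] heckeDiagMatrix p) k := by
  obtain ⟨γ, hγ⟩ :=
    P2MW.S_CuspFormClass_isZeroAt_heckeT.ModularForm.S06W2.exists_heckeDiagMatrix_eq_map p
  rw [hγ]
  exact P2MW.S_CuspFormClass_isZeroAt_heckeT.ModularForm.S06W2.isZeroAt_slash_ratCast g γ hc

theorem isZeroAt_TChi (g : CuspForm (Gamma1 M) k) (p : ℕ) (a : ℂ) {c : OnePoint ℝ}
    (hc : IsCusp c (Gamma1 M : Subgroup (GL (Fin 2) ℝ))) :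
    c.IsZeroAt (TChi k p a g) k :=
  (CuspFormClass.isZeroAt_heckeU g p hc).add (isZeroAt_const_smul a (isZeroAt_diag g p hc))

theorem mdiff_TChi (g : CuspForm (Gamma1 M) k) (p : ℕ) (a : ℂ) :
    MDiff (TChi k p a g) := by
  have h1 : MDiff (heckeU k p (g : ℍ → ℂ)) :=
    P2MW.S_UpperHalfPlane_qCoeff_heckeT.M4cP1W2.mdifferentiable_heckeU k p (ModularFormClass.holo g)
  have h2 : MDiff ((g : ℍ → ℂ) ∣[k] heckeDiagMatrix p) := (ModularFormClass.holo g).slash k _
  have h3 : MDiff (a • ((g : ℍ → ℂ) ∣[k] heckeDiagMatrix p)) := by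
    have : MDiff (fun _ : ℍ ↦ a) := mdifferentiable_const
    exact this.mul h2
  exact h1.add h3

end form

section final

open P2MW.S_UpperHalfPlane_qCoeff_heckeT.M4cP1W2

variable {M : ℕ} [NeZero M] {k : ℤ}

theorem one_mem_strictPeriods_Gamma1' (N : ℕ) :
    (1 : ℝ) ∈ ((Gamma1 N : Subgroup (GL (Fin 2) ℝ))).strictPeriods := by
  rw [CongruenceSubgroup.strictPeriods_Gamma1]
  exact AddSubgroup.mem_zmultiples 1

/-- The Hecke operator `T_p` with character as a cusp form. -/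
def TChiForm (χ : DirichletCharacter ℂ M) (g : CuspForm (Gamma1 M) k) (hg : HasNeb M χ k g)
    (p : ℕ) (hp : p.Prime) (hpM : ¬ p ∣ M) : CuspForm (Gamma1 M) k where
  toFun := TChi k p (χ (p : ZMod M)) g
  slash_action_eq' := by
    intro γ hγ
    have : Fact p.Prime := ⟨hp⟩
    obtain ⟨γ₀, hγ₀, rfl⟩ := hγ
    have h0 : γ₀ ∈ Gamma0 M := Gamma1_in_Gamma0 M hγ₀
    have h1 := TChi_slash χ k hpM g hg γ₀ h0
    have h2 : (((γ₀ 1 1 : ℤ)) : ZMod M) = 1 := ((Gamma1_mem M γ₀).1 hγ₀).2.1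
    rw [h2, map_one, one_smul] at h1
    exact h1
  holo' := mdiff_TChi g p _
  zero_at_cusps' := fun hc => isZeroAt_TChi g p _ hc

theorem TChiForm_coe (χ : DirichletCharacter ℂ M) (g : CuspForm (Gamma1 M) k)
    (hg : HasNeb M χ k g) (p : ℕ) (hp : p.Prime) (hpM : ¬ p ∣ M) :
    ((TChiForm χ g hg p hp hpM : CuspForm (Gamma1 M) k) : ℍ → ℂ) =
      TChi k p (χ (p : ZMod M)) g := rfl

theorem hasSum_TChi (g : CuspForm (Gamma1 M) k) {p : ℕ} (hp : p ≠ 0) (a : ℂ) (τ : ℍ) :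
    HasSum (fun n : ℕ ↦ (ModularFormClass.qCoeff g (p * n) + a * (p : ℂ) ^ (k - 1) *
        (if p ∣ n then ModularFormClass.qCoeff g (n / p) else 0)) • Function.Periodic.qParam 1 τ ^ n)
      (TChi k p a g τ) := by
  have : Fact (IsCusp OnePoint.infty (Gamma1 M : Subgroup (GL (Fin 2) ℝ))) :=
    ⟨Subgroup.isCusp_of_mem_strictPeriods one_pos (one_mem_strictPeriods_Gamma1' M)⟩
  have hper := SlashInvariantFormClass.periodic_comp_ofComplex g (one_mem_strictPeriods_Gamma1' M)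
  have hhol := ModularFormClass.holo g
  have hbdd := ModularFormClass.bdd_at_infty g
  have h1 := hasSum_average hp hper hhol hbdd τ
  have h2 := (hasSum_diag hp hper hhol hbdd k τ).mul_left a
  have h3 := h1.add h2
  have hval : TChi k p a g τ = (p : ℂ)⁻¹ * ∑ j ∈ Finset.range p, g (heckeMatrix p j • τ) +
      a * ((p : ℂ) ^ (k - 1) * g (heckeDiagMatrix p • τ)) := by
    rw [TChi, Pi.add_apply, heckeU_apply k hp, Pi.smul_apply, slash_heckeDiagMatrix_apply k hp,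
      smul_eq_mul]
  rw [hval]
  convert h3 using 1
  funext n
  rw [smul_eq_mul, mul_comm p n]
  split_ifs <;> ring

theorem qCoeff_TChiForm (χ : DirichletCharacter ℂ M) (g : CuspForm (Gamma1 M) k)
    (hg : HasNeb M χ k g) (p : ℕ) (hp : p.Prime) (hpM : ¬ p ∣ M) (n : ℕ) :
    ModularFormClass.qCoeff (TChiForm χ g hg p hp hpM) n =
      ModularFormClass.qCoeff g (p * n) + χ (p : ZMod M) * (p : ℂ) ^ (k - 1) *
        (if p ∣ n then ModularFormClass.qCoeff g (n / p) else 0) := by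
  have : Fact (IsCusp OnePoint.infty (Gamma1 M : Subgroup (GL (Fin 2) ℝ))) :=
    ⟨Subgroup.isCusp_of_mem_strictPeriods one_pos (one_mem_strictPeriods_Gamma1' M)⟩
  set G := TChiForm χ g hg p hp hpM with hG
  have hper := SlashInvariantFormClass.periodic_comp_ofComplex G (one_mem_strictPeriods_Gamma1' M)
  have hhol := ModularFormClass.holo G
  have hbdd := ModularFormClass.bdd_at_infty G
  exact (qExpansion_coeff_unique' hhol.continuous
    (analyticAt_cuspFunction_zero one_pos hper hhol hbdd)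
    (fun τ => hasSum_TChi g hp.ne_zero (χ (p : ZMod M)) τ) n).symm

theorem hasNeb_TChiForm (χ : DirichletCharacter ℂ M) (g : CuspForm (Gamma1 M) k)
    (hg : HasNeb M χ k g) (p : ℕ) (hp : p.Prime) (hpM : ¬ p ∣ M) :
    HasNeb M χ k (TChiForm χ g hg p hp hpM) := by
  intro γ hγ
  have : Fact p.Prime := ⟨hp⟩
  exact TChi_slash χ k hpM g hg γ hγ

end final

/-- **HeckeNeb**. -/
theorem stmt_HeckeNeb : Stmt_HeckeNeb := by
  intro M _ χ k g hg p hp hpM
  exact ⟨TChiForm χ g hg p hp hpM, hasNeb_TChiForm χ g hg p hp hpM,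
    fun n => qCoeff_TChiForm χ g hg p hp hpM n⟩

end Fermat.Agent.S48.B1.H19
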