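import Mathlib

/-!
# S48 B1 (a): weight one Eisenstein series, part 1 — the cotangent form (helper22)

`cotP w = π cot (π w)`.  For `Im w > 0` it is `-π i - 2 π i x / (1 - x)`, `x = exp (2 π i w)`,
hence `cotP w + π i` is exponentially small as `Im w → ∞`.

`Zc z τ = cotP z + ∑_{m ≥ 1} (cotP (z + m τ) + cotP (z - m τ))` is the "Eisenstein summation" form
of `ζ(z; τ) - G₂(τ) z` (Weierstrass zeta function).
-/

set_option autoImplicit false

open UpperHalfPlane hiding I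
open Complex Filter Topology
open scoped Real

noncomputable section

namespace Fermat.Agent.S48.B1.H22

/-- `π cot (π w)`. -/
def cotP (w : ℂ) : ℂ := π * Complex.cot (π * w)

theorem cotP_eq_exp_ratio (w : ℂ) :
    cotP w = π * ((cexp (2 * π * I * w) + 1) / (I * (1 - cexp (2 * π * I * w)))) := by
  rw [cotP, Complex.cot_pi_eq_exp_ratio]

theorem exp_two_pi_I_add_one (w : ℂ) : cexp (2 * π * I * (w + 1)) = cexp (2 * π * I * w) := by
  rw [mul_add, mul_one, Complex.exp_add, Complex.exp_two_pi_mul_I, mul_one]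

theorem cotP_add_one (w : ℂ) : cotP (w + 1) = cotP w := by
  rw [cotP_eq_exp_ratio, cotP_eq_exp_ratio, exp_two_pi_I_add_one]

theorem cotP_sub_one (w : ℂ) : cotP (w - 1) = cotP w := by
  have := cotP_add_one (w - 1)
  rw [sub_add_cancel] at this
  exact this.symm

theorem cotP_add_int (w : ℂ) (n : ℤ) : cotP (w + n) = cotP w := by
  induction n using Int.induction_on with
  | zero => simp
  | succ k ih =>
    rw [show w + ((k + 1 : ℤ) : ℂ) = (w + k) + 1 by push_cast; ring, cotP_add_one]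
    exact_mod_cast ih
  | pred k ih =>
    rw [show w + ((-(k : ℤ) - 1 : ℤ) : ℂ) = (w + (-(k : ℤ) : ℤ)) - 1 by push_cast; ring,
      cotP_sub_one]
    exact ih

theorem cotP_neg (w : ℂ) : cotP (-w) = -cotP w := by
  unfold cotP
  rw [mul_neg, Complex.cot, Complex.cos_neg, Complex.sin_neg, Complex.cot]
  ring

/-- The nome `exp (2 π i w)`. -/
def nome (w : ℂ) : ℂ := cexp (2 * π * I * w)

theorem norm_nome (w : ℂ) : ‖nome w‖ = Real.exp (-2 * π * w.im) := by
  rw [nome, Complex.norm_exp]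
  congr 1
  simp only [mul_re, re_ofNat, ofReal_re, im_ofNat, ofReal_im, mul_zero, sub_zero, Complex.I_re,
    mul_im, zero_mul, add_zero, Complex.I_im]
  ring

theorem norm_nome_lt_one {w : ℂ} (hw : 0 < w.im) : ‖nome w‖ < 1 := by
  rw [norm_nome, Real.exp_lt_one_iff]
  have := Real.pi_pos
  nlinarith

theorem nome_ne_one {w : ℂ} (hw : 0 < w.im) : nome w ≠ 1 := by
  intro h
  have := norm_nome_lt_one hw
  rw [h, norm_one] at this
  exact lt_irrefl _ this

/-- For `Im w > 0`: `π cot (π w) + π i = -2 π i x / (1 - x)`. -/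
theorem cotP_add_pi_I {w : ℂ} (hw : 0 < w.im) :
    cotP w + π * I = -2 * π * I * (nome w / (1 - nome w)) := by
  rw [cotP_eq_exp_ratio]
  have h1 : (1 : ℂ) - nome w ≠ 0 := sub_ne_zero.2 (nome_ne_one hw).symm
  change π * ((nome w + 1) / (I * (1 - nome w))) + π * I = _
  field_simp
  ring_nf
  rw [Complex.I_sq]
  ring

/-- The exponential bound for `cotP w + π i`. -/
theorem norm_cotP_add_pi_I_le {w : ℂ} {t : ℝ} (ht : 0 < t) (hw : t ≤ w.im) :
    ‖cotP w + π * I‖ ≤ 2 * π * (Real.exp (-2 * π * t) / (1 - Real.exp (-2 * π * t))) := by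
  have hw0 : 0 < w.im := lt_of_lt_of_le ht hw
  rw [cotP_add_pi_I hw0]
  have hx : ‖nome w‖ ≤ Real.exp (-2 * π * t) := by
    rw [norm_nome]
    apply Real.exp_le_exp.2
    have := Real.pi_pos
    nlinarith
  have hx1 : Real.exp (-2 * π * t) < 1 := by
    rw [Real.exp_lt_one_iff]
    have := Real.pi_pos
    nlinarith
  have hx0 : 0 ≤ ‖nome w‖ := norm_nonneg _
  have hden : 1 - Real.exp (-2 * π * t) ≤ ‖1 - nome w‖ := by
    have := norm_sub_norm_le (1 : ℂ) (nome w)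
    rw [norm_one] at this
    linarith
  have hden0 : 0 < 1 - Real.exp (-2 * π * t) := by linarith
  rw [norm_mul, norm_div]
  have h2 : ‖(-2 * π * I : ℂ)‖ = 2 * π := by
    simp [abs_of_pos Real.pi_pos]
  rw [h2]
  apply mul_le_mul_of_nonneg_left _ (by positivity)
  exact div_le_div₀ (Real.exp_pos _).le hx hden0 hden

theorem natCast_mul_coe_im (n : ℕ) (τ : ℍ) : ((n : ℂ) * (τ : ℂ)).im = n * τ.im := by
  simp

theorem intCast_mul_coe_im (n : ℤ) (τ : ℍ) : ((n : ℂ) * (τ : ℂ)).im = n * τ.im := by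
  simp

/-- The `m`-th term of the cotangent form. -/
def zcTerm (z : ℂ) (τ : ℍ) (m : ℕ) : ℂ :=
  cotP (z + (m : ℂ) * (τ : ℂ)) + cotP (z - (m : ℂ) * (τ : ℂ))

theorem zcTerm_eq (z : ℂ) (τ : ℍ) (m : ℕ) :
    zcTerm z τ m = (cotP (z + (m : ℂ) * (τ : ℂ)) + π * I) - (cotP ((m : ℂ) * (τ : ℂ) - z) + π * I) := by
  rw [zcTerm, show z - (m : ℂ) * (τ : ℂ) = -((m : ℂ) * (τ : ℂ) - z) by ring, cotP_neg]
  ring

/-- Bound for the `m`-th term when both `z + m τ` and `m τ - z` have imaginary part `≥ t`. -/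
theorem norm_zcTerm_le (z : ℂ) (τ : ℍ) (m : ℕ) {t : ℝ} (ht : 0 < t)
    (h1 : t ≤ (z + (m : ℂ) * (τ : ℂ)).im) (h2 : t ≤ ((m : ℂ) * (τ : ℂ) - z).im) :
    ‖zcTerm z τ m‖ ≤ 4 * π * (Real.exp (-2 * π * t) / (1 - Real.exp (-2 * π * t))) := by
  rw [zcTerm_eq]
  refine (norm_sub_le _ _).trans ?_
  have a := norm_cotP_add_pi_I_le ht h1
  have b := norm_cotP_add_pi_I_le ht h2
  linarith

/-- The cotangent form `Zc z τ = π cot π z + ∑_{m ≥ 1} (π cot π(z + mτ) + π cot π(z - mτ))`. -/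
def Zc (z : ℂ) (τ : ℍ) : ℂ := cotP z + ∑' m : ℕ, zcTerm z τ (m + 1)

theorem zcTerm_add_one (z : ℂ) (τ : ℍ) (m : ℕ) : zcTerm (z + 1) τ m = zcTerm z τ m := by
  unfold zcTerm
  rw [show z + 1 + (m : ℂ) * (τ : ℂ) = (z + (m : ℂ) * (τ : ℂ)) + 1 by ring,
    show z + 1 - (m : ℂ) * (τ : ℂ) = (z - (m : ℂ) * (τ : ℂ)) + 1 by ring, cotP_add_one,
    cotP_add_one]

theorem Zc_add_one (z : ℂ) (τ : ℍ) : Zc (z + 1) τ = Zc z τ := by
  unfold Zc
  rw [cotP_add_one]
  congr 1
  exact tsum_congr fun m => zcTerm_add_one z τ (m + 1)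

theorem Zc_add_int (z : ℂ) (τ : ℍ) (n : ℤ) : Zc (z + n) τ = Zc z τ := by
  induction n using Int.induction_on with
  | zero => simp
  | succ k ih =>
    rw [show z + ((k + 1 : ℤ) : ℂ) = (z + k) + 1 by push_cast; ring, Zc_add_one]
    exact_mod_cast ih
  | pred k ih =>
    have h := Zc_add_one (z + ((-(k : ℤ) - 1 : ℤ) : ℂ)) τ
    rw [show z + ((-(k : ℤ) - 1 : ℤ) : ℂ) + 1 = z + ((-(k : ℤ) : ℤ) : ℂ) by push_cast; ring] at h
    rw [← h]
    exact ih

/-- A geometric majorant: `exp (-2π t m)`-type bound. -/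
theorem exp_div_le {x : ℝ} (hx0 : 0 ≤ x) (hx : x ≤ 1 / 2) : x / (1 - x) ≤ 2 * x := by
  rw [div_le_iff₀ (by linarith)]
  nlinarith

theorem summable_zcTerm (z : ℂ) (τ : ℍ) : Summable fun m : ℕ => zcTerm z τ (m + 1) := by
  have hy : 0 < τ.im := τ.im_pos
  -- eventually `m τ.im - |z.im| ≥ m τ.im / 2` and `exp(-π m y) ≤ 1/2`
  have hgeo : Summable fun m : ℕ => 8 * π * Real.exp (-π * τ.im) ^ m := by
    apply Summable.mul_left
    apply summable_geometric_of_lt_one (Real.exp_pos _).le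
    rw [Real.exp_lt_one_iff]
    have := Real.pi_pos
    nlinarith
  refine Summable.of_norm_bounded_eventually_nat hgeo ?_
  obtain ⟨M, hM⟩ := exists_nat_gt (max (2 * |z.im| / τ.im) (1 / τ.im))
  filter_upwards [eventually_ge_atTop M] with m hm
  have hmM : (M : ℝ) ≤ m := by exact_mod_cast hm
  have h1 : 2 * |z.im| / τ.im < m := lt_of_lt_of_le ((le_max_left _ _).trans_lt hM) hmM
  have h2 : 1 / τ.im < m := lt_of_lt_of_le ((le_max_right _ _).trans_lt hM) hmM
  rw [div_lt_iff₀ hy] at h1 h2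
  set t : ℝ := (m : ℝ) * τ.im / 2 with ht
  have ht0 : 0 < t := by
    rw [ht]
    linarith
  have hz := abs_le.1 (le_refl |z.im|)
  have himτ : (((m + 1 : ℕ) : ℂ) * (τ : ℂ)).im = (m : ℝ) * τ.im + τ.im := by
    rw [natCast_mul_coe_im]
    push_cast
    ring
  have him1 : t ≤ (z + ((m + 1 : ℕ) : ℂ) * (τ : ℂ)).im := by
    rw [add_im, himτ, ht]
    linarith [hz.1]
  have him2 : t ≤ (((m + 1 : ℕ) : ℂ) * (τ : ℂ) - z).im := by
    rw [sub_im, himτ, ht]
    linarith [hz.2]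
  refine (norm_zcTerm_le z τ (m + 1) ht0 him1 him2).trans ?_
  have hx : Real.exp (-2 * π * t) = Real.exp (-π * τ.im) ^ m := by
    rw [← Real.exp_nat_mul]
    congr 1
    rw [ht]
    ring
  have hxle : Real.exp (-2 * π * t) ≤ 1 / 2 := by
    have h3 : -2 * π * t ≤ -1 := by
      have := Real.pi_gt_three
      rw [ht]
      nlinarith
    calc Real.exp (-2 * π * t) ≤ Real.exp (-1) := Real.exp_le_exp.2 h3
      _ ≤ 1 / 2 := by
        have := Real.exp_neg_one_lt_d9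
        norm_num at this ⊢
        linarith
  have := exp_div_le (Real.exp_pos _).le hxle
  rw [← hx]
  have hpi := Real.pi_pos
  nlinarith

end Fermat.Agent.S48.B1.H22
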