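import Mathlib
import Fermat.Agent.Lib.TwistedEisenstein
import Fermat.Agent.S48.B1.H22_Eis1Cot

/-!
# S48 B1 (a): weight one Eisenstein series, part 2 — the Weierstrass zeta function (helper22)

`W z τ = 1/z + ∑_{ω ≠ 0} (1/(z - ω) + 1/ω + z/ω²)` over the lattice `ℤ τ + ℤ`: absolutely
convergent, homogeneous of degree `-1` and `SL(2, ℤ)`-equivariant (reindexing).

Bridge: `W z τ - z G₂(τ) = Zc z τ` (sum over `n` first, then symmetric summation over `m`).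

Consequences: `Zc (z / (cτ+d)) (γ τ) = (cτ+d) Zc z τ + 2 π i c z` and `Zc (z + τ) τ = Zc z τ - 2 π i`.
-/

set_option autoImplicit false

open UpperHalfPlane hiding I
open Complex Filter Topology EisensteinSeries Matrix ModularForm
open scoped Real MatrixGroups

noncomputable section

namespace Fermat.Agent.S48.B1.H22

open Fermat.Agent.Lib.TwistedEisenstein (vecMulEquiv vecMulEquiv_apply)

/-- The lattice point `v₀ τ + v₁`. -/
def lam (τ : ℍ) (v : Fin 2 → ℤ) : ℂ := (v 0 : ℂ) * (τ : ℂ) + (v 1 : ℂ)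

theorem lam_zero (τ : ℍ) : lam τ 0 = 0 := by simp [lam]

theorem lam_ne_zero (τ : ℍ) {v : Fin 2 → ℤ} (hv : v ≠ 0) : lam τ v ≠ 0 := by
  have h := UpperHalfPlane.linear_ne_zero (cd := fun i => ((v i : ℤ) : ℝ)) τ (by
    intro h0
    apply hv
    funext i
    have := congrFun h0 i
    simpa using this)
  simpa [lam] using h

theorem lam_cons (τ : ℍ) (m n : ℤ) : lam τ ![m, n] = (m : ℂ) * (τ : ℂ) + (n : ℂ) := by
  simp [lam]

theorem lam_smul (γ : SL(2, ℤ)) (τ : ℍ) (v : Fin 2 → ℤ) :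
    lam (γ • τ) v = lam τ (v ᵥ* (γ : Matrix (Fin 2) (Fin 2) ℤ)) / denom γ τ := by
  have h := eisSummand_SL2_apply (-1) v γ τ
  simp only [eisSummand, neg_neg, zpow_one, _root_.zpow_neg] at h
  rw [lam, lam, h]
  field_simp [denom_ne_zero γ τ]

/-- `z` is not a point of the lattice `ℤ τ + ℤ`. -/
def NotLat (z : ℂ) (τ : ℍ) : Prop := ∀ v : Fin 2 → ℤ, z ≠ lam τ v

theorem NotLat.ne_zero {z : ℂ} {τ : ℍ} (h : NotLat z τ) : z ≠ 0 := by
  have := h 0
  rwa [lam_zero] at this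

theorem NotLat.smul {z : ℂ} {τ : ℍ} (h : NotLat z τ) (γ : SL(2, ℤ)) :
    NotLat (z / denom γ τ) (γ • τ) := by
  intro v hv
  rw [lam_smul, div_left_inj' (denom_ne_zero γ τ)] at hv
  exact h _ hv

theorem NotLat.add_lam {z : ℂ} {τ : ℍ} (h : NotLat z τ) (u : Fin 2 → ℤ) :
    NotLat (z + lam τ u) τ := by
  intro v hv
  apply h (v - u)
  have : lam τ (v - u) = lam τ v - lam τ u := by
    simp only [lam, Pi.sub_apply, Int.cast_sub]
    ring
  rw [this, ← hv]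
  ring

/-- The general term of the Weierstrass zeta function. -/
def wTerm (z : ℂ) (τ : ℍ) (v : Fin 2 → ℤ) : ℂ :=
  if v = 0 then 1 / z else 1 / (z - lam τ v) + 1 / lam τ v + z / lam τ v ^ 2

/-- The Weierstrass zeta function of the lattice `ℤ τ + ℤ`. -/
def W (z : ℂ) (τ : ℍ) : ℂ := ∑' v : Fin 2 → ℤ, wTerm z τ v

theorem wTerm_eq_of_ne {z ω : ℂ} (hω : ω ≠ 0) (hz : z ≠ ω) :
    1 / (z - ω) + 1 / ω + z / ω ^ 2 = z ^ 2 / (ω ^ 2 * (z - ω)) := by
  have : z - ω ≠ 0 := sub_ne_zero.2 hz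
  field_simp
  ring

theorem vecMul_eq_zero_iff (γ : SL(2, ℤ)) (v : Fin 2 → ℤ) :
    v ᵥ* (γ : Matrix (Fin 2) (Fin 2) ℤ) = 0 ↔ v = 0 := by
  constructor
  · intro h
    have := congrArg (fun u => (vecMulEquiv γ).symm u) h
    simp only [← vecMulEquiv_apply, Equiv.symm_apply_apply] at this
    rw [this]
    simp [Fermat.Agent.Lib.TwistedEisenstein.vecMulEquiv_symm_apply]
  · rintro rfl
    simp

/-- Homogeneity / equivariance of the general term. -/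
theorem wTerm_smul (γ : SL(2, ℤ)) (z : ℂ) (τ : ℍ) (v : Fin 2 → ℤ) :
    wTerm (z / denom γ τ) (γ • τ) v
      = denom γ τ * wTerm z τ (v ᵥ* (γ : Matrix (Fin 2) (Fin 2) ℤ)) := by
  have hD := denom_ne_zero γ τ
  unfold wTerm
  by_cases hv : v = 0
  · rw [if_pos hv, if_pos ((vecMul_eq_zero_iff γ v).2 hv)]
    field_simp
  · rw [if_neg hv, if_neg (fun h => hv ((vecMul_eq_zero_iff γ v).1 h)), lam_smul]
    set ω := lam τ (v ᵥ* (γ : Matrix (Fin 2) (Fin 2) ℤ)) with hω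
    have hω0 : ω ≠ 0 := lam_ne_zero τ (fun h => hv ((vecMul_eq_zero_iff γ v).1 h))
    rw [← sub_div, one_div_div, one_div_div, div_pow, div_div_div_eq, mul_add, mul_add]
    congr 1
    · congr 1
      · rw [mul_one_div]
      · rw [mul_one_div]
    · field_simp

/-- `SL(2, ℤ)`-equivariance of the Weierstrass zeta function. -/
theorem W_smul (γ : SL(2, ℤ)) (z : ℂ) (τ : ℍ) :
    W (z / denom γ τ) (γ • τ) = denom γ τ * W z τ := by
  unfold W
  simp_rw [wTerm_smul]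
  rw [tsum_mul_left]
  congr 1
  exact (vecMulEquiv γ).tsum_eq (fun u => wTerm z τ u)

/-! ### Summability -/

theorem tendsto_norm_cofinite : Tendsto (fun v : Fin 2 → ℤ => ‖v‖) cofinite atTop := by
  have := tendsto_norm_comp_cofinite_atTop_of_isClosedEmbedding
    (IsClosedEmbedding.id (X := Fin 2 → ℤ))
  simpa [Function.comp_def] using this

theorem summable_wTerm (z : ℂ) (τ : ℍ) : Summable (wTerm z τ) := by
  apply summable_of_isBigO_rpow_norm (a := 3) (by norm_num)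
  have hr : 0 < r τ := r_pos τ
  rw [Asymptotics.isBigO_iff]
  refine ⟨2 * ‖z‖ ^ 2 * (r τ ^ 3)⁻¹, ?_⟩
  have hev : ∀ᶠ v : Fin 2 → ℤ in cofinite, (2 * ‖z‖ + 1) / r τ ≤ ‖v‖ :=
    tendsto_norm_cofinite.eventually_ge_atTop _
  filter_upwards [hev] with v hv
  rw [div_le_iff₀ hr] at hv
  have hv0 : v ≠ 0 := by
    rintro rfl
    rw [norm_zero, zero_mul] at hv
    have := norm_nonneg z
    linarith
  have hvpos : 0 < ‖v‖ := norm_pos_iff.2 hv0
  have hlam : r τ * ‖v‖ ≤ ‖lam τ v‖ := r_mul_max_le τ hv0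
  have hlam1 : 2 * ‖z‖ + 1 ≤ ‖lam τ v‖ := by
    rw [mul_comm] at hlam
    exact hv.trans hlam
  have hzne : z ≠ lam τ v := by
    intro h
    rw [← h] at hlam1
    have := norm_nonneg z
    linarith
  have hω0 : lam τ v ≠ 0 := lam_ne_zero τ hv0
  have hsub : ‖lam τ v‖ / 2 ≤ ‖z - lam τ v‖ := by
    have := norm_sub_norm_le (lam τ v) z
    rw [norm_sub_rev] at this
    linarith
  have hωpos : 0 < ‖lam τ v‖ := norm_pos_iff.2 hω0
  rw [wTerm, if_neg hv0, wTerm_eq_of_ne hω0 hzne, norm_div, norm_mul, norm_pow, norm_pow,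
    Real.norm_of_nonneg (by positivity)]
  have h3 : (‖v‖ ^ (3 : ℝ)) = ‖v‖ ^ 3 := by
    rw [← Real.rpow_natCast]
    norm_num
  have hsubpos : 0 < ‖z - lam τ v‖ := lt_of_lt_of_le (by positivity) hsub
  rw [h3, div_le_iff₀ (by positivity)]
  have key : ‖z‖ ^ 2 * (r τ * ‖v‖) ^ 3 ≤ ‖z‖ ^ 2 * ‖lam τ v‖ ^ 3 := by
    apply mul_le_mul_of_nonneg_left _ (by positivity)
    exact pow_le_pow_left₀ (by positivity) hlam 3
  have e1 : 2 * ‖z‖ ^ 2 * (r τ ^ 3)⁻¹ * (‖v‖ ^ 3)⁻¹ * (‖lam τ v‖ ^ 2 * ‖z - lam τ v‖)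
      = 2 * (‖z‖ ^ 2 * (r τ * ‖v‖) ^ 3)⁻¹ * ‖z‖ ^ 2 * ‖z‖ ^ 2
        * (‖lam τ v‖ ^ 2 * ‖z - lam τ v‖) := by
    by_cases hz : ‖z‖ = 0
    · rw [hz]; ring
    · field_simp
  by_cases hz : ‖z‖ = 0
  · rw [hz]
    simp
  have hzpos : 0 < ‖z‖ := lt_of_le_of_ne (norm_nonneg _) (Ne.symm hz)
  calc ‖z‖ ^ 2 = ‖z‖ ^ 2 * ((‖lam τ v‖ ^ 3) * (‖lam τ v‖ ^ 3)⁻¹) := by
        rw [mul_inv_cancel₀ (by positivity), mul_one]
    _ ≤ ‖z‖ ^ 2 * ((‖lam τ v‖ ^ 2 * (2 * ‖z - lam τ v‖)) * ((r τ * ‖v‖) ^ 3)⁻¹) := by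
        apply mul_le_mul_of_nonneg_left _ (by positivity)
        apply mul_le_mul
        · have : ‖lam τ v‖ ^ 3 = ‖lam τ v‖ ^ 2 * ‖lam τ v‖ := by ring
          rw [this]
          apply mul_le_mul_of_nonneg_left _ (by positivity)
          linarith
        · exact inv_anti₀ (by positivity) (pow_le_pow_left₀ (by positivity) hlam 3)
        · positivity
        · positivity
    _ = 2 * ‖z‖ ^ 2 * (r τ ^ 3)⁻¹ * (‖v‖ ^ 3)⁻¹ * (‖lam τ v‖ ^ 2 * ‖z - lam τ v‖) := by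
        rw [mul_pow, mul_inv]
        ring

end Fermat.Agent.S48.B1.H22
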