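import Mathlib
import Fermat.Agent.S48.B1.H22_Eis1Zeta

/-!
# S48 B1 (a): weight one Eisenstein series, part 3 — the bridge `W - z G₂ = Zc` (helper22)
-/

set_option autoImplicit false

open UpperHalfPlane hiding I
open Complex Filter Topology EisensteinSeries Matrix ModularForm SummationFilter
open scoped Real MatrixGroups

noncomputable section

namespace Fermat.Agent.S48.B1.H22

/-! ### The cotangent difference series -/

theorem summable_cotDiff {w w' : ℂ} (hw : w ∈ integerComplement) (hw' : w' ∈ integerComplement) :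
    Summable fun n : ℤ => 1 / (w + n) - 1 / (w' + n) := by
  have h1 : Summable fun n : ℤ => ((w + n) * (w' + n))⁻¹ := by
    apply summable_inv_of_isBigO_rpow_inv (a := 2) (by norm_num)
    have a1 := linear_inv_isBigO_right 1 w
    have a2 := linear_inv_isBigO_right 1 w'
    simpa [pow_two] using! a2.mul a1
  refine (h1.mul_left (w' - w)).congr fun n => ?_
  have e1 := integerComplement_add_ne_zero hw n
  have e2 := integerComplement_add_ne_zero hw' n
  field_simp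
  ring

theorem tsum_pair {f : ℤ → ℂ} (hf : Summable f) :
    ∑' n : ℤ, f n = f 0 + ∑' n : ℕ, (f ((n : ℤ) + 1) + f (-((n : ℤ) + 1))) := by
  have hp : Summable fun n : ℕ => f ((n : ℤ) + 1) :=
    hf.comp_injective (i := fun n : ℕ => ((n : ℤ) + 1)) (by
      intro a b h
      simpa using h)
  have hn : Summable fun n : ℕ => f (-((n : ℤ) + 1)) :=
    hf.comp_injective (i := fun n : ℕ => -((n : ℤ) + 1)) (by
      intro a b h
      simpa using h)
  rw [tsum_of_add_one_of_neg_add_one hp hn, hp.tsum_add hn]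
  ring

theorem tsum_cotDiff {w w' : ℂ} (hw : w ∈ integerComplement) (hw' : w' ∈ integerComplement) :
    ∑' n : ℤ, (1 / (w + n) - 1 / (w' + n)) = cotP w - cotP w' := by
  rw [tsum_pair (summable_cotDiff hw hw')]
  have c1 := cot_series_rep' hw
  have c2 := cot_series_rep' hw'
  have s1 := summable_cotTerm hw
  have s2 := summable_cotTerm hw'
  have e : (fun n : ℕ => (1 / (w + (((n : ℤ) + 1 : ℤ) : ℂ)) - 1 / (w' + (((n : ℤ) + 1 : ℤ) : ℂ)))
      + (1 / (w + ((-((n : ℤ) + 1) : ℤ) : ℂ)) - 1 / (w' + ((-((n : ℤ) + 1) : ℤ) : ℂ))))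
      = fun n : ℕ => cotTerm w n - cotTerm w' n := by
    funext n
    simp only [cotTerm]
    push_cast
    ring
  rw [e, s1.tsum_sub s2]
  simp only [cotTerm] at c1 c2 ⊢
  rw [← c1, ← c2]
  simp only [cotP, Int.cast_zero, add_zero]
  ring

/-! ### Rows -/

/-- The part of `wTerm` without the `z / ω²` term. -/
def aTerm (z : ℂ) (τ : ℍ) (m n : ℤ) : ℂ :=
  if m = 0 ∧ n = 0 then 1 / z else 1 / (z - lam τ ![m, n]) + 1 / lam τ ![m, n]

theorem aTerm_of_ne (z : ℂ) (τ : ℍ) {m n : ℤ} (h : ¬ (m = 0 ∧ n = 0)) :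
    aTerm z τ m n = 1 / (z - lam τ ![m, n]) + 1 / lam τ ![m, n] := if_neg h

theorem aTerm_zero_zero (z : ℂ) (τ : ℍ) : aTerm z τ 0 0 = 1 / z := if_pos ⟨rfl, rfl⟩

theorem cons_eq_zero_iff (m n : ℤ) : (![m, n] : Fin 2 → ℤ) = 0 ↔ m = 0 ∧ n = 0 := by
  constructor
  · intro h
    exact ⟨by simpa using congrFun h 0, by simpa using congrFun h 1⟩
  · rintro ⟨rfl, rfl⟩
    funext i
    fin_cases i <;> simp

theorem wTerm_eq_aTerm (z : ℂ) (τ : ℍ) (m n : ℤ) :
    wTerm z τ ![m, n] = aTerm z τ m n + z * eisSummand 2 ![m, n] τ := by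
  unfold wTerm aTerm
  by_cases h : m = 0 ∧ n = 0
  · rw [if_pos ((cons_eq_zero_iff m n).2 h), if_pos h]
    obtain ⟨rfl, rfl⟩ := h
    simp [eisSummand]
  · rw [if_neg (fun h' => h ((cons_eq_zero_iff m n).1 h')), if_neg h]
    simp only [eisSummand, lam, Matrix.cons_val_zero, Matrix.cons_val_one]
    rw [_root_.zpow_neg, div_eq_mul_inv]
    norm_cast

theorem summable_row_wTerm (z : ℂ) (τ : ℍ) (m : ℤ) :
    Summable fun n : ℤ => wTerm z τ ![m, n] := by
  have h := (finTwoArrowEquiv ℤ).symm.summable_iff.2 (summable_wTerm z τ)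
  exact h.prod_factor m

theorem summable_aTerm (z : ℂ) (τ : ℍ) (m : ℤ) : Summable fun n : ℤ => aTerm z τ m n := by
  have h1 := summable_row_wTerm z τ m
  have h2 := (e2Summand_summable m τ).mul_left z
  refine (h1.sub h2).congr fun n => ?_
  rw [wTerm_eq_aTerm]
  ring

/-- The value of the `m`-th row of the `aTerm`s. -/
def rowC (z : ℂ) (τ : ℍ) (m : ℤ) : ℂ :=
  if m = 0 then cotP z else cotP ((m : ℂ) * (τ : ℂ)) + cotP (z - (m : ℂ) * (τ : ℂ))

theorem mul_coe_mem_integerComplement (τ : ℍ) {m : ℤ} (hm : m ≠ 0) :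
    (m : ℂ) * (τ : ℂ) ∈ integerComplement := by
  rw [mem_integerComplement_iff]
  rintro ⟨k, hk⟩
  have := congrArg Complex.im hk
  rw [intCast_mul_coe_im, intCast_im] at this
  have h2 : (m : ℝ) ≠ 0 := by exact_mod_cast hm
  exact (mul_ne_zero h2 τ.im_ne_zero) this.symm

theorem NotLat.mem_integerComplement {z : ℂ} {τ : ℍ} (h : NotLat z τ) (m : ℤ) :
    (m : ℂ) * (τ : ℂ) - z ∈ integerComplement := by
  rw [mem_integerComplement_iff]
  rintro ⟨k, hk⟩
  apply h ![m, -k]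
  rw [lam_cons]
  push_cast
  rw [hk]
  ring

theorem NotLat.self_mem_integerComplement {z : ℂ} {τ : ℍ} (h : NotLat z τ) :
    z ∈ integerComplement := by
  rw [mem_integerComplement_iff]
  rintro ⟨k, hk⟩
  apply h ![0, k]
  rw [lam_cons, ← hk]
  simp

theorem tsum_aTerm {z : ℂ} {τ : ℍ} (h : NotLat z τ) (m : ℤ) :
    ∑' n : ℤ, aTerm z τ m n = rowC z τ m := by
  by_cases hm : m = 0
  · subst hm
    rw [tsum_pair (summable_aTerm z τ 0), rowC, if_pos rfl]
    have c1 := cot_series_rep' h.self_mem_integerComplement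
    have e : (fun n : ℕ => aTerm z τ 0 ((n : ℤ) + 1) + aTerm z τ 0 (-((n : ℤ) + 1)))
        = fun n : ℕ => cotTerm z n := by
      funext n
      have h1 : ¬ ((0 : ℤ) = 0 ∧ (n : ℤ) + 1 = 0) := by omega
      have h2 : ¬ ((0 : ℤ) = 0 ∧ -((n : ℤ) + 1) = 0) := by omega
      rw [aTerm_of_ne z τ h1, aTerm_of_ne z τ h2, lam_cons, lam_cons]
      simp only [cotTerm]
      push_cast
      have e2 : 1 / (-((n : ℂ) + 1)) = -(1 / ((n : ℂ) + 1)) := by
        rw [one_div, one_div, inv_neg]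
      rw [zero_mul, zero_add, zero_add, e2, sub_neg_eq_add]
      ring
    rw [e]
    simp only [cotTerm] at c1 ⊢
    rw [← c1, aTerm_zero_zero]
    simp only [cotP]
    ring
  · rw [rowC, if_neg hm]
    have hw := mul_coe_mem_integerComplement τ hm
    have hw' := h.mem_integerComplement m
    have key := tsum_cotDiff hw hw'
    have e : (fun n : ℤ => aTerm z τ m n)
        = fun n : ℤ => 1 / ((m : ℂ) * (τ : ℂ) + n) - 1 / ((m : ℂ) * (τ : ℂ) - z + n) := by
      funext n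
      have h1 : ¬ (m = 0 ∧ n = 0) := fun hh => hm hh.1
      rw [aTerm_of_ne z τ h1, lam_cons]
      have e1 : z - ((m : ℂ) * (τ : ℂ) + n) = -((m : ℂ) * (τ : ℂ) - z + n) := by ring
      rw [e1, one_div, one_div, one_div, inv_neg]
      ring
    rw [e, key, show z - (m : ℂ) * (τ : ℂ) = -((m : ℂ) * (τ : ℂ) - z) by ring, cotP_neg]
    ring

/-- The row sums of the Weierstrass zeta function. -/
theorem tsum_row_wTerm {z : ℂ} {τ : ℍ} (h : NotLat z τ) (m : ℤ) :
    ∑' n : ℤ, wTerm z τ ![m, n] = rowC z τ m + z * e2Summand m τ := by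
  simp_rw [wTerm_eq_aTerm]
  rw [(summable_aTerm z τ m).tsum_add ((e2Summand_summable m τ).mul_left z), tsum_aTerm h,
    tsum_mul_left]
  rfl

theorem W_eq_tsum_rows (z : ℂ) (τ : ℍ) :
    HasSum (fun m : ℤ => ∑' n : ℤ, wTerm z τ ![m, n]) (W z τ) := by
  have h := (finTwoArrowEquiv ℤ).symm.summable_iff.2 (summable_wTerm z τ)
  have h2 := h.hasSum.prod_fiberwise (fun m => (h.prod_factor m).hasSum)
  have e : ∑' p : ℤ × ℤ, (wTerm z τ ∘ (finTwoArrowEquiv ℤ).symm) p = W z τ :=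
    (finTwoArrowEquiv ℤ).symm.tsum_eq (wTerm z τ)
  rw [e] at h2
  exact h2

/-! ### Symmetric partial sums -/

theorem sum_Icc_rowC (z : ℂ) (τ : ℍ) (M : ℕ) :
    ∑ m ∈ Finset.Icc (-(M : ℤ)) M, rowC z τ m
      = cotP z + ∑ k ∈ Finset.range M, zcTerm z τ (k + 1) := by
  induction M with
  | zero => simp [rowC]
  | succ M ih =>
    have hI : Finset.Icc (-((M + 1 : ℕ) : ℤ)) ((M + 1 : ℕ) : ℤ)
        = insert (-((M : ℤ) + 1)) (insert ((M : ℤ) + 1) (Finset.Icc (-(M : ℤ)) M)) := by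
      ext x
      simp only [Finset.mem_Icc, Finset.mem_insert, Nat.cast_add, Nat.cast_one]
      omega
    rw [hI, Finset.sum_insert, Finset.sum_insert, ih, Finset.sum_range_succ]
    · have h1 : ((M : ℤ) + 1) ≠ 0 := by omega
      have h2 : (-((M : ℤ) + 1)) ≠ 0 := by omega
      simp only [rowC, if_neg h1, if_neg h2, zcTerm]
      push_cast
      have e1 : (-((M : ℂ) + 1)) * (τ : ℂ) = -(((M : ℂ) + 1) * (τ : ℂ)) := by ring
      rw [e1, cotP_neg, sub_neg_eq_add]
      ring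
    · simp only [Finset.mem_Icc]
      omega
    · simp only [Finset.mem_insert, Finset.mem_Icc]
      omega

/-- **The bridge**: `W z τ - z G₂(τ) = Zc z τ`. -/
theorem W_sub_G2 {z : ℂ} {τ : ℍ} (h : NotLat z τ) : W z τ - z * G2 τ = Zc z τ := by
  have hW : Tendsto (fun M : ℕ => ∑ m ∈ Finset.Icc (-(M : ℤ)) M, ∑' n : ℤ, wTerm z τ ![m, n])
      atTop (𝓝 (W z τ)) := by
    have h1 : HasSum (fun m : ℤ => ∑' n : ℤ, wTerm z τ ![m, n]) (W z τ) (symmetricIcc ℤ) :=
      (W_eq_tsum_rows z τ).mono_left (symmetricIcc ℤ).le_atTop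
    exact hasSum_symmetricIcc_iff.1 h1
  have hG : Tendsto (fun M : ℕ => ∑ m ∈ Finset.Icc (-(M : ℤ)) M, e2Summand m τ)
      atTop (𝓝 (G2 τ)) :=
    hasSum_symmetricIcc_iff.1 (summable_e2Summand_symmetricIcc τ).hasSum
  have hC : Tendsto (fun M : ℕ => ∑ m ∈ Finset.Icc (-(M : ℤ)) M, rowC z τ m)
      atTop (𝓝 (W z τ - z * G2 τ)) := by
    have := hW.sub (hG.const_mul z)
    refine this.congr fun M => ?_
    rw [Finset.mul_sum, ← Finset.sum_sub_distrib]
    refine Finset.sum_congr rfl fun m _ => ?_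
    rw [tsum_row_wTerm h]
    ring
  have hZ : Tendsto (fun M : ℕ => ∑ m ∈ Finset.Icc (-(M : ℤ)) M, rowC z τ m)
      atTop (𝓝 (Zc z τ)) := by
    simp_rw [sum_Icc_rowC]
    exact ((summable_zcTerm z τ).hasSum.tendsto_sum_nat).const_add _
  exact tendsto_nhds_unique hC hZ

/-! ### Transformation laws for `Zc` -/

/-- The modular transformation law of `Zc`. -/
theorem Zc_smul (γ : SL(2, ℤ)) {z : ℂ} {τ : ℍ} (h : NotLat z τ) :
    Zc (z / denom γ τ) (γ • τ) = denom γ τ * Zc z τ + 2 * π * I * (γ 1 0 : ℂ) * z := by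
  have hD := denom_ne_zero γ τ
  rw [← W_sub_G2 (h.smul γ), ← W_sub_G2 h, W_smul]
  have hG := congrFun (G2_slash_action γ) τ
  simp only [SL_slash_apply, Pi.sub_apply, D2] at hG
  have hD2 : denom γ τ ^ (-2 : ℤ) = (denom γ τ ^ 2)⁻¹ := by
    rw [_root_.zpow_neg]
    norm_cast
  rw [hD2] at hG
  have hG' : G2 (γ • τ) = denom γ τ ^ 2 * G2 τ - 2 * π * I * (γ 1 0 : ℂ) * denom γ τ := by
    have h2 : G2 (γ • τ) = (G2 τ - 2 * π * I * (γ 1 0 : ℂ) / denom γ τ) * denom γ τ ^ 2 := by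
      rw [← hG, mul_assoc, inv_mul_cancel₀ (pow_ne_zero _ hD), mul_one]
    rw [h2]
    field_simp
  rw [hG']
  field_simp
  ring

end Fermat.Agent.S48.B1.H22
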