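import Mathlib
import Fermat.Agent.S48.B1.H22_Eis1Bridge

/-!
# S48 B1 (a): weight one Eisenstein series, part 4 — the division values `Φ_u` (helper22)

`Φ_{N,u}(τ) = Zc ((u₀ τ + u₁)/N) τ + 2 π i u₀ / N` for `u ∈ ℤ² ∖ N ℤ²`:
* depends only on `u` mod `N`;
* `Φ_u ∣[1] γ = Φ_{u γ}` for `γ ∈ SL(2, ℤ)`;
* holomorphic on `ℍ` and bounded at `i∞`.
-/

set_option autoImplicit false

open UpperHalfPlane hiding I
open Complex Filter Topology EisensteinSeries Matrix ModularForm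
open scoped Real MatrixGroups Manifold

noncomputable section

namespace Fermat.Agent.S48.B1.H22

/-! ### Quasi-periodicity in the direction `τ` -/

theorem lam_one_zero (τ : ℍ) : lam τ ![1, 0] = (τ : ℂ) := by
  simp [lam]

theorem Zc_add_tau {z : ℂ} {τ : ℍ} (h : NotLat z τ) :
    Zc (z + (τ : ℂ)) τ = Zc z τ - 2 * π * I := by
  have hτ : (τ : ℂ) ≠ 0 := ne_zero τ
  have h' : NotLat (z + (τ : ℂ)) τ := by
    have := h.add_lam ![1, 0]
    rwa [lam_one_zero] at this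
  have e1 := Zc_smul ModularGroup.S h
  have e2 := Zc_smul ModularGroup.S h'
  rw [ModularGroup.denom_S] at e1 e2
  have hS : ((ModularGroup.S 1 0 : ℤ) : ℂ) = 1 := by
    simp [ModularGroup.S]
  rw [hS] at e1 e2
  have e3 : (z + (τ : ℂ)) / (τ : ℂ) = z / (τ : ℂ) + 1 := by
    field_simp
  rw [e3, Zc_add_one, e1] at e2
  have key : (τ : ℂ) * (Zc (z + (τ : ℂ)) τ - (Zc z τ - 2 * π * I)) = 0 := by
    linear_combination -e2
  have := (mul_eq_zero.1 key).resolve_left hτ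
  exact sub_eq_zero.1 this

theorem Zc_add_int_mul_tau {z : ℂ} {τ : ℍ} (h : NotLat z τ) (k : ℤ) :
    Zc (z + (k : ℂ) * (τ : ℂ)) τ = Zc z τ - 2 * π * I * k := by
  have hk : ∀ j : ℤ, NotLat (z + (j : ℂ) * (τ : ℂ)) τ := by
    intro j
    have := h.add_lam ![j, 0]
    rwa [lam_cons, Int.cast_zero, add_zero] at this
  induction k using Int.induction_on with
  | zero => simp
  | succ k ih =>
    have e : z + (((k : ℤ) + 1 : ℤ) : ℂ) * (τ : ℂ) = (z + ((k : ℤ) : ℂ) * (τ : ℂ)) + (τ : ℂ) := by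
      push_cast
      ring
    rw [e, Zc_add_tau (hk k), ih]
    push_cast
    ring
  | pred k ih =>
    have e : z + ((-(k : ℤ) : ℤ) : ℂ) * (τ : ℂ)
        = (z + ((-(k : ℤ) - 1 : ℤ) : ℂ) * (τ : ℂ)) + (τ : ℂ) := by
      push_cast
      ring
    have := Zc_add_tau (hk (-(k : ℤ) - 1))
    rw [← e, ih] at this
    rw [eq_sub_iff_add_eq] at this
    rw [← this]
    push_cast
    ring

theorem Zc_add_lam {z : ℂ} {τ : ℍ} (h : NotLat z τ) (b : Fin 2 → ℤ) :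
    Zc (z + lam τ b) τ = Zc z τ - 2 * π * I * (b 0 : ℂ) := by
  rw [lam, ← add_assoc, Zc_add_int, Zc_add_int_mul_tau h]

/-! ### The division values -/

/-- The `N`-division point attached to `u`. -/
def zOf (N : ℕ) (u : Fin 2 → ℤ) (τ : ℍ) : ℂ := lam τ u / N

/-- The weight one division value `Φ_{N,u}`. -/
def Phi (N : ℕ) (u : Fin 2 → ℤ) (τ : ℍ) : ℂ :=
  Zc (zOf N u τ) τ + 2 * π * I * (u 0 : ℂ) / N

/-- `u` is not divisible by `N`. -/
def NZ (N : ℕ) (u : Fin 2 → ℤ) : Prop := ¬ ((N : ℤ) ∣ u 0 ∧ (N : ℤ) ∣ u 1)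

theorem lam_add (τ : ℍ) (u v : Fin 2 → ℤ) : lam τ (u + v) = lam τ u + lam τ v := by
  simp only [lam, Pi.add_apply, Int.cast_add]
  ring

theorem lam_sub (τ : ℍ) (u v : Fin 2 → ℤ) : lam τ (u - v) = lam τ u - lam τ v := by
  simp only [lam, Pi.sub_apply, Int.cast_sub]
  ring

theorem lam_nsmul (τ : ℍ) (N : ℕ) (v : Fin 2 → ℤ) : lam τ ((N : ℤ) • v) = N * lam τ v := by
  simp only [lam, Pi.smul_apply, smul_eq_mul, Int.cast_mul, Int.cast_natCast]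
  ring

theorem lam_injective (τ : ℍ) {u v : Fin 2 → ℤ} (h : lam τ u = lam τ v) : u = v := by
  by_contra hne
  have h1 : u - v ≠ 0 := sub_ne_zero.2 hne
  exact lam_ne_zero τ h1 (by rw [lam_sub, h, sub_self])

theorem notLat_zOf {N : ℕ} (hN : N ≠ 0) {u : Fin 2 → ℤ} (hu : NZ N u) (τ : ℍ) :
    NotLat (zOf N u τ) τ := by
  intro v hv
  have hN' : (N : ℂ) ≠ 0 := by exact_mod_cast hN
  rw [zOf, div_eq_iff hN', mul_comm, ← lam_nsmul] at hv
  have := lam_injective τ hv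
  apply hu
  constructor
  · exact ⟨v 0, by rw [this]; simp⟩
  · exact ⟨v 1, by rw [this]; simp⟩

theorem NZ.add_smul {N : ℕ} {u : Fin 2 → ℤ} (hu : NZ N u) (b : Fin 2 → ℤ) :
    NZ N (u + (N : ℤ) • b) := by
  intro h
  apply hu
  simp only [Pi.add_apply, Pi.smul_apply, smul_eq_mul] at h
  exact ⟨(Int.dvd_add_left (dvd_mul_right _ _)).1 h.1, (Int.dvd_add_left (dvd_mul_right _ _)).1 h.2⟩

/-- `Φ_u` only depends on `u` modulo `N`. -/
theorem Phi_add_smul {N : ℕ} (hN : N ≠ 0) {u : Fin 2 → ℤ} (hu : NZ N u) (b : Fin 2 → ℤ)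
    (τ : ℍ) : Phi N (u + (N : ℤ) • b) τ = Phi N u τ := by
  have hN' : (N : ℂ) ≠ 0 := by exact_mod_cast hN
  have e : zOf N (u + (N : ℤ) • b) τ = zOf N u τ + lam τ b := by
    rw [zOf, zOf, lam_add, lam_nsmul]
    field_simp
  rw [Phi, Phi, e, Zc_add_lam (notLat_zOf hN hu τ)]
  simp only [Pi.add_apply, Pi.smul_apply, smul_eq_mul, Int.cast_add, Int.cast_mul,
    Int.cast_natCast]
  field_simp
  ring

theorem NZ.vecMul {N : ℕ} {u : Fin 2 → ℤ} (hu : NZ N u) (γ : SL(2, ℤ)) :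
    NZ N (u ᵥ* (γ : Matrix (Fin 2) (Fin 2) ℤ)) := by
  intro h
  apply hu
  have e := Fermat.Agent.Lib.TwistedEisenstein.vecMul_vecMul_inv γ u
  set w := u ᵥ* (γ : Matrix (Fin 2) (Fin 2) ℤ) with hw
  have h0 : ∀ j, (N : ℤ) ∣ (w ᵥ* ((γ⁻¹ : SL(2, ℤ)) : Matrix (Fin 2) (Fin 2) ℤ)) j := by
    intro j
    simp only [Matrix.vecMul, dotProduct, Fin.sum_univ_two]
    exact dvd_add (Dvd.dvd.mul_right h.1 _) (Dvd.dvd.mul_right h.2 _)
  rw [e] at h0
  exact ⟨h0 0, h0 1⟩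

/-- The transformation law of the division values. -/
theorem Phi_smul {N : ℕ} (hN : N ≠ 0) {u : Fin 2 → ℤ} (hu : NZ N u) (γ : SL(2, ℤ)) (τ : ℍ) :
    Phi N u (γ • τ) = denom γ τ * Phi N (u ᵥ* (γ : Matrix (Fin 2) (Fin 2) ℤ)) τ := by
  have hN' : (N : ℂ) ≠ 0 := by exact_mod_cast hN
  have hD := denom_ne_zero γ τ
  have e : zOf N u (γ • τ) = zOf N (u ᵥ* (γ : Matrix (Fin 2) (Fin 2) ℤ)) τ / denom γ τ := by
    rw [zOf, zOf, lam_smul]
    field_simp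
  rw [Phi, Phi, e, Zc_smul γ (notLat_zOf hN (hu.vecMul γ) τ)]
  have hdet : (γ 0 0 : ℂ) * (γ 1 1 : ℂ) - (γ 0 1 : ℂ) * (γ 1 0 : ℂ) = 1 := by
    have := γ.det_coe
    rw [Matrix.det_fin_two] at this
    exact_mod_cast this
  have hden : denom γ τ = (γ 1 0 : ℂ) * (τ : ℂ) + (γ 1 1 : ℂ) := by
    rw [ModularGroup.denom_apply]
  rw [hden, zOf, lam]
  simp only [Matrix.vecMul, dotProduct, Fin.sum_univ_two, Int.cast_add, Int.cast_mul]
  field_simp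
  linear_combination (-(2 * π * I * (u 0 : ℂ))) * hdet

theorem Phi_slash {N : ℕ} (hN : N ≠ 0) {u : Fin 2 → ℤ} (hu : NZ N u) (γ : SL(2, ℤ)) :
    (Phi N u) ∣[(1 : ℤ)] γ = Phi N (u ᵥ* (γ : Matrix (Fin 2) (Fin 2) ℤ)) := by
  ext τ
  rw [SL_slash_apply, Phi_smul hN hu, _root_.zpow_neg, zpow_one, mul_comm, ← mul_assoc,
    inv_mul_cancel₀ (denom_ne_zero γ τ), one_mul]

end Fermat.Agent.S48.B1.H22
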