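import Mathlib
import Fermat.Agent.S48.B1.H22_Eis1Phi

/-!
# S48 B1 (a): weight one Eisenstein series, part 5 — holomorphy and cusps of `Φ_u` (helper22)
-/

set_option autoImplicit false

open UpperHalfPlane hiding I
open Complex Filter Topology EisensteinSeries Matrix ModularForm
open scoped Real MatrixGroups Manifold

noncomputable section

namespace Fermat.Agent.S48.B1.H22

theorem nome_ne_one' {w : ℂ} (hw : w.im ≠ 0) : nome w ≠ 1 := by
  intro h
  have h1 := norm_nome w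
  rw [h, norm_one] at h1
  have h2 : -2 * π * w.im = 0 := by
    have := congrArg Real.log h1
    rwa [Real.log_one, Real.log_exp, eq_comm] at this
  have hpi := Real.pi_pos
  rcases mul_eq_zero.1 h2 with h3 | h3
  · linarith
  · exact hw h3

theorem differentiableAt_cotP {w : ℂ} (hw : w.im ≠ 0) : DifferentiableAt ℂ cotP w := by
  have e : cotP = fun w : ℂ =>
      π * ((cexp (2 * π * I * w) + 1) / (I * (1 - cexp (2 * π * I * w)))) :=
    funext cotP_eq_exp_ratio
  rw [e]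
  have h1 : (1 : ℂ) - cexp (2 * π * I * w) ≠ 0 := sub_ne_zero.2 (nome_ne_one' hw).symm
  refine DifferentiableAt.const_mul (DifferentiableAt.div ?_ ?_ ?_) _
  · fun_prop
  · fun_prop
  · exact mul_ne_zero I_ne_zero h1

/-! ### The complex-variable form -/

/-- The division point as a function of a complex variable. -/
def zC (N : ℕ) (u : Fin 2 → ℤ) (w : ℂ) : ℂ := ((u 0 : ℂ) * w + (u 1 : ℂ)) / N

/-- The `m`-th term as a function of a complex variable. -/
def termC (N : ℕ) (u : Fin 2 → ℤ) (m : ℕ) (w : ℂ) : ℂ :=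
  cotP (zC N u w + (m : ℂ) * w) + cotP (zC N u w - (m : ℂ) * w)

/-- `Φ_u` as a function of a complex variable. -/
def PhiC (N : ℕ) (u : Fin 2 → ℤ) (w : ℂ) : ℂ :=
  cotP (zC N u w) + ∑' m : ℕ, termC N u (m + 1) w + 2 * π * I * (u 0 : ℂ) / N

theorem zOf_eq_zC (N : ℕ) (u : Fin 2 → ℤ) (τ : ℍ) : zOf N u τ = zC N u (τ : ℂ) := rfl

theorem zcTerm_eq_termC (N : ℕ) (u : Fin 2 → ℤ) (τ : ℍ) (m : ℕ) :
    zcTerm (zOf N u τ) τ m = termC N u m (τ : ℂ) := rfl

theorem Phi_eq_PhiC (N : ℕ) (u : Fin 2 → ℤ) (τ : ℍ) : Phi N u τ = PhiC N u (τ : ℂ) := rfl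

theorem zC_im (N : ℕ) (u : Fin 2 → ℤ) (w : ℂ) : (zC N u w).im = (u 0 : ℝ) * w.im / N := by
  rw [zC, Complex.div_natCast_im]
  simp

/-! ### Bounds in the box `0 ≤ u₀ < N` -/

theorem geom_bound {ρ : ℝ} (h0 : 0 < ρ) (h1 : ρ < 1) (m : ℕ) :
    ρ ^ (m + 1) / (1 - ρ ^ (m + 1)) ≤ ρ ^ (m + 1) / (1 - ρ) := by
  have hp : ρ ^ (m + 1) ≤ ρ := by
    calc ρ ^ (m + 1) = ρ ^ m * ρ := pow_succ ρ m
      _ ≤ 1 * ρ := by
        apply mul_le_mul_of_nonneg_right _ h0.le
        exact pow_le_one₀ h0.le h1.le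
      _ = ρ := one_mul ρ
  apply div_le_div_of_nonneg_left (by positivity) (by linarith) (by linarith)

theorem norm_termC_box_le {N : ℕ} (hN : 0 < N) {u : Fin 2 → ℤ} (h0 : 0 ≤ u 0) (h1 : u 0 < N)
    {y0 : ℝ} (hy0 : 0 < y0) {w : ℂ} (hw : y0 ≤ w.im) (m : ℕ) :
    ‖termC N u (m + 1) w‖
      ≤ 4 * π / (1 - Real.exp (-2 * π * y0 / N)) * Real.exp (-2 * π * y0 / N) ^ (m + 1) := by
  have hwpos : 0 < w.im := lt_of_lt_of_le hy0 hw
  set τ : ℍ := ⟨w, hwpos⟩ with hτ
  have hNr : (0 : ℝ) < N := by exact_mod_cast hN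
  have hu0 : (0 : ℝ) ≤ (u 0 : ℝ) := by exact_mod_cast h0
  have hu1 : (u 0 : ℝ) ≤ (N : ℝ) - 1 := by
    have : u 0 + 1 ≤ (N : ℤ) := h1
    have h2 : ((u 0 + 1 : ℤ) : ℝ) ≤ ((N : ℤ) : ℝ) := by exact_mod_cast this
    push_cast at h2
    linarith
  set t : ℝ := ((m : ℝ) + 1) * y0 / N with ht
  have ht0 : 0 < t := by positivity
  have hz : (zC N u w).im = (u 0 : ℝ) * w.im / N := zC_im N u w
  have hzn : 0 ≤ (zC N u w).im := by
    rw [hz]
    positivity
  have hmw : (((m + 1 : ℕ) : ℂ) * w).im = ((m : ℝ) + 1) * w.im := by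
    simp
  have hN1 : (1 : ℝ) ≤ N := by exact_mod_cast hN
  have hty : t ≤ ((m : ℝ) + 1) * w.im / N := by
    rw [ht]
    apply div_le_div_of_nonneg_right _ hNr.le
    apply mul_le_mul_of_nonneg_left hw (by positivity)
  have hle : ((m : ℝ) + 1) * w.im / N ≤ ((m : ℝ) + 1) * w.im := by
    apply div_le_self (by positivity) hN1
  have him1 : t ≤ (zC N u w + ((m + 1 : ℕ) : ℂ) * w).im := by
    rw [add_im, hmw]
    linarith
  have him2 : t ≤ (((m + 1 : ℕ) : ℂ) * w - zC N u w).im := by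
    rw [sub_im, hmw, hz]
    have e1 : ((m : ℝ) + 1) * w.im - (u 0 : ℝ) * w.im / N
        = (((m : ℝ) + 1) * N - (u 0 : ℝ)) * w.im / N := by
      field_simp
    rw [e1]
    refine hty.trans ?_
    apply div_le_div_of_nonneg_right _ hNr.le
    apply mul_le_mul_of_nonneg_right _ hwpos.le
    have : (0 : ℝ) ≤ m := Nat.cast_nonneg m
    nlinarith
  have key := norm_zcTerm_le (zC N u w) τ (m + 1) ht0 him1 him2
  have e2 : zcTerm (zC N u w) τ (m + 1) = termC N u (m + 1) w := rfl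
  rw [e2] at key
  refine key.trans ?_
  set ρ : ℝ := Real.exp (-2 * π * y0 / N) with hρ
  have hρ0 : 0 < ρ := Real.exp_pos _
  have hρ1 : ρ < 1 := by
    rw [hρ, Real.exp_lt_one_iff]
    have hpi := Real.pi_pos
    have : 0 < 2 * π * y0 / N := by positivity
    have e3 : -2 * π * y0 / N = -(2 * π * y0 / N) := by ring
    rw [e3]
    linarith
  have hx : Real.exp (-2 * π * t) = ρ ^ (m + 1) := by
    rw [hρ, ← Real.exp_nat_mul]
    congr 1
    rw [ht]
    push_cast
    field_simp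
  rw [hx]
  have := geom_bound hρ0 hρ1 m
  have hpi := Real.pi_pos
  calc 4 * π * (ρ ^ (m + 1) / (1 - ρ ^ (m + 1))) ≤ 4 * π * (ρ ^ (m + 1) / (1 - ρ)) := by
        apply mul_le_mul_of_nonneg_left this (by positivity)
    _ = 4 * π / (1 - ρ) * ρ ^ (m + 1) := by ring

theorem summable_geom_bound {N : ℕ} (hN : 0 < N) {y0 : ℝ} (hy0 : 0 < y0) :
    Summable fun m : ℕ =>
      4 * π / (1 - Real.exp (-2 * π * y0 / N)) * Real.exp (-2 * π * y0 / N) ^ (m + 1) := by
  apply Summable.mul_left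
  have hNr : (0 : ℝ) < N := by exact_mod_cast hN
  have h : Summable fun m : ℕ => Real.exp (-2 * π * y0 / N) ^ m := by
    apply summable_geometric_of_lt_one (Real.exp_pos _).le
    rw [Real.exp_lt_one_iff]
    have hpi := Real.pi_pos
    have : 0 < 2 * π * y0 / N := by positivity
    have e3 : -2 * π * y0 / N = -(2 * π * y0 / N) := by ring
    rw [e3]
    linarith
  exact (summable_nat_add_iff 1).2 h

/-! ### Holomorphy -/

theorem differentiableAt_termC {N : ℕ} (hN : 0 < N) {u : Fin 2 → ℤ} (h0 : 0 ≤ u 0)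
    (h1 : u 0 < N) (m : ℕ) {w : ℂ} (hw : 0 < w.im) :
    DifferentiableAt ℂ (termC N u (m + 1)) w := by
  have hNr : (0 : ℝ) < N := by exact_mod_cast hN
  have hu0 : (0 : ℝ) ≤ (u 0 : ℝ) := by exact_mod_cast h0
  have hu1 : (u 0 : ℝ) < (N : ℝ) := by exact_mod_cast h1
  have hz : (zC N u w).im = (u 0 : ℝ) * w.im / N := zC_im N u w
  have hmw : (((m + 1 : ℕ) : ℂ) * w).im = ((m : ℝ) + 1) * w.im := by
    simp
  have hzC : DifferentiableAt ℂ (zC N u) w := by
    unfold zC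
    fun_prop
  unfold termC
  apply DifferentiableAt.add
  · have him : (zC N u w + ((m + 1 : ℕ) : ℂ) * w).im ≠ 0 := by
      rw [add_im, hmw, hz]
      have : 0 ≤ (u 0 : ℝ) * w.im / N := by positivity
      have : 0 < ((m : ℝ) + 1) * w.im := by positivity
      linarith
    have hd : DifferentiableAt ℂ (fun w : ℂ => zC N u w + ((m + 1 : ℕ) : ℂ) * w) w := by
      fun_prop
    exact DifferentiableAt.comp (g := cotP) (f := fun w : ℂ => zC N u w + ((m + 1 : ℕ) : ℂ) * w) w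
      (differentiableAt_cotP him) hd
  · have him : (zC N u w - ((m + 1 : ℕ) : ℂ) * w).im ≠ 0 := by
      rw [sub_im, hmw, hz]
      have h2 : (u 0 : ℝ) * w.im / N < w.im := by
        rw [div_lt_iff₀ hNr]
        nlinarith
      have : (0 : ℝ) ≤ m := Nat.cast_nonneg m
      nlinarith
    have hd : DifferentiableAt ℂ (fun w : ℂ => zC N u w - ((m + 1 : ℕ) : ℂ) * w) w := by
      fun_prop
    exact DifferentiableAt.comp (g := cotP) (f := fun w : ℂ => zC N u w - ((m + 1 : ℕ) : ℂ) * w) w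
      (differentiableAt_cotP him) hd

theorem differentiableAt_cotP_zC {N : ℕ} (hN : 0 < N) {u : Fin 2 → ℤ} (h0 : 0 ≤ u 0)
    {w : ℂ} (hw : 0 < w.im) : DifferentiableAt ℂ (fun w : ℂ => cotP (zC N u w)) w := by
  have hNr : (0 : ℝ) < N := by exact_mod_cast hN
  rcases eq_or_lt_of_le h0 with h | h
  · have e : (fun w : ℂ => cotP (zC N u w)) = fun _ : ℂ => cotP ((u 1 : ℂ) / N) := by
      funext w
      rw [zC, ← h]
      simp
    rw [e]
    exact differentiableAt_const _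
  · have hu0 : (0 : ℝ) < (u 0 : ℝ) := by exact_mod_cast h
    have him : (zC N u w).im ≠ 0 := by
      rw [zC_im]
      have : 0 < (u 0 : ℝ) * w.im / N := by positivity
      exact this.ne'
    have hzC : DifferentiableAt ℂ (zC N u) w := by
      unfold zC
      fun_prop
    exact DifferentiableAt.comp (g := cotP) (f := zC N u) w (differentiableAt_cotP him) hzC

theorem differentiableOn_PhiC {N : ℕ} (hN : 0 < N) {u : Fin 2 → ℤ} (h0 : 0 ≤ u 0)
    (h1 : u 0 < N) : DifferentiableOn ℂ (PhiC N u) {w : ℂ | 0 < w.im} := by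
  intro w0 hw0
  have hw0' : 0 < w0.im := hw0
  set y0 : ℝ := w0.im / 2 with hy0
  have hy0pos : 0 < y0 := by positivity
  set V : Set ℂ := {w : ℂ | y0 < w.im} with hV
  have hVopen : IsOpen V := isOpen_lt continuous_const Complex.continuous_im
  have hw0V : w0 ∈ V := by
    change y0 < w0.im
    rw [hy0]
    linarith
  have hsum : DifferentiableOn ℂ (fun w : ℂ => ∑' m : ℕ, termC N u (m + 1) w) V := by
    apply differentiableOn_tsum_of_summable_norm (summable_geom_bound hN hy0pos) _ hVopen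
    · intro m w hw
      exact norm_termC_box_le hN h0 h1 hy0pos (le_of_lt hw) m
    · intro m w hw
      exact (differentiableAt_termC hN h0 h1 m (lt_trans hy0pos hw)).differentiableWithinAt
  have hd : DifferentiableAt ℂ (PhiC N u) w0 := by
    unfold PhiC
    apply DifferentiableAt.add
    · apply DifferentiableAt.add
      · exact differentiableAt_cotP_zC hN h0 hw0'
      · exact (hsum w0 hw0V).differentiableAt (hVopen.mem_nhds hw0V)
    · exact differentiableAt_const _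
  exact hd.differentiableWithinAt

theorem mdifferentiable_Phi_box {N : ℕ} (hN : 0 < N) {u : Fin 2 → ℤ} (h0 : 0 ≤ u 0)
    (h1 : u 0 < N) : MDifferentiable 𝓘(ℂ) 𝓘(ℂ) (Phi N u) := by
  rw [UpperHalfPlane.mdifferentiable_iff]
  refine (differentiableOn_PhiC hN h0 h1).congr fun w hw => ?_
  rw [Function.comp_apply, ofComplex_apply_of_im_pos hw, Phi_eq_PhiC]

/-! ### Boundedness at `i∞` -/

theorem bounded_Phi_box {N : ℕ} (hN : 0 < N) {u : Fin 2 → ℤ} (h0 : 0 ≤ u 0) (h1 : u 0 < N) :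
    ∃ M : ℝ, ∀ τ : ℍ, 1 ≤ τ.im → ‖Phi N u τ‖ ≤ M := by
  have hNr : (0 : ℝ) < N := by exact_mod_cast hN
  set ρ : ℝ := Real.exp (-2 * π * 1 / N) with hρ
  have hρ0 : 0 < ρ := Real.exp_pos _
  have hρ1 : ρ < 1 := by
    rw [hρ, Real.exp_lt_one_iff]
    have hpi := Real.pi_pos
    have : 0 < 2 * π * 1 / N := by positivity
    have e3 : -2 * π * 1 / N = -(2 * π * 1 / N) := by ring
    rw [e3]
    linarith
  have hS := summable_geom_bound hN (y0 := 1) one_pos
  refine ⟨(‖cotP ((u 1 : ℂ) / N)‖ + (π + 2 * π * (ρ / (1 - ρ))))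
    + (∑' m : ℕ, 4 * π / (1 - ρ) * ρ ^ (m + 1)) + ‖2 * π * I * (u 0 : ℂ) / N‖, ?_⟩
  intro τ hτ
  rw [Phi_eq_PhiC, PhiC]
  refine (norm_add_le _ _).trans (add_le_add_left ?_ _)
  refine (norm_add_le _ _).trans (add_le_add ?_ ?_)
  · -- the term `m = 0`
    rcases eq_or_lt_of_le h0 with h | h
    · have e : zC N u (τ : ℂ) = (u 1 : ℂ) / N := by
        rw [zC, ← h]
        simp
      rw [e]
      have : 0 ≤ π + 2 * π * (ρ / (1 - ρ)) := by
        have hpi := Real.pi_pos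
        have : 0 ≤ ρ / (1 - ρ) := div_nonneg hρ0.le (by linarith)
        positivity
      linarith
    · have hu0 : (1 : ℝ) ≤ (u 0 : ℝ) := by
        have : (1 : ℤ) ≤ u 0 := h
        exact_mod_cast this
      have him : 1 / (N : ℝ) ≤ (zC N u (τ : ℂ)).im := by
        rw [zC_im]
        apply div_le_div_of_nonneg_right _ hNr.le
        have : (1 : ℝ) ≤ (τ : ℂ).im := hτ
        nlinarith
      have hb := norm_cotP_add_pi_I_le (t := 1 / (N : ℝ)) (by positivity) him
      have e4 : Real.exp (-2 * π * (1 / (N : ℝ))) = ρ := by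
        rw [hρ]
        congr 1
        ring
      rw [e4] at hb
      have h5 : ‖cotP (zC N u (τ : ℂ))‖ ≤ ‖cotP (zC N u (τ : ℂ)) + π * I‖ + ‖(π : ℂ) * I‖ := by
        have := norm_sub_le (cotP (zC N u (τ : ℂ)) + π * I) ((π : ℂ) * I)
        rwa [add_sub_cancel_right] at this
      have h6 : ‖(π : ℂ) * I‖ = π := by
        simp [abs_of_pos Real.pi_pos]
      have := norm_nonneg (cotP ((u 1 : ℂ) / N))
      linarith
  · -- the series
    refine tsum_of_norm_bounded hS.hasSum fun m => ?_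
    have := norm_termC_box_le hN h0 h1 (y0 := 1) one_pos (w := (τ : ℂ)) hτ m
    simpa using this

/-! ### General `u` -/

theorem exists_box {N : ℕ} (hN : 0 < N) (u : Fin 2 → ℤ) :
    ∃ u' b : Fin 2 → ℤ, u = u' + (N : ℤ) • b ∧ 0 ≤ u' 0 ∧ u' 0 < N := by
  have hN' : (N : ℤ) ≠ 0 := by exact_mod_cast hN.ne'
  refine ⟨![u 0 % N, u 1], ![u 0 / N, 0], ?_, ?_, ?_⟩
  · funext i
    fin_cases i
    · simp only [Fin.zero_eta, Fin.isValue, Pi.add_apply, Matrix.cons_val_zero, Pi.smul_apply,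
        smul_eq_mul]
      exact (Int.emod_add_mul_ediv (u 0) N).symm
    · simp
  · simpa using Int.emod_nonneg (u 0) hN'
  · simpa using Int.emod_lt_of_pos (u 0) (by exact_mod_cast hN : (0 : ℤ) < N)

theorem Phi_eq_box {N : ℕ} (hN : 0 < N) {u : Fin 2 → ℤ} (hu : NZ N u) :
    ∃ u' : Fin 2 → ℤ, 0 ≤ u' 0 ∧ u' 0 < N ∧ Phi N u = Phi N u' := by
  obtain ⟨u', b, hub, h0, h1⟩ := exists_box hN u
  refine ⟨u', h0, h1, ?_⟩
  have hu' : NZ N u' := by
    have := hu.add_smul (-b)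
    have e : u + (N : ℤ) • (-b) = u' := by
      rw [hub]
      simp
    rwa [e] at this
  funext τ
  rw [hub, Phi_add_smul hN.ne' hu']

theorem mdifferentiable_Phi {N : ℕ} (hN : 0 < N) {u : Fin 2 → ℤ} (hu : NZ N u) :
    MDifferentiable 𝓘(ℂ) 𝓘(ℂ) (Phi N u) := by
  obtain ⟨u', h0, h1, e⟩ := Phi_eq_box hN hu
  rw [e]
  exact mdifferentiable_Phi_box hN h0 h1

theorem isBoundedAtImInfty_Phi {N : ℕ} (hN : 0 < N) {u : Fin 2 → ℤ} (hu : NZ N u) :
    IsBoundedAtImInfty (Phi N u) := by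
  obtain ⟨u', h0, h1, e⟩ := Phi_eq_box hN hu
  rw [e, UpperHalfPlane.isBoundedAtImInfty_iff]
  obtain ⟨M, hM⟩ := bounded_Phi_box hN h0 h1
  exact ⟨M, 1, hM⟩

end Fermat.Agent.S48.B1.H22
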