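import Mathlib
import Fermat.Agent.S48.Int.Defs
import Fermat.Agent.S48.B1.H22_Eis1Ana

/-!
# S48 B1 (a): weight one Eisenstein series, part 9 — the series `E_{1,ψ}` (helper22)

`E1 ℓ ψ = (2 π i)⁻¹ ∑_{v ∈ (ℤ/ℓ)²} ψ(v₀) Φ_{ℓ, ṽ}`, its slash rule under `SL(2, ℤ)`, holomorphy,
boundedness at the cusps and the nebentypus.
-/

set_option autoImplicit false

open UpperHalfPlane hiding I
open Complex Filter Topology CongruenceSubgroup ModularForm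
open scoped Real MatrixGroups ModularForm Manifold

noncomputable section

namespace Fermat.Agent.S48.B1.H22

open Matrix
open Fermat.Agent.S48.Int (HasNeb)

variable {ℓ : ℕ}

/-- The standard lift of a vector modulo `ℓ`. -/
def liftV (v : Fin 2 → ZMod ℓ) : Fin 2 → ℤ := fun i => ((v i).val : ℤ)

/-- Reduction of an integral vector modulo `ℓ`. -/
def redV (ℓ : ℕ) (u : Fin 2 → ℤ) : Fin 2 → ZMod ℓ := fun i => ((u i : ℤ) : ZMod ℓ)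

theorem redV_liftV [NeZero ℓ] (v : Fin 2 → ZMod ℓ) : redV ℓ (liftV v) = v := by
  funext i
  simp only [redV, liftV, Int.cast_natCast, ZMod.natCast_zmod_val]

theorem NZ_iff_redV {u : Fin 2 → ℤ} : NZ ℓ u ↔ redV ℓ u ≠ 0 := by
  unfold NZ
  rw [not_iff_not]
  constructor
  · rintro ⟨h0, h1⟩
    funext i
    fin_cases i
    · exact (ZMod.intCast_zmod_eq_zero_iff_dvd _ _).2 h0
    · exact (ZMod.intCast_zmod_eq_zero_iff_dvd _ _).2 h1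
  · intro h
    exact ⟨(ZMod.intCast_zmod_eq_zero_iff_dvd _ _).1 (congrFun h 0),
      (ZMod.intCast_zmod_eq_zero_iff_dvd _ _).1 (congrFun h 1)⟩

theorem NZ_liftV [NeZero ℓ] {v : Fin 2 → ZMod ℓ} (hv : v ≠ 0) : NZ ℓ (liftV v) := by
  rw [NZ_iff_redV, redV_liftV]
  exact hv

theorem exists_eq_liftV_add [NeZero ℓ] (u : Fin 2 → ℤ) :
    ∃ b : Fin 2 → ℤ, u = liftV (redV ℓ u) + (ℓ : ℤ) • b := by
  refine ⟨fun i => u i / (ℓ : ℤ), ?_⟩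
  funext i
  simp only [liftV, redV, Pi.add_apply, Pi.smul_apply, smul_eq_mul, ZMod.val_intCast]
  exact (Int.emod_add_mul_ediv (u i) ℓ).symm

theorem Phi_eq_liftV_redV [NeZero ℓ] {u : Fin 2 → ℤ} (hu : NZ ℓ u) (τ : ℍ) :
    Phi ℓ u τ = Phi ℓ (liftV (redV ℓ u)) τ := by
  obtain ⟨b, hb⟩ := exists_eq_liftV_add (ℓ := ℓ) u
  have h1 : NZ ℓ (liftV (redV ℓ u)) := by
    rw [NZ_iff_redV, redV_liftV]
    exact NZ_iff_redV.1 hu
  conv_lhs => rw [hb]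
  exact Phi_add_smul (NeZero.ne ℓ) h1 b τ

/-- Reduction of a matrix in `SL(2, ℤ)` modulo `ℓ`. -/
def redM (ℓ : ℕ) (γ : SL(2, ℤ)) : SL(2, ZMod ℓ) :=
  Matrix.SpecialLinearGroup.map (Int.castRingHom (ZMod ℓ)) γ

theorem redM_apply (γ : SL(2, ℤ)) (i j : Fin 2) :
    (redM ℓ γ : Matrix (Fin 2) (Fin 2) (ZMod ℓ)) i j = ((γ i j : ℤ) : ZMod ℓ) := rfl

theorem redV_vecMul (u : Fin 2 → ℤ) (γ : SL(2, ℤ)) :
    redV ℓ (u ᵥ* (γ : Matrix (Fin 2) (Fin 2) ℤ))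
      = redV ℓ u ᵥ* (redM ℓ γ : Matrix (Fin 2) (Fin 2) (ZMod ℓ)) := by
  funext j
  simp only [redV, Matrix.vecMul, dotProduct, Fin.sum_univ_two, redM_apply]
  push_cast
  rfl

/-- Right multiplication by an element of `SL(2, ZMod ℓ)` as a permutation of `(ZMod ℓ)²`. -/
def vecMulEquivZMod (g : SL(2, ZMod ℓ)) : (Fin 2 → ZMod ℓ) ≃ (Fin 2 → ZMod ℓ) where
  toFun v := v ᵥ* (g : Matrix (Fin 2) (Fin 2) (ZMod ℓ))
  invFun v := v ᵥ* ((g⁻¹ : SL(2, ZMod ℓ)) : Matrix (Fin 2) (Fin 2) (ZMod ℓ))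
  left_inv v := by
    simp only [Matrix.vecMul_vecMul]
    rw [← Matrix.SpecialLinearGroup.coe_mul, mul_inv_cancel, Matrix.SpecialLinearGroup.coe_one,
      Matrix.vecMul_one]
  right_inv v := by
    simp only [Matrix.vecMul_vecMul]
    rw [← Matrix.SpecialLinearGroup.coe_mul, inv_mul_cancel, Matrix.SpecialLinearGroup.coe_one,
      Matrix.vecMul_one]

theorem vecMulEquivZMod_apply (g : SL(2, ZMod ℓ)) (v : Fin 2 → ZMod ℓ) :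
    vecMulEquivZMod g v = v ᵥ* (g : Matrix (Fin 2) (Fin 2) (ZMod ℓ)) := rfl

/-- The weight one Eisenstein series `(-2ℓ) E_{1,ψ}`. -/
def E1 (ℓ : ℕ) [NeZero ℓ] (ψ : DirichletCharacter ℂ ℓ) (τ : ℍ) : ℂ :=
  (2 * π * I)⁻¹ * ∑ v : Fin 2 → ZMod ℓ, ψ (v 0) * Phi ℓ (liftV v) τ

theorem two_pi_I_ne_zero' : (2 * (π : ℂ) * I) ≠ 0 := by
  have hpi : (π : ℂ) ≠ 0 := by exact_mod_cast Real.pi_ne_zero
  simp [hpi, Complex.I_ne_zero]

section prime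

variable [NeZero ℓ] (ψ : DirichletCharacter ℂ ℓ)

omit [NeZero ℓ] in
theorem psi_zero (hℓ : 1 < ℓ) : ψ 0 = 0 := by
  have : Fact (1 < ℓ) := ⟨hℓ⟩
  exact MulChar.map_zero ψ

omit [NeZero ℓ] in
theorem ne_zero_of_psi_ne_zero (hℓ : 1 < ℓ) {v : Fin 2 → ZMod ℓ} (h : ψ (v 0) ≠ 0) : v ≠ 0 := by
  intro hv
  apply h
  rw [hv, Pi.zero_apply, psi_zero ψ hℓ]

/-- One term of the slash rule. -/
theorem term_smul (hℓ : 1 < ℓ) (v : Fin 2 → ZMod ℓ) (A : SL(2, ℤ)) (τ : ℍ) :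
    ψ (v 0) * Phi ℓ (liftV v) (A • τ)
      = denom A τ * (ψ (v 0) * Phi ℓ (liftV (v ᵥ* (redM ℓ A : Matrix (Fin 2) (Fin 2) (ZMod ℓ)))) τ) := by
  by_cases h : ψ (v 0) = 0
  · rw [h, zero_mul, zero_mul, mul_zero]
  · have hv := ne_zero_of_psi_ne_zero ψ hℓ h
    have hNZ := NZ_liftV hv
    rw [Phi_smul (NeZero.ne ℓ) hNZ, Phi_eq_liftV_redV (hNZ.vecMul A), redV_vecMul, redV_liftV]
    ring

theorem E1_smul (hℓ : 1 < ℓ) (A : SL(2, ℤ)) (τ : ℍ) :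
    E1 ℓ ψ (A • τ) = denom A τ * ((2 * π * I)⁻¹ * ∑ v : Fin 2 → ZMod ℓ,
      ψ (v 0) * Phi ℓ (liftV (v ᵥ* (redM ℓ A : Matrix (Fin 2) (Fin 2) (ZMod ℓ)))) τ) := by
  rw [E1, Finset.sum_congr rfl (fun v _ => term_smul ψ hℓ v A τ), ← Finset.mul_sum]
  ring

theorem E1_slash (hℓ : 1 < ℓ) (A : SL(2, ℤ)) :
    (E1 ℓ ψ) ∣[(1 : ℤ)] A = fun τ => (2 * π * I)⁻¹ * ∑ v : Fin 2 → ZMod ℓ,
      ψ (v 0) * Phi ℓ (liftV (v ᵥ* (redM ℓ A : Matrix (Fin 2) (Fin 2) (ZMod ℓ)))) τ := by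
  funext τ
  rw [SL_slash_apply, E1_smul ψ hℓ, _root_.zpow_neg, zpow_one, mul_comm, ← mul_assoc,
    inv_mul_cancel₀ (denom_ne_zero A τ), one_mul]

/-- A summand, with the terms `ψ(v₀) = 0` made harmless. -/
def sTerm (v w : Fin 2 → ZMod ℓ) : ℍ → ℂ :=
  fun τ => if ψ (v 0) = 0 then 0 else ψ (v 0) * Phi ℓ (liftV w) τ

omit [NeZero ℓ] in
theorem sTerm_eq (v w : Fin 2 → ZMod ℓ) (τ : ℍ) :
    ψ (v 0) * Phi ℓ (liftV w) τ = sTerm ψ v w τ := by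
  unfold sTerm
  split_ifs with h
  · rw [h, zero_mul]
  · rfl

theorem mdifferentiable_sTerm (v w : Fin 2 → ZMod ℓ) (hw : ψ (v 0) ≠ 0 → w ≠ 0) :
    MDifferentiable 𝓘(ℂ) 𝓘(ℂ) (sTerm ψ v w) := by
  unfold sTerm
  split_ifs with h
  · exact mdifferentiable_const
  · exact mdifferentiable_const.mul
      (mdifferentiable_Phi (Nat.pos_of_ne_zero (NeZero.ne ℓ)) (NZ_liftV (hw h)))

theorem isBoundedAtImInfty_sTerm (v w : Fin 2 → ZMod ℓ) (hw : ψ (v 0) ≠ 0 → w ≠ 0) :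
    IsBoundedAtImInfty (sTerm ψ v w) := by
  unfold sTerm
  split_ifs with h
  · exact Filter.const_boundedAtFilter atImInfty (0 : ℂ)
  · exact (Filter.const_boundedAtFilter atImInfty (ψ (v 0))).mul
      (isBoundedAtImInfty_Phi (Nat.pos_of_ne_zero (NeZero.ne ℓ)) (NZ_liftV (hw h)))

omit [NeZero ℓ] in
theorem mdifferentiable_finsum {ι : Type*} (s : Finset ι) (f : ι → ℍ → ℂ)
    (h : ∀ i ∈ s, MDifferentiable 𝓘(ℂ) 𝓘(ℂ) (f i)) :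
    MDifferentiable 𝓘(ℂ) 𝓘(ℂ) (fun τ => ∑ i ∈ s, f i τ) := by
  classical
  induction s using Finset.induction_on with
  | empty =>
    simp only [Finset.sum_empty]
    exact mdifferentiable_const
  | insert a s ha ih =>
    simp only [Finset.sum_insert ha]
    exact (h a (Finset.mem_insert_self a s)).add
      (ih (fun i hi => h i (Finset.mem_insert_of_mem hi)))

omit [NeZero ℓ] in
theorem isBoundedAtImInfty_finsum {ι : Type*} (s : Finset ι) (f : ι → ℍ → ℂ)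
    (h : ∀ i ∈ s, IsBoundedAtImInfty (f i)) :
    IsBoundedAtImInfty (fun τ => ∑ i ∈ s, f i τ) := by
  classical
  induction s using Finset.induction_on with
  | empty =>
    simp only [Finset.sum_empty]
    exact Filter.const_boundedAtFilter atImInfty (0 : ℂ)
  | insert a s ha ih =>
    simp only [Finset.sum_insert ha]
    exact (h a (Finset.mem_insert_self a s)).add
      (ih (fun i hi => h i (Finset.mem_insert_of_mem hi)))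

omit [NeZero ℓ] in
theorem vecMul_redM_ne_zero (A : SL(2, ℤ)) {v : Fin 2 → ZMod ℓ} (hv : v ≠ 0) :
    v ᵥ* (redM ℓ A : Matrix (Fin 2) (Fin 2) (ZMod ℓ)) ≠ 0 := by
  intro h
  apply hv
  have h0 : vecMulEquivZMod (redM ℓ A) v = vecMulEquivZMod (redM ℓ A) 0 := by
    rw [vecMulEquivZMod_apply, vecMulEquivZMod_apply, h, Matrix.zero_vecMul]
  exact (vecMulEquivZMod (redM ℓ A)).injective h0

theorem E1_eq_sTerm : E1 ℓ ψ = fun τ => (2 * π * I)⁻¹ * ∑ v : Fin 2 → ZMod ℓ, sTerm ψ v v τ := by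
  funext τ
  rw [E1, Finset.sum_congr rfl (fun v _ => sTerm_eq ψ v v τ)]

theorem E1_slash_sTerm (hℓ : 1 < ℓ) (A : SL(2, ℤ)) :
    (E1 ℓ ψ) ∣[(1 : ℤ)] A = fun τ => (2 * π * I)⁻¹ * ∑ v : Fin 2 → ZMod ℓ,
      sTerm ψ v (v ᵥ* (redM ℓ A : Matrix (Fin 2) (Fin 2) (ZMod ℓ))) τ := by
  rw [E1_slash ψ hℓ A]
  funext τ
  rw [Finset.sum_congr rfl (fun v _ => sTerm_eq ψ v _ τ)]

/-- `E_{1,ψ}` is holomorphic. -/
theorem mdifferentiable_E1 (hℓ : 1 < ℓ) : MDifferentiable 𝓘(ℂ) 𝓘(ℂ) (E1 ℓ ψ) := by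
  rw [E1_eq_sTerm]
  exact mdifferentiable_const.mul (mdifferentiable_finsum _ _
    (fun v _ => mdifferentiable_sTerm ψ v v (ne_zero_of_psi_ne_zero ψ hℓ)))

/-- `E_{1,ψ}` is bounded at all cusps. -/
theorem isBoundedAtImInfty_E1_slash (hℓ : 1 < ℓ) (A : SL(2, ℤ)) :
    IsBoundedAtImInfty ((E1 ℓ ψ) ∣[(1 : ℤ)] A) := by
  rw [E1_slash_sTerm ψ hℓ A]
  exact (Filter.const_boundedAtFilter atImInfty ((2 * π * I)⁻¹ : ℂ)).mul
    (isBoundedAtImInfty_finsum _ _ (fun v _ => isBoundedAtImInfty_sTerm ψ v _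
      (fun h => vecMul_redM_ne_zero A (ne_zero_of_psi_ne_zero ψ hℓ h))))

/-- `E_{1,ψ}` has nebentypus `ψ`. -/
theorem hasNeb_E1 (hℓ : 1 < ℓ) : HasNeb ℓ ψ 1 (E1 ℓ ψ) := by
  intro γ hγ
  rw [E1_slash ψ hℓ γ]
  funext τ
  rw [Pi.smul_apply, smul_eq_mul, E1]
  have hc : ((γ 1 0 : ℤ) : ZMod ℓ) = 0 := Gamma0_mem.mp hγ
  have hdet : γ 0 0 * γ 1 1 - γ 0 1 * γ 1 0 = 1 := by
    have := γ.det_coe
    rwa [Matrix.det_fin_two] at this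
  have h1 : ((γ 0 0 : ℤ) : ZMod ℓ) * ((γ 1 1 : ℤ) : ZMod ℓ) = 1 := by
    have := congrArg (Int.cast : ℤ → ZMod ℓ) hdet
    push_cast at this
    rw [hc, mul_zero, sub_zero] at this
    exact this
  have key : ∀ v : Fin 2 → ZMod ℓ,
      ψ (v 0) = ψ ((γ 1 1 : ℤ) : ZMod ℓ) *
        ψ ((v ᵥ* (redM ℓ γ : Matrix (Fin 2) (Fin 2) (ZMod ℓ))) 0) := by
    intro v
    rw [← map_mul]
    congr 1
    simp only [Matrix.vecMul, dotProduct, Fin.sum_univ_two, redM_apply, hc, mul_zero, add_zero]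
    calc v 0 = v 0 * (((γ 0 0 : ℤ) : ZMod ℓ) * ((γ 1 1 : ℤ) : ZMod ℓ)) := by rw [h1, mul_one]
      _ = _ := by ring
  have e : ∑ v : Fin 2 → ZMod ℓ,
      ψ (v 0) * Phi ℓ (liftV (v ᵥ* (redM ℓ γ : Matrix (Fin 2) (Fin 2) (ZMod ℓ)))) τ
      = ψ ((γ 1 1 : ℤ) : ZMod ℓ) * ∑ v : Fin 2 → ZMod ℓ, ψ (v 0) * Phi ℓ (liftV v) τ := by
    rw [Finset.mul_sum]
    rw [← Equiv.sum_comp (vecMulEquivZMod (redM ℓ γ))
      (fun v => ψ ((γ 1 1 : ℤ) : ZMod ℓ) * (ψ (v 0) * Phi ℓ (liftV v) τ))]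
    refine Finset.sum_congr rfl fun v _ => ?_
    rw [vecMulEquivZMod_apply, key v]
    ring
  rw [e]
  ring

end prime

end Fermat.Agent.S48.B1.H22
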