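import Mathlib
import Fermat.Agent.S48.B1.H22_Eis1Cot

/-!
# S48 B1 (a): weight one Eisenstein series, part 6 — the distribution relation (helper22)

`∑_{s < N} π cot π (w + s/N) = N π cot (π N w)` for `Im w ≠ 0`.
-/

set_option autoImplicit false

open Complex Filter Topology
open scoped Real

noncomputable section

namespace Fermat.Agent.S48.B1.H22

/-- The root of unity `exp (2 π i / N)`. -/
def zetaN (N : ℕ) : ℂ := cexp (2 * π * I / N)

theorem zetaN_pow_self {N : ℕ} (hN : N ≠ 0) : zetaN N ^ N = 1 :=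
  (Complex.isPrimitiveRoot_exp N hN).pow_eq_one

theorem norm_zetaN (N : ℕ) : ‖zetaN N‖ = 1 := by
  rw [zetaN, Complex.norm_exp]
  simp

theorem sum_zetaN_pow {N : ℕ} (hN : N ≠ 0) (k : ℕ) :
    ∑ s ∈ Finset.range N, (zetaN N ^ k) ^ s = if N ∣ k then (N : ℂ) else 0 := by
  have hprim := Complex.isPrimitiveRoot_exp N hN
  by_cases h : N ∣ k
  · rw [if_pos h]
    have h1 : zetaN N ^ k = 1 := (hprim.pow_eq_one_iff_dvd k).2 h
    rw [h1]
    simp
  · rw [if_neg h]
    have h1 : zetaN N ^ k ≠ 1 := fun hh => h ((hprim.pow_eq_one_iff_dvd k).1 hh)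
    have h2 : (zetaN N ^ k) ^ N = 1 := by
      rw [← pow_mul, mul_comm, pow_mul, zetaN_pow_self hN, one_pow]
    have h3 := geom_sum_mul (zetaN N ^ k) N
    rw [h2, sub_self] at h3
    exact (mul_eq_zero.1 h3).resolve_right (sub_ne_zero.2 h1)

theorem nome_add_div (w : ℂ) (N : ℕ) (s : ℕ) :
    nome (w + (s : ℂ) / N) = nome w * zetaN N ^ s := by
  rw [nome, nome, zetaN, ← Complex.exp_nat_mul, ← Complex.exp_add]
  congr 1
  ring

theorem nome_nat_mul (w : ℂ) (N : ℕ) : nome ((N : ℂ) * w) = nome w ^ N := by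
  rw [nome, nome, ← Complex.exp_nat_mul]
  congr 1
  ring

theorem cotP_eq_of_im_pos {w : ℂ} (hw : 0 < w.im) :
    cotP w = π * I - 2 * π * I * (1 - nome w)⁻¹ := by
  have h := cotP_add_pi_I hw
  have h1 : (1 : ℂ) - nome w ≠ 0 := sub_ne_zero.2 (nome_ne_one hw).symm
  have h2 : nome w / (1 - nome w) = (1 - nome w)⁻¹ - 1 := by
    field_simp
    ring
  rw [h2] at h
  linear_combination h

theorem sum_inv_one_sub {N : ℕ} (hN : N ≠ 0) {Y : ℂ} (hY : ‖Y‖ < 1) :
    ∑ s ∈ Finset.range N, (1 - Y * zetaN N ^ s)⁻¹ = N * (1 - Y ^ N)⁻¹ := by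
  have hs : ∀ s : ℕ, ‖Y * zetaN N ^ s‖ < 1 := by
    intro s
    rw [norm_mul, norm_pow, norm_zetaN, one_pow, mul_one]
    exact hY
  have hYN : ‖Y ^ N‖ < 1 := by
    rw [norm_pow]
    exact pow_lt_one₀ (norm_nonneg _) hY hN
  have e1 : ∀ s ∈ Finset.range N, (1 - Y * zetaN N ^ s)⁻¹ = ∑' e : ℕ, (Y * zetaN N ^ s) ^ e :=
    fun s _ => (tsum_geometric_of_norm_lt_one (hs s)).symm
  rw [Finset.sum_congr rfl e1, ← Summable.tsum_finsetSum
    (fun s _ => summable_geometric_of_norm_lt_one (hs s))]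
  have e2 : ∀ e : ℕ, ∑ s ∈ Finset.range N, (Y * zetaN N ^ s) ^ e
      = if N ∣ e then (N : ℂ) * Y ^ e else 0 := by
    intro e
    have : ∀ s ∈ Finset.range N, (Y * zetaN N ^ s) ^ e = Y ^ e * (zetaN N ^ e) ^ s := by
      intro s _
      rw [mul_pow, ← pow_mul, ← pow_mul, mul_comm s e]
    rw [Finset.sum_congr rfl this, ← Finset.mul_sum, sum_zetaN_pow hN]
    split_ifs <;> ring
  simp_rw [e2]
  have hinj : Function.Injective (fun j : ℕ => N * j) := by
    intro a b h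
    exact Nat.eq_of_mul_eq_mul_left (Nat.pos_of_ne_zero hN) h
  have hsupp : Function.support (fun e : ℕ => if N ∣ e then (N : ℂ) * Y ^ e else 0)
      ⊆ Set.range (fun j : ℕ => N * j) := by
    intro e he
    simp only [Function.mem_support, ne_eq, ite_eq_right_iff, not_forall] at he
    obtain ⟨⟨j, rfl⟩, -⟩ := he
    exact ⟨j, rfl⟩
  rw [← hinj.tsum_eq hsupp]
  have e3 : ∀ j : ℕ, (if N ∣ N * j then (N : ℂ) * Y ^ (N * j) else 0) = N * (Y ^ N) ^ j := by
    intro j
    rw [if_pos (dvd_mul_right N j), pow_mul]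
  simp_rw [e3]
  rw [tsum_mul_left, tsum_geometric_of_norm_lt_one hYN]

/-- The distribution relation for `Im w > 0`. -/
theorem sum_cotP_of_im_pos {N : ℕ} (hN : N ≠ 0) {w : ℂ} (hw : 0 < w.im) :
    ∑ s ∈ Finset.range N, cotP (w + (s : ℂ) / N) = N * cotP ((N : ℂ) * w) := by
  have hNr : (0 : ℝ) < N := by exact_mod_cast Nat.pos_of_ne_zero hN
  have him : ∀ s : ℕ, 0 < (w + (s : ℂ) / N).im := by
    intro s
    rw [add_im, Complex.div_natCast_im, natCast_im, zero_div, add_zero]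
    exact hw
  have himN : 0 < ((N : ℂ) * w).im := by
    rw [mul_im, natCast_re, natCast_im, zero_mul, add_zero]
    positivity
  have e1 : ∀ s ∈ Finset.range N, cotP (w + (s : ℂ) / N)
      = π * I - 2 * π * I * (1 - nome w * zetaN N ^ s)⁻¹ := by
    intro s _
    rw [cotP_eq_of_im_pos (him s), nome_add_div]
  have e2 : ∑ s ∈ Finset.range N, (2 * π * I * (1 - nome w * zetaN N ^ s)⁻¹)
      = 2 * π * I * (N * (1 - nome w ^ N)⁻¹) := by
    rw [← Finset.mul_sum, sum_inv_one_sub hN (norm_nome_lt_one hw)]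
  rw [Finset.sum_congr rfl e1, Finset.sum_sub_distrib, e2, cotP_eq_of_im_pos himN, nome_nat_mul]
  simp only [Finset.sum_const, Finset.card_range, nsmul_eq_mul]
  ring

/-- The distribution relation for `Im w < 0`. -/
theorem sum_cotP_of_im_neg {N : ℕ} (hN : N ≠ 0) {w : ℂ} (hw : w.im < 0) :
    ∑ s ∈ Finset.range N, cotP (w + (s : ℂ) / N) = N * cotP ((N : ℂ) * w) := by
  have hN' : (N : ℂ) ≠ 0 := by exact_mod_cast hN
  set w' : ℂ := -w - ((N - 1 : ℕ) : ℂ) / N with hw'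
  have hw'im : 0 < w'.im := by
    rw [hw', sub_im, neg_im, Complex.div_natCast_im, natCast_im, zero_div, sub_zero]
    linarith
  have key := sum_cotP_of_im_pos hN hw'im
  rw [← Finset.sum_range_reflect] at key
  have e1 : ∀ s ∈ Finset.range N, cotP (w' + ((N - 1 - s : ℕ) : ℂ) / N)
      = -cotP (w + (s : ℂ) / N) := by
    intro s hs
    have hs' : s ≤ N - 1 := by
      have := Finset.mem_range.1 hs
      omega
    rw [← cotP_neg]
    congr 1
    rw [hw', Nat.cast_sub hs']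
    ring
  rw [Finset.sum_congr rfl e1, Finset.sum_neg_distrib] at key
  have e2 : (N : ℂ) * w' = -((N : ℂ) * w) + ((-((N - 1 : ℕ) : ℤ) : ℤ) : ℂ) := by
    rw [hw']
    push_cast
    field_simp
    ring
  rw [e2, cotP_add_int, cotP_neg] at key
  linear_combination -key

/-- The distribution relation. -/
theorem sum_cotP {N : ℕ} (hN : N ≠ 0) {w : ℂ} (hw : w.im ≠ 0) :
    ∑ s ∈ Finset.range N, cotP (w + (s : ℂ) / N) = N * cotP ((N : ℂ) * w) := by
  rcases lt_or_gt_of_ne hw with h | h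
  · exact sum_cotP_of_im_neg hN h
  · exact sum_cotP_of_im_pos hN h

end Fermat.Agent.S48.B1.H22
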