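import Mathlib
import Fermat.Agent.S48.B1.H22_Eis1Ana
import Fermat.Agent.S48.B1.H22_Eis1Dist

/-!
# S48 B1 (a): weight one Eisenstein series, part 7 — summing over the second coordinate (helper22)

`∑_{s < ℓ} Φ_{ℓ,(r,s)}(τ) = ℓ · Zc (r τ) (ℓ τ) + 2 π i r` for `0 < r < ℓ` (distribution relation).
-/

set_option autoImplicit false

open UpperHalfPlane hiding I
open Complex Filter Topology
open scoped Real

noncomputable section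

namespace Fermat.Agent.S48.B1.H22

/-- The point `ℓ τ` of the upper half plane. -/
def ellTau (ℓ : ℕ) (hℓ : 0 < ℓ) (τ : ℍ) : ℍ :=
  ⟨(ℓ : ℂ) * (τ : ℂ), by
    rw [mul_im, natCast_re, natCast_im, zero_mul, add_zero]
    have : (0 : ℝ) < ℓ := by exact_mod_cast hℓ
    exact mul_pos this τ.im_pos⟩

theorem coe_ellTau (ℓ : ℕ) (hℓ : 0 < ℓ) (τ : ℍ) :
    ((ellTau ℓ hℓ τ : ℍ) : ℂ) = (ℓ : ℂ) * (τ : ℂ) := rfl

theorem zC_cons (ℓ : ℕ) (r s : ℕ) (w : ℂ) :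
    zC ℓ ![(r : ℤ), (s : ℤ)] w = (r : ℂ) * w / ℓ + (s : ℂ) / ℓ := by
  simp only [zC, Matrix.cons_val_zero, Matrix.cons_val_one, Int.cast_natCast]
  ring

theorem sum_termC {ℓ : ℕ} (hℓ : 0 < ℓ) {r : ℕ} (hr0 : 0 < r) (hr : r < ℓ) (τ : ℍ) (m : ℕ) :
    ∑ s ∈ Finset.range ℓ, termC ℓ ![(r : ℤ), (s : ℤ)] (m + 1) (τ : ℂ)
      = ℓ * zcTerm ((r : ℂ) * (τ : ℂ)) (ellTau ℓ hℓ τ) (m + 1) := by
  have hℓ' : (ℓ : ℂ) ≠ 0 := by exact_mod_cast hℓ.ne'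
  have hℓr : (0 : ℝ) < ℓ := by exact_mod_cast hℓ
  have hr0' : (0 : ℝ) < r := by exact_mod_cast hr0
  have hrl : (r : ℝ) < ℓ := by exact_mod_cast hr
  have hy := τ.im_pos
  have hm : (0 : ℝ) ≤ m := Nat.cast_nonneg m
  simp only [termC, zC_cons, Finset.sum_add_distrib]
  have e1 : ∀ s ∈ Finset.range ℓ,
      cotP ((r : ℂ) * (τ : ℂ) / ℓ + (s : ℂ) / ℓ + ((m + 1 : ℕ) : ℂ) * (τ : ℂ))
        = cotP (((r : ℂ) * (τ : ℂ) / ℓ + ((m + 1 : ℕ) : ℂ) * (τ : ℂ)) + (s : ℂ) / ℓ) := by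
    intro s _
    congr 1
    ring
  have e2 : ∀ s ∈ Finset.range ℓ,
      cotP ((r : ℂ) * (τ : ℂ) / ℓ + (s : ℂ) / ℓ - ((m + 1 : ℕ) : ℂ) * (τ : ℂ))
        = cotP (((r : ℂ) * (τ : ℂ) / ℓ - ((m + 1 : ℕ) : ℂ) * (τ : ℂ)) + (s : ℂ) / ℓ) := by
    intro s _
    congr 1
    ring
  have him1 : ((r : ℂ) * (τ : ℂ) / ℓ + ((m + 1 : ℕ) : ℂ) * (τ : ℂ)).im ≠ 0 := by
    rw [add_im, Complex.div_natCast_im, natCast_mul_coe_im, natCast_mul_coe_im]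
    have : 0 < (r : ℝ) * τ.im / ℓ := by positivity
    have : 0 < ((m + 1 : ℕ) : ℝ) * τ.im := by positivity
    linarith
  have him2 : ((r : ℂ) * (τ : ℂ) / ℓ - ((m + 1 : ℕ) : ℂ) * (τ : ℂ)).im ≠ 0 := by
    rw [sub_im, Complex.div_natCast_im, natCast_mul_coe_im, natCast_mul_coe_im]
    have h1 : (r : ℝ) * τ.im / ℓ < τ.im := by
      rw [div_lt_iff₀ hℓr]
      nlinarith
    have h2 : τ.im ≤ ((m + 1 : ℕ) : ℝ) * τ.im := by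
      push_cast
      nlinarith
    linarith
  rw [Finset.sum_congr rfl e1, Finset.sum_congr rfl e2, sum_cotP hℓ.ne' him1,
    sum_cotP hℓ.ne' him2, zcTerm, coe_ellTau]
  have e3 : (ℓ : ℂ) * ((r : ℂ) * (τ : ℂ) / ℓ + ((m + 1 : ℕ) : ℂ) * (τ : ℂ))
      = (r : ℂ) * (τ : ℂ) + ((m + 1 : ℕ) : ℂ) * ((ℓ : ℂ) * (τ : ℂ)) := by
    field_simp
  have e4 : (ℓ : ℂ) * ((r : ℂ) * (τ : ℂ) / ℓ - ((m + 1 : ℕ) : ℂ) * (τ : ℂ))
      = (r : ℂ) * (τ : ℂ) - ((m + 1 : ℕ) : ℂ) * ((ℓ : ℂ) * (τ : ℂ)) := by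
    field_simp
  rw [e3, e4]
  ring

/-- **Distribution relation for the division values.** -/
theorem sum_Phi {ℓ : ℕ} (hℓ : 0 < ℓ) {r : ℕ} (hr0 : 0 < r) (hr : r < ℓ) (τ : ℍ) :
    ∑ s ∈ Finset.range ℓ, Phi ℓ ![(r : ℤ), (s : ℤ)] τ
      = ℓ * Zc ((r : ℂ) * (τ : ℂ)) (ellTau ℓ hℓ τ) + 2 * π * I * r := by
  have hℓ' : (ℓ : ℂ) ≠ 0 := by exact_mod_cast hℓ.ne'
  have hℓr : (0 : ℝ) < ℓ := by exact_mod_cast hℓ
  have hr0' : (0 : ℝ) < r := by exact_mod_cast hr0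
  simp only [Phi_eq_PhiC, PhiC, Finset.sum_add_distrib]
  have hsum : ∀ s ∈ Finset.range ℓ,
      Summable fun m : ℕ => termC ℓ ![(r : ℤ), (s : ℤ)] (m + 1) (τ : ℂ) := by
    intro s _
    exact summable_zcTerm (zOf ℓ ![(r : ℤ), (s : ℤ)] τ) τ
  rw [← Summable.tsum_finsetSum hsum]
  simp_rw [sum_termC hℓ hr0 hr τ]
  rw [tsum_mul_left]
  have e1 : ∀ s ∈ Finset.range ℓ, cotP (zC ℓ ![(r : ℤ), (s : ℤ)] (τ : ℂ))
      = cotP ((r : ℂ) * (τ : ℂ) / ℓ + (s : ℂ) / ℓ) := by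
    intro s _
    rw [zC_cons]
  have him : ((r : ℂ) * (τ : ℂ) / ℓ).im ≠ 0 := by
    rw [Complex.div_natCast_im, natCast_mul_coe_im]
    have : 0 < (r : ℝ) * τ.im / ℓ := by
      have := τ.im_pos
      positivity
    exact this.ne'
  rw [Finset.sum_congr rfl e1, sum_cotP hℓ.ne' him]
  simp only [Matrix.cons_val_zero, Int.cast_natCast, Finset.sum_const, Finset.card_range,
    nsmul_eq_mul]
  rw [Zc]
  field_simp

end Fermat.Agent.S48.B1.H22
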