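import Mathlib
import Fermat.Agent.NEB.H34_TwSum
import Fermat.Agent.S48.B1.H22_Eis1Sum

/-!
# S48 B1 (a): weight one Eisenstein series, part 8 — the `q`-expansion (helper22)

`K c = π cot (π c τ) + π i = -2 π i ∑_{e ≥ 1} q^{c e}` for `c ≥ 1`, and
`Zc (r τ) (ℓ τ) = -π i + ∑_m K (r + ℓ m) - ∑_m K ((ℓ - r) + ℓ m)`.
-/

set_option autoImplicit false

open UpperHalfPlane hiding I
open Complex Filter Topology
open scoped Real

noncomputable section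

namespace Fermat.Agent.S48.B1.H22

/-- `K c = π cot (π c τ) + π i` for `c ≥ 1`, and `K 0 = 0`. -/
def K (τ : ℍ) (c : ℕ) : ℂ := if c = 0 then 0 else cotP ((c : ℂ) * (τ : ℂ)) + π * I

theorem K_zero (τ : ℍ) : K τ 0 = 0 := if_pos rfl

theorem K_succ (τ : ℍ) (m : ℕ) :
    K τ (m + 1) = cotP (((m + 1 : ℕ) : ℂ) * (τ : ℂ)) + π * I := if_neg (Nat.succ_ne_zero m)

theorem K_of_pos (τ : ℍ) {c : ℕ} (hc : 0 < c) : K τ c = cotP ((c : ℂ) * (τ : ℂ)) + π * I :=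
  if_neg hc.ne'

theorem cotP_eq_K (τ : ℍ) {c : ℕ} (hc : 0 < c) : cotP ((c : ℂ) * (τ : ℂ)) = K τ c - π * I := by
  rw [K_of_pos τ hc]
  ring

theorem im_natCast_mul_pos (τ : ℍ) {c : ℕ} (hc : 0 < c) : 0 < ((c : ℂ) * (τ : ℂ)).im := by
  rw [natCast_mul_coe_im]
  have : (0 : ℝ) < c := by exact_mod_cast hc
  exact mul_pos this τ.im_pos

theorem norm_K_succ_le (τ : ℍ) (m : ℕ) :
    ‖K τ (m + 1)‖ ≤ 2 * π / (1 - Real.exp (-2 * π * τ.im)) * Real.exp (-2 * π * τ.im) ^ (m + 1) := by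
  rw [K_succ]
  have ht : 0 < ((m : ℝ) + 1) * τ.im := mul_pos (by positivity) τ.im_pos
  have him : ((m : ℝ) + 1) * τ.im ≤ (((m + 1 : ℕ) : ℂ) * (τ : ℂ)).im := by
    rw [natCast_mul_coe_im]
    push_cast
    exact le_refl _
  refine (norm_cotP_add_pi_I_le ht him).trans ?_
  set ρ : ℝ := Real.exp (-2 * π * τ.im) with hρ
  have hρ0 : 0 < ρ := Real.exp_pos _
  have hρ1 : ρ < 1 := by
    rw [hρ, Real.exp_lt_one_iff]
    have hpi := Real.pi_pos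
    have := τ.im_pos
    nlinarith
  have hx : Real.exp (-2 * π * (((m : ℝ) + 1) * τ.im)) = ρ ^ (m + 1) := by
    rw [hρ, ← Real.exp_nat_mul]
    congr 1
    push_cast
    ring
  rw [hx]
  have := geom_bound hρ0 hρ1 m
  have hpi := Real.pi_pos
  calc 2 * π * (ρ ^ (m + 1) / (1 - ρ ^ (m + 1))) ≤ 2 * π * (ρ ^ (m + 1) / (1 - ρ)) := by
        apply mul_le_mul_of_nonneg_left this (by positivity)
    _ = 2 * π / (1 - ρ) * ρ ^ (m + 1) := by ring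

theorem summable_K (τ : ℍ) : Summable (K τ) := by
  rw [← summable_nat_add_iff 1]
  have hρ1 : Real.exp (-2 * π * τ.im) < 1 := by
    rw [Real.exp_lt_one_iff]
    have hpi := Real.pi_pos
    have := τ.im_pos
    nlinarith
  have h : Summable fun m : ℕ =>
      2 * π / (1 - Real.exp (-2 * π * τ.im)) * Real.exp (-2 * π * τ.im) ^ (m + 1) := by
    apply Summable.mul_left
    exact (summable_nat_add_iff 1).2 (summable_geometric_of_lt_one (Real.exp_pos _).le hρ1)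
  exact Summable.of_norm_bounded h (fun m => norm_K_succ_le τ m)

theorem summable_K_comp (τ : ℍ) {ℓ : ℕ} (hℓ : 0 < ℓ) (r : ℕ) :
    Summable fun m : ℕ => K τ (r + ℓ * m) := by
  apply (summable_K τ).comp_injective
  intro a b h
  have : ℓ * a = ℓ * b := by
    have h' : r + ℓ * a = r + ℓ * b := h
    omega
  exact Nat.eq_of_mul_eq_mul_left hℓ this

/-- `Zc (r τ) (ℓ τ)` in terms of `K`. -/
theorem Zc_eq_K {ℓ : ℕ} (hℓ : 0 < ℓ) {r : ℕ} (hr0 : 0 < r) (hr : r < ℓ) (τ : ℍ) :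
    Zc ((r : ℂ) * (τ : ℂ)) (ellTau ℓ hℓ τ)
      = -(π * I) + ∑' m : ℕ, K τ (r + ℓ * m) - ∑' m : ℕ, K τ ((ℓ - r) + ℓ * m) := by
  have hterm : ∀ m : ℕ, zcTerm ((r : ℂ) * (τ : ℂ)) (ellTau ℓ hℓ τ) (m + 1)
      = K τ (r + ℓ * (m + 1)) - K τ ((ℓ - r) + ℓ * m) := by
    intro m
    rw [zcTerm, coe_ellTau]
    have h1 : 0 < r + ℓ * (m + 1) := by positivity
    have h2 : 0 < (ℓ - r) + ℓ * m := by omega
    have e1 : (r : ℂ) * (τ : ℂ) + ((m + 1 : ℕ) : ℂ) * ((ℓ : ℂ) * (τ : ℂ))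
        = ((r + ℓ * (m + 1) : ℕ) : ℂ) * (τ : ℂ) := by
      push_cast
      ring
    have e3 : ((((ℓ - r) + ℓ * m : ℕ)) : ℂ) = (ℓ : ℂ) - (r : ℂ) + (ℓ : ℂ) * (m : ℂ) := by
      rw [Nat.cast_add, Nat.cast_sub hr.le, Nat.cast_mul]
    have e2 : (r : ℂ) * (τ : ℂ) - ((m + 1 : ℕ) : ℂ) * ((ℓ : ℂ) * (τ : ℂ))
        = -((((ℓ - r) + ℓ * m : ℕ) : ℂ) * (τ : ℂ)) := by
      rw [e3]
      push_cast
      ring
    rw [e1, e2, cotP_neg, cotP_eq_K τ h1, cotP_eq_K τ h2]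
    ring
  rw [Zc, tsum_congr hterm]
  have s1 : Summable fun m : ℕ => K τ (r + ℓ * (m + 1)) := by
    apply (summable_K τ).comp_injective
    intro a b h
    have h' : r + ℓ * (a + 1) = r + ℓ * (b + 1) := h
    have : ℓ * (a + 1) = ℓ * (b + 1) := by omega
    have := Nat.eq_of_mul_eq_mul_left hℓ this
    omega
  have s2 := summable_K_comp τ hℓ (ℓ - r)
  rw [s1.tsum_sub s2, (summable_K_comp τ hℓ r).tsum_eq_zero_add, mul_zero, add_zero,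
    cotP_eq_K τ hr0]
  ring

/-- `K c = -2 π i ∑_{e ≥ 1} q^{c e}`. -/
theorem K_eq_tsum (τ : ℍ) (c : ℕ+) :
    K τ c = -2 * π * I * ∑' e : ℕ+, cexp (2 * π * I * τ) ^ ((c : ℕ) * (e : ℕ)) := by
  have hc : 0 < (c : ℕ) := c.pos
  rw [K_of_pos τ hc, cotP_add_pi_I (im_natCast_mul_pos τ hc), nome_nat_mul]
  congr 1
  set x : ℂ := nome (τ : ℂ) ^ (c : ℕ) with hx
  have hxn : ‖x‖ < 1 := by
    rw [hx, norm_pow]
    exact pow_lt_one₀ (norm_nonneg _) (norm_nome_lt_one τ.im_pos) hc.ne'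
  have e1 : ∀ e : ℕ+, cexp (2 * π * I * τ) ^ ((c : ℕ) * (e : ℕ)) = x ^ (e : ℕ) := by
    intro e
    rw [hx, ← pow_mul]
    rfl
  simp_rw [e1]
  rw [tsum_pnat_eq_tsum_succ (f := fun n => x ^ n)]
  simp_rw [pow_succ]
  rw [tsum_mul_right, tsum_geometric_of_norm_lt_one hxn]
  rw [div_eq_mul_inv, mul_comm]

end Fermat.Agent.S48.B1.H22
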