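import Mathlib
import Fermat.Agent.S48.B1.Defs
import Fermat.Agent.S48.Int.H22_ProdPow
import Fermat.Agent.S48.B1.H22_Eis1Def
import Fermat.Agent.S48.B1.H22_Eis1Q

/-!
# S48 B1 (a): `Stmt_Eis1`, the weight one Eisenstein series of an odd character (helper22)

`E1 ℓ ψ = ∑_{a < ℓ} ψ(a) a - 2 ℓ ∑_{n ≥ 1} (∑_{d ∣ n} ψ(d)) qⁿ`.
-/

set_option autoImplicit false

open UpperHalfPlane hiding I
open Complex Filter Topology CongruenceSubgroup ModularForm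
open scoped Real MatrixGroups ModularForm Manifold

noncomputable section

namespace Fermat.Agent.S48.B1.H22

open Fermat.Agent.S48.Int (HasNeb)

variable {ℓ : ℕ} [NeZero ℓ] (ψ : DirichletCharacter ℂ ℓ)

omit [NeZero ℓ] in
theorem liftV_cons (j b : ZMod ℓ) : liftV ![j, b] = ![(j.val : ℤ), (b.val : ℤ)] := by
  funext i
  fin_cases i <;> rfl

theorem sum_zmod_val (f : ℕ → ℂ) : ∑ b : ZMod ℓ, f b.val = ∑ s ∈ Finset.range ℓ, f s := by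
  obtain ⟨k, rfl⟩ := Nat.exists_eq_succ_of_ne_zero (NeZero.ne ℓ)
  exact Fin.sum_univ_eq_sum_range f (k + 1)

theorem sum_zmod_psi (f : ℕ → ℂ) :
    ∑ j : ZMod ℓ, ψ j * f j.val = ∑ a ∈ Finset.range ℓ, ψ (a : ZMod ℓ) * f a := by
  rw [← sum_zmod_val (fun a => ψ (a : ZMod ℓ) * f a)]
  refine Finset.sum_congr rfl fun j _ => ?_
  rw [ZMod.natCast_zmod_val]

theorem sum_vec_eq (τ : ℍ) :
    ∑ v : Fin 2 → ZMod ℓ, ψ (v 0) * Phi ℓ (liftV v) τ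
      = ∑ j : ZMod ℓ, ψ j * ∑ s ∈ Finset.range ℓ, Phi ℓ ![(j.val : ℤ), (s : ℤ)] τ := by
  rw [← (finTwoArrowEquiv (ZMod ℓ)).symm.sum_comp, Fintype.sum_prod_type]
  refine Finset.sum_congr rfl fun j _ => ?_
  rw [Finset.mul_sum, ← sum_zmod_val (fun s => ψ j * Phi ℓ ![(j.val : ℤ), (s : ℤ)] τ)]
  refine Finset.sum_congr rfl fun b _ => ?_
  simp only [finTwoArrowEquiv_symm_apply, Matrix.cons_val_zero, liftV_cons]

/-- The sum of `K` over a residue class. -/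
def KA (ℓ : ℕ) [NeZero ℓ] (τ : ℍ) (j : ZMod ℓ) : ℂ := ∑' m : ℕ, K τ (j.val + ℓ * m)

theorem sum_Phi_eq_KA {j : ZMod ℓ} (hj : j ≠ 0) (τ : ℍ) :
    ∑ s ∈ Finset.range ℓ, Phi ℓ ![(j.val : ℤ), (s : ℤ)] τ
      = ℓ * (-(π * I) + KA ℓ τ j - KA ℓ τ (-j)) + 2 * π * I * (j.val : ℂ) := by
  have hℓ : 0 < ℓ := Nat.pos_of_ne_zero (NeZero.ne ℓ)
  have h0 : 0 < j.val := (ZMod.val_pos).2 hj
  have h1 : j.val < ℓ := ZMod.val_lt j
  rw [sum_Phi hℓ h0 h1, Zc_eq_K hℓ h0 h1, KA, KA, ZMod.neg_val, if_neg hj]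

/-- The function `c ↦ ψ(c) K(c)`. -/
def FK (τ : ℍ) (c : ℕ) : ℂ := ψ (c : ZMod ℓ) * K τ c

omit [NeZero ℓ] in
theorem summable_FK (τ : ℍ) : Summable (FK ψ τ) := by
  refine Summable.of_norm_bounded (summable_K τ).norm fun c => ?_
  rw [FK, norm_mul]
  exact mul_le_of_le_one_left (norm_nonneg _) (DirichletCharacter.norm_le_one ψ _)

theorem sum_psi_KA (τ : ℍ) : ∑ j : ZMod ℓ, ψ j * KA ℓ τ j = ∑' c : ℕ, FK ψ τ c := by
  rw [Nat.sumByResidueClasses (summable_FK ψ τ) ℓ]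
  refine Finset.sum_congr rfl fun j _ => ?_
  rw [KA, ← tsum_mul_left]
  refine tsum_congr fun m => ?_
  rw [FK]
  congr 2
  push_cast
  rw [ZMod.natCast_zmod_val, ZMod.natCast_self, zero_mul, add_zero]

theorem sum_psi_KA_neg (hodd : ψ (-1) = -1) (τ : ℍ) :
    ∑ j : ZMod ℓ, ψ j * KA ℓ τ (-j) = -∑' c : ℕ, FK ψ τ c := by
  rw [← sum_psi_KA, ← Finset.sum_neg_distrib]
  refine Fintype.sum_equiv (Equiv.neg (ZMod ℓ)) _ _ fun j => ?_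
  simp only [Equiv.neg_apply]
  rw [← neg_one_mul j, map_mul, hodd, neg_one_mul j]
  ring

theorem sum_psi_eq_zero (hodd : ψ (-1) = -1) : ∑ j : ZMod ℓ, ψ j = 0 := by
  apply MulChar.sum_eq_zero_of_ne_one
  intro h
  rw [h, MulChar.one_apply (isUnit_one.neg)] at hodd
  norm_num at hodd


theorem sum_all (hℓ : 1 < ℓ) (hodd : ψ (-1) = -1) (τ : ℍ) :
    ∑ v : Fin 2 → ZMod ℓ, ψ (v 0) * Phi ℓ (liftV v) τ
      = 2 * ℓ * ∑' c : ℕ, FK ψ τ c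
        + 2 * π * I * ∑ a ∈ Finset.range ℓ, ψ (a : ZMod ℓ) * (a : ℂ) := by
  rw [sum_vec_eq]
  have e : ∀ j : ZMod ℓ, ψ j * ∑ s ∈ Finset.range ℓ, Phi ℓ ![(j.val : ℤ), (s : ℤ)] τ
      = -(ℓ * (π * I)) * ψ j + ℓ * (ψ j * KA ℓ τ j) - ℓ * (ψ j * KA ℓ τ (-j))
        + 2 * π * I * (ψ j * (j.val : ℂ)) := by
    intro j
    by_cases hj : j = 0
    · rw [hj, psi_zero ψ hℓ]
      ring
    · rw [sum_Phi_eq_KA hj]
      ring
  rw [Finset.sum_congr rfl (fun j _ => e j), Finset.sum_add_distrib, Finset.sum_sub_distrib,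
    Finset.sum_add_distrib, ← Finset.mul_sum, ← Finset.mul_sum, ← Finset.mul_sum,
    ← Finset.mul_sum, sum_psi_eq_zero ψ hodd, sum_psi_KA, sum_psi_KA_neg ψ hodd,
    sum_zmod_psi ψ (fun a => (a : ℂ))]
  ring

/-- `c ↦ ψ(c mod ℓ)` on `ℤ`. -/
def chiZ (c : ℤ) : ℂ := ψ ((c : ZMod ℓ))

omit [NeZero ℓ] in
theorem norm_chiZ_le (c : ℤ) : ‖chiZ ψ c‖ ≤ 1 := DirichletCharacter.norm_le_one ψ _

/-- The divisor sum `∑_{d ∣ n} ψ(d)`. -/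
def sigPsi (n : ℕ) : ℂ := ∑ d ∈ n.divisors, ψ (d : ZMod ℓ)

omit [NeZero ℓ] in
theorem sigmaChi_eq_sigPsi (n : ℕ) :
    Fermat.Agent.NEB.H34.sigmaChi (chiZ ψ) 0 n = sigPsi ψ n := by
  unfold Fermat.Agent.NEB.H34.sigmaChi sigPsi chiZ
  simp only [pow_zero, mul_one]
  rw [Nat.sum_divisorsAntidiagonal (fun a _ => ψ (((a : ℕ) : ℤ) : ZMod ℓ))]
  simp

omit [NeZero ℓ] in
theorem norm_sigPsi_le (n : ℕ) : ‖sigPsi ψ n‖ ≤ (n : ℝ) := by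
  unfold sigPsi
  refine (norm_sum_le _ _).trans ?_
  refine (Finset.sum_le_card_nsmul _ _ 1 (fun d _ => DirichletCharacter.norm_le_one ψ _)).trans ?_
  rw [nsmul_eq_mul, mul_one]
  exact_mod_cast Nat.card_divisors_le_self n

omit [NeZero ℓ] in
theorem summable_sigPsi (τ : ℍ) :
    Summable fun n : ℕ => sigPsi ψ n * cexp (2 * π * I * τ) ^ n := by
  apply Summable.of_norm_bounded
    (summable_norm_pow_mul_geometric_of_norm_lt_one 1 (UpperHalfPlane.norm_exp_two_pi_I_lt_one τ))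
  intro n
  simp only [norm_mul, Complex.norm_natCast, norm_pow, pow_one]
  gcongr
  exact norm_sigPsi_le ψ n

omit [NeZero ℓ] in
theorem tsum_FK (τ : ℍ) :
    ∑' c : ℕ, FK ψ τ c
      = -2 * π * I * ∑' n : ℕ+, sigPsi ψ n * cexp (2 * π * I * τ) ^ (n : ℕ) := by
  have hq : ‖cexp (2 * π * I * τ)‖ < 1 := UpperHalfPlane.norm_exp_two_pi_I_lt_one τ
  rw [← tsum_zero_pnat_eq_tsum_nat (summable_FK ψ τ), FK, K_zero, mul_zero, zero_add]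
  have e0 : ∀ n : ℕ+, sigPsi ψ n * cexp (2 * π * I * τ) ^ (n : ℕ)
      = Fermat.Agent.NEB.H34.sigmaChi (chiZ ψ) 0 n * cexp (2 * π * I * τ) ^ (n : ℕ) := by
    intro n
    rw [sigmaChi_eq_sigPsi]
  rw [tsum_congr e0, ← Fermat.Agent.NEB.H34.tsum_twisted_prod (chiZ ψ) (norm_chiZ_le ψ) 0 hq,
    Summable.tsum_prod (Fermat.Agent.NEB.H34.summable_twisted_prod (chiZ ψ) (norm_chiZ_le ψ) 0 hq),
    ← tsum_mul_left]
  refine tsum_congr fun c => ?_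
  rw [FK, K_eq_tsum, ← tsum_mul_left, ← tsum_mul_left, ← tsum_mul_left]
  refine tsum_congr fun e => ?_
  simp only [chiZ, pow_zero, mul_one, Int.cast_natCast]
  ring

/-- **The `q`-expansion of `E_{1,ψ}`**, as a sum over `ℕ+`. -/
theorem E1_eq_tsum_pnat (hℓ : 1 < ℓ) (hodd : ψ (-1) = -1) (τ : ℍ) :
    E1 ℓ ψ τ = ∑ a ∈ Finset.range ℓ, ψ (a : ZMod ℓ) * (a : ℂ)
      + -2 * ℓ * ∑' n : ℕ+, sigPsi ψ n * cexp (2 * π * I * τ) ^ (n : ℕ) := by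
  rw [E1, sum_all ψ hℓ hodd, tsum_FK]
  have h := two_pi_I_ne_zero'
  field_simp
  ring

/-- The coefficients of `eis1Series`. -/
def eis1Coeff (n : ℕ) : ℂ :=
  if n = 0 then ∑ a ∈ Finset.range ℓ, ψ (a : ZMod ℓ) * (a : ℂ)
  else -2 * (ℓ : ℂ) * ∑ d ∈ n.divisors, ψ (d : ZMod ℓ)

omit [NeZero ℓ] in
theorem eis1Series_eq : eis1Series ℓ ψ = PowerSeries.mk (eis1Coeff ψ) := rfl

omit [NeZero ℓ] in
theorem eis1Coeff_zero : eis1Coeff ψ 0 = ∑ a ∈ Finset.range ℓ, ψ (a : ZMod ℓ) * (a : ℂ) :=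
  if_pos rfl

omit [NeZero ℓ] in
theorem eis1Coeff_of_ne_zero {n : ℕ} (hn : n ≠ 0) :
    eis1Coeff ψ n = -2 * (ℓ : ℂ) * sigPsi ψ n := if_neg hn

omit [NeZero ℓ] in
theorem summable_eis1Coeff (τ : ℍ) :
    Summable fun n : ℕ => eis1Coeff ψ n * cexp (2 * π * I * τ) ^ n := by
  rw [← summable_nat_add_iff 1]
  have h := ((summable_nat_add_iff 1).2 (summable_sigPsi ψ τ)).mul_left (-2 * (ℓ : ℂ))
  refine h.congr fun n => ?_
  rw [eis1Coeff_of_ne_zero ψ (Nat.succ_ne_zero n)]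
  ring

theorem E1_eq_tsum (hℓ : 1 < ℓ) (hodd : ψ (-1) = -1) (τ : ℍ) :
    E1 ℓ ψ τ = ∑' n : ℕ, eis1Coeff ψ n * cexp (2 * π * I * τ) ^ n := by
  rw [E1_eq_tsum_pnat ψ hℓ hodd, ← tsum_zero_pnat_eq_tsum_nat (summable_eis1Coeff ψ τ),
    eis1Coeff_zero, pow_zero, mul_one, ← tsum_mul_left]
  congr 1
  refine tsum_congr fun n => ?_
  rw [eis1Coeff_of_ne_zero ψ n.ne_zero]
  ring

theorem hasSum_E1 (hℓ : 1 < ℓ) (hodd : ψ (-1) = -1) (τ : ℍ) :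
    HasSum (fun m : ℕ => eis1Coeff ψ m • Function.Periodic.qParam 1 τ ^ m) (E1 ℓ ψ τ) := by
  rw [E1_eq_tsum ψ hℓ hodd τ]
  have h1 := (summable_eis1Coeff ψ τ).hasSum
  have hf : (fun m : ℕ => eis1Coeff ψ m • Function.Periodic.qParam 1 τ ^ m)
      = fun i : ℕ => eis1Coeff ψ i * cexp (2 * π * I * τ) ^ i := by
    funext m
    simp only [smul_eq_mul, Function.Periodic.qParam, ofReal_one, div_one]
  rw [hf]
  exact h1

theorem qExpansion_E1 (hℓ : 1 < ℓ) (hodd : ψ (-1) = -1) :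
    qExpansion 1 (E1 ℓ ψ) = eis1Series ℓ ψ := by
  have hnice := Fermat.Agent.S48.Int.H22.nice_of_hasNeb (hasNeb_E1 ψ hℓ)
    (mdifferentiable_E1 ψ hℓ) (isBoundedAtImInfty_E1_slash ψ hℓ)
  ext m
  rw [eis1Series_eq, PowerSeries.coeff_mk]
  exact (UpperHalfPlane.qExpansion_coeff_unique
    (ContinuousMap.mk (E1 ℓ ψ) (mdifferentiable_E1 ψ hℓ).continuous) one_pos
    (hnice.analyticAt one_pos) (hasSum_E1 ψ hℓ hodd) m).symm

/-- **B1(a) Eis1.** -/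
theorem stmt_Eis1 : Stmt_Eis1 := by
  intro ℓ _ hp ψ hodd
  exact ⟨E1 ℓ ψ, mdifferentiable_E1 ψ hp.one_lt, isBoundedAtImInfty_E1_slash ψ hp.one_lt,
    hasNeb_E1 ψ hp.one_lt, qExpansion_E1 ψ hp.one_lt hodd⟩

end Fermat.Agent.S48.B1.H22
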