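import Fermat.Agent.S48.B1.H31_NebV
import Mathlib.NumberTheory.LSeries.PrimesInAP

/-!
# S48, B1, leaf NebOfRel (helper31): the Hecke relations force the nebentypus

`stmt_NebOfRel_of : Stmt_HeckeNeb → Stmt_FinDimNeb → Stmt_NebOfRel`.

Let `g = ∑_ψ g_ψ` (`Int.H31.neb`).  For `ψ ≠ χ` choose a prime `p ∤ M` with `ψ(p) ≠ χ(p)`
(Dirichlet).  The functions
`F_ψ' = T_p g_ψ' - b_p g_ψ' + (χ(p) - ψ'(p)) g_ψ' ∣ diag(p, 1)` transform under `Γ₀(M p)` with the
character `ψ'` and their sum has `q`-expansion `0` by the relations, so every `F_ψ'` vanishes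
(`eq_zero_of_sum_eq_zero`).  Hence `g_ψ ∣ diag(p, 1) ∈ S_k(M, ψ)` and `g_ψ = 0` by `seq_noOld`.
-/

set_option autoImplicit false

open CongruenceSubgroup UpperHalfPlane ModularForm
open scoped MatrixGroups ModularForm Manifold

noncomputable section

namespace Fermat.Agent.S48.B1.H31

open Fermat.Agent.S48.Int (HasNeb)
open Fermat.Agent.S23.H22 (Nice)
open Fermat.Agent.S48.Int.H22 (nice_cusp1 one_mem_strictPeriods_Gamma1)
open Fermat.Agent.S48.Int.H31 (lr gam gam_mem lr_gam neb hasNeb_neb sum_neb cuspForm_sum_apply)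

/-! ### Uniqueness of the decomposition -/

theorem sum_slash_SL {ι : Type} (s : Finset ι) (k : ℤ) (F : ι → ℍ → ℂ) (γ : SL(2, ℤ)) :
    (∑ i ∈ s, F i) ∣[k] γ = ∑ i ∈ s, F i ∣[k] γ := by
  classical
  induction s using Finset.induction_on with
  | empty => simp
  | insert a s ha ih => rw [Finset.sum_insert ha, Finset.sum_insert ha, SlashAction.add_slash, ih]

/-- Every unit mod `M` is the lower right entry of an element of `Γ₀(M p)`. -/
theorem exists_gamma_unit {M p : ℕ} [NeZero M] (hp : p ≠ 0) (d : (ZMod M)ˣ) :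
    ∃ γ : SL(2, ℤ), γ ∈ Gamma0 (M * p) ∧ (((γ 1 1 : ℤ) : ZMod M)) = d := by
  haveI : NeZero (M * p) := ⟨mul_ne_zero (NeZero.ne M) hp⟩
  have hdvd : M ∣ M * p := Dvd.intro p rfl
  obtain ⟨d', hd'⟩ := ZMod.unitsMap_surjective hdvd d
  refine ⟨gam (M * p) d', gam_mem (M * p) d', ?_⟩
  have h1 : lr (M * p) (gam (M * p) d') = (d' : ZMod (M * p)) := lr_gam (M * p) d'
  have h2 : (ZMod.castHom hdvd (ZMod M)) (lr (M * p) (gam (M * p) d')) = (d : ZMod M) := by
    rw [h1, ← hd']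
    rfl
  rw [← h2]
  unfold lr
  rw [map_intCast]

/-- Functions transforming under `Γ₀(M p)` with different characters mod `M` are linearly
independent. -/
theorem eq_zero_of_sum_eq_zero {M p : ℕ} [NeZero M] (hp : p ≠ 0) (k : ℤ)
    (F : DirichletCharacter ℂ M → ℍ → ℂ)
    (hF : ∀ ψ, ∀ γ : SL(2, ℤ), γ ∈ Gamma0 (M * p) →
      F ψ ∣[k] γ = ψ (((γ 1 1 : ℤ) : ZMod M)) • F ψ)
    (hsum : ∑ ψ, F ψ = 0) (ψ : DirichletCharacter ℂ M) : F ψ = 0 := by
  classical
  have h1 : ∀ d : (ZMod M)ˣ, ∑ ψ' : DirichletCharacter ℂ M, ψ' (d : ZMod M) • F ψ' = 0 := by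
    intro d
    obtain ⟨γ, hγ, hd⟩ := exists_gamma_unit hp d
    have h2 : (∑ ψ', F ψ') ∣[k] γ = 0 := by rw [hsum, SlashAction.zero_slash]
    rw [sum_slash_SL] at h2
    rw [← h2]
    refine Finset.sum_congr rfl (fun ψ' _ => ?_)
    rw [hF ψ' γ hγ, hd]
  funext z
  have h3 : ∀ a : ZMod M, ψ⁻¹ a * ∑ ψ' : DirichletCharacter ℂ M, ψ' a * F ψ' z = 0 := by
    intro a
    by_cases ha : IsUnit a
    · obtain ⟨d, rfl⟩ := ha
      have := congrFun (h1 d) z
      simp only [Finset.sum_apply, Pi.smul_apply, smul_eq_mul, Pi.zero_apply] at this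
      rw [this, mul_zero]
    · rw [MulChar.map_nonunit _ ha, zero_mul]
  have h4 : ∑ a : ZMod M, ψ⁻¹ a * ∑ ψ' : DirichletCharacter ℂ M, ψ' a * F ψ' z = 0 :=
    Finset.sum_eq_zero (fun a _ => h3 a)
  have h5 : ∑ a : ZMod M, ψ⁻¹ a * ∑ ψ' : DirichletCharacter ℂ M, ψ' a * F ψ' z
      = ∑ ψ' : DirichletCharacter ℂ M, (∑ a : ZMod M, (ψ⁻¹ * ψ') a) * F ψ' z := by
    simp only [Finset.mul_sum, Finset.sum_mul]
    rw [Finset.sum_comm]
    refine Finset.sum_congr rfl (fun ψ' _ => Finset.sum_congr rfl (fun a _ => ?_))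
    rw [MulChar.mul_apply]
    ring
  rw [h5, Finset.sum_eq_single ψ] at h4
  · rw [inv_mul_cancel, MulChar.sum_one_eq_card_units] at h4
    have hcard : ((Fintype.card (ZMod M)ˣ : ℕ) : ℂ) ≠ 0 := by
      exact_mod_cast Fintype.card_ne_zero
    exact (mul_eq_zero.mp h4).resolve_left hcard
  · intro ψ' _ hne
    rw [MulChar.sum_eq_zero_of_ne_one, zero_mul]
    intro h
    apply hne
    calc ψ' = ψ * (ψ⁻¹ * ψ') := by rw [← mul_assoc, mul_inv_cancel, one_mul]
      _ = ψ := by rw [h, mul_one]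
  · intro h
    exact absurd (Finset.mem_univ _) h

/-! ### The main theorem -/

/-- The space of coefficient sequences of `S_k(M, ψ)`. -/
def nebSeq (M : ℕ) (ψ : DirichletCharacter ℂ M) (k : ℤ) : Submodule ℂ (ℕ → ℂ) :=
  (nebSubmodule M ψ k).map (coeffMap M k)

theorem mem_nebSeq {M : ℕ} {ψ : DirichletCharacter ℂ M} {k : ℤ} {f : CuspForm (Gamma1 M) k}
    (hf : HasNeb M ψ k f) : coeffMap M k f ∈ nebSeq M ψ k :=
  Submodule.mem_map.mpr ⟨f, hf, rfl⟩

theorem cusp_eq_sum_neb {M : ℕ} [NeZero M] {k : ℤ} (g : CuspForm (Gamma1 M) k) :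
    g = ∑ ψ : DirichletCharacter ℂ M, neb g ψ := by
  apply DFunLike.ext
  intro z
  rw [cuspForm_sum_apply]
  exact sum_neb g z

/-- **NoOld**: if `h` and `h ∣ diag(p, 1)` are both in `S_k(M, ψ)`, then `h = 0`. -/
theorem noOld (hH : Stmt_HeckeNeb) {M : ℕ} [NeZero M] (ψ : DirichletCharacter ℂ M) (k : ℤ)
    [FiniteDimensional ℂ (nebSubmodule M ψ k)] {p : ℕ} (hp : p.Prime) (hpM : ¬ p ∣ M)
    (hψp : ψ (p : ZMod M) ≠ 0)
    (h : CuspForm (Gamma1 M) k) (hh : HasNeb M ψ k h)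
    (G : CuspForm (Gamma1 M) k) (hG : HasNeb M ψ k G) (hGh : (G : ℍ → ℂ) = vFun k p h) :
    h = 0 := by
  haveI : FiniteDimensional ℂ (nebSeq M ψ k) := by
    unfold nebSeq
    infer_instance
  have hp0 : p ≠ 0 := hp.ne_zero
  have hc : ((p : ℂ) ^ (k - 1)) ≠ 0 := zpow_ne_zero _ (by exact_mod_cast hp0)
  have hT : ∀ a ∈ nebSeq M ψ k,
      (fun n => a (p * n) + ψ (p : ZMod M) * seqV p ((p : ℂ) ^ (k - 1)) a n) ∈ nebSeq M ψ k := by
    intro a ha
    obtain ⟨f, hf, rfl⟩ := Submodule.mem_map.mp ha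
    obtain ⟨g', hg', hcoef⟩ := hH M ψ k f hf p hp hpM
    have : (fun n => coeffMap M k f (p * n) +
        ψ (p : ZMod M) * seqV p ((p : ℂ) ^ (k - 1)) (coeffMap M k f) n) = coeffMap M k g' := by
      funext n
      simp only [coeffMap_apply, seqV_apply]
      rw [hcoef n]
      split_ifs <;> ring
    rw [this]
    exact mem_nebSeq hg'
  have h0 : ∀ a ∈ nebSeq M ψ k, a 0 = 0 := by
    intro a ha
    obtain ⟨f, -, rfl⟩ := Submodule.mem_map.mp ha
    exact coeffMap_zero_coeff M k f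
  have hVa : seqV p ((p : ℂ) ^ (k - 1)) (coeffMap M k h) ∈ nebSeq M ψ k := by
    have : seqV p ((p : ℂ) ^ (k - 1)) (coeffMap M k h) = coeffMap M k G := by
      funext n
      rw [coeffMap_apply, hGh, qCoeff_vFun (nice_cusp1 h) k hp0 n]
      rfl
    rw [this]
    exact mem_nebSeq hG
  have hzero := seq_noOld p hp.one_lt _ _ hc hψp (nebSeq M ψ k) hT h0 _ (mem_nebSeq hh) hVa
  apply coeffMap_injective M k
  rw [hzero, map_zero]

/-- **A3 NebOfRel**, from HeckeNeb and FinDimNeb. -/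
theorem stmt_NebOfRel_of (hH : Stmt_HeckeNeb) (hFin : Stmt_FinDimNeb) : Stmt_NebOfRel := by
  intro M _ χ k hk g b hrel
  classical
  have key : ∀ ψ : DirichletCharacter ℂ M, ψ ≠ χ → neb g ψ = 0 := by
    intro ψ hψ
    obtain ⟨a, ha⟩ : ∃ a : (ZMod M)ˣ, ψ a ≠ χ a := by
      by_contra hcon
      push Not at hcon
      exact hψ (MulChar.ext hcon)
    obtain ⟨p, -, hpp, hpa⟩ := Nat.forall_exists_prime_gt_and_eq_mod a.isUnit 0
    have hp0 : p ≠ 0 := hpp.ne_zero
    have hpM : ¬ p ∣ M := by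
      intro hdvd
      have hu : IsUnit ((p : ℕ) : ZMod M) := by rw [hpa]; exact a.isUnit
      rw [ZMod.isUnit_iff_coprime] at hu
      exact hpp.one_lt.ne' (Nat.Coprime.eq_one_of_dvd hu hdvd)
    have hψp : ψ (p : ZMod M) ≠ 0 := by
      rw [hpa]
      exact (a.isUnit.map ψ).ne_zero
    have hdiff : χ (p : ZMod M) - ψ (p : ZMod M) ≠ 0 := by
      rw [hpa]
      exact sub_ne_zero.mpr (Ne.symm ha)
    haveI : FiniteDimensional ℂ (nebSubmodule M ψ k) := hFin M ψ k hk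
    -- the Hecke images of the components
    choose T hTneb hTcoeff using fun ψ' : DirichletCharacter ℂ M =>
      hH M ψ' k (neb g ψ') (hasNeb_neb g ψ') p hpp hpM
    set F : DirichletCharacter ℂ M → ℍ → ℂ := fun ψ' =>
      ((T ψ' : ℍ → ℂ) - b p • (neb g ψ' : ℍ → ℂ)) +
        (χ (p : ZMod M) - ψ' (p : ZMod M)) • vFun k p (neb g ψ') with hFdef
    have hnice1 : ∀ ψ', Nice 1 ((T ψ' : ℍ → ℂ) - b p • (neb g ψ' : ℍ → ℂ)) := fun ψ' =>
      (nice_cusp1 (T ψ')).sub ((nice_cusp1 (neb g ψ')).smul _)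
    have hnice2 : ∀ ψ', Nice 1 ((χ (p : ZMod M) - ψ' (p : ZMod M)) • vFun k p (neb g ψ')) :=
      fun ψ' => (nice_vFun (nice_cusp1 (neb g ψ')) k p).smul _
    have hFnice : ∀ ψ', Nice 1 (F ψ') := fun ψ' => (hnice1 ψ').add (hnice2 ψ')
    have hFslash : ∀ ψ', ∀ γ : SL(2, ℤ), γ ∈ Gamma0 (M * p) →
        F ψ' ∣[k] γ = ψ' (((γ 1 1 : ℤ) : ZMod M)) • F ψ' := by
      intro ψ' γ hγ
      have hγM : γ ∈ Gamma0 M := by
        rw [Gamma0_mem] at hγ ⊢
        have h1 := congrArg (ZMod.castHom (Dvd.intro p rfl : M ∣ M * p) (ZMod M)) hγ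
        rwa [map_intCast, map_zero] at h1
      have h1 := hTneb ψ' γ hγM
      have h2 := hasNeb_neb g ψ' γ hγM
      have h3 := vFun_slash hp0 (hasNeb_neb g ψ') γ hγ
      simp only [hFdef, SlashAction.add_slash, ModularForm.SL_smul_slash, h1, h2, h3,
        sub_eq_add_neg, SlashAction.neg_slash, smul_add, smul_neg]
      congr 1
      · congr 1
        rw [smul_comm]
      · rw [smul_comm]
    have hFcoeff : ∀ ψ' n, ModularFormClass.qCoeff (F ψ') n =
        coeffMap M k (neb g ψ') (p * n) + χ (p : ZMod M) * (p : ℂ) ^ (k - 1) *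
          (if p ∣ n then coeffMap M k (neb g ψ') (n / p) else 0) -
        b p * coeffMap M k (neb g ψ') n := by
      intro ψ' n
      unfold ModularFormClass.qCoeff
      rw [hFdef]
      simp only
      rw [Nice.qExpansion_add one_pos (hnice1 ψ') (hnice2 ψ'),
        Nice.qExpansion_sub one_pos (nice_cusp1 (T ψ')) ((nice_cusp1 (neb g ψ')).smul _),
        Nice.qExpansion_smul one_pos (nice_cusp1 (neb g ψ')),
        Nice.qExpansion_smul one_pos (nice_vFun (nice_cusp1 (neb g ψ')) k p)]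
      simp only [map_add, map_sub, PowerSeries.coeff_smul, smul_eq_mul]
      have h1 := hTcoeff ψ' n
      have h2 := qCoeff_vFun (nice_cusp1 (neb g ψ')) k hp0 n
      unfold ModularFormClass.qCoeff at h1 h2
      rw [h1, h2, seqV_apply]
      simp only [coeffMap_apply]
      unfold ModularFormClass.qCoeff
      split_ifs <;> ring
    have hgsum : ∀ m, coeffMap M k g m =
        ∑ ψ' : DirichletCharacter ℂ M, coeffMap M k (neb g ψ') m := by
      intro m
      conv_lhs => rw [cusp_eq_sum_neb g]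
      rw [map_sum, Finset.sum_apply]
    have hsum : ∑ ψ', F ψ' = 0 := by
      have hn : Nice 1 (∑ ψ', F ψ') := Nice.sum Finset.univ (fun ψ' _ => hFnice ψ')
      refine eq_of_qCoeff_eq hn (Nice.zero 1) (fun n => ?_)
      unfold ModularFormClass.qCoeff
      rw [Nice.qExpansion_sum one_pos Finset.univ (fun ψ' _ => hFnice ψ'), map_sum,
        UpperHalfPlane.qExpansion_zero, map_zero]
      have h1 : ∀ ψ', (PowerSeries.coeff n) (qExpansion 1 (F ψ')) =
          coeffMap M k (neb g ψ') (p * n) + χ (p : ZMod M) * (p : ℂ) ^ (k - 1) *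
            (if p ∣ n then coeffMap M k (neb g ψ') (n / p) else 0) -
          b p * coeffMap M k (neb g ψ') n := fun ψ' => hFcoeff ψ' n
      simp only [h1]
      rw [Finset.sum_sub_distrib, Finset.sum_add_distrib, ← Finset.mul_sum, ← Finset.mul_sum,
        ← hgsum, ← hgsum]
      have h2 : (∑ ψ' : DirichletCharacter ℂ M,
          (if p ∣ n then coeffMap M k (neb g ψ') (n / p) else 0)) =
          if p ∣ n then coeffMap M k g (n / p) else 0 := by
        split_ifs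
        · rw [← hgsum]
        · simp
      rw [h2]
      have h3 := hrel p hpp hpM n
      simp only [coeffMap_apply]
      rw [h3, sub_self]
    have hFψ := eq_zero_of_sum_eq_zero hp0 k F hFslash hsum ψ
    -- `g_ψ ∣ diag(p, 1)` is a cusp form in `S_k(M, ψ)`
    set c : ℂ := χ (p : ZMod M) - ψ (p : ZMod M) with hcdef
    have hG : HasNeb M ψ k (c⁻¹ • (b p • neb g ψ - T ψ) : CuspForm (Gamma1 M) k) :=
      (nebSubmodule M ψ k).smul_mem _
        ((nebSubmodule M ψ k).sub_mem ((nebSubmodule M ψ k).smul_mem _ (hasNeb_neb g ψ))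
          (hTneb ψ))
    have hGv : ((c⁻¹ • (b p • neb g ψ - T ψ) : CuspForm (Gamma1 M) k) : ℍ → ℂ) =
        vFun k p (neb g ψ) := by
      have h1 : ((c⁻¹ • (b p • neb g ψ - T ψ) : CuspForm (Gamma1 M) k) : ℍ → ℂ) =
          c⁻¹ • (b p • (neb g ψ : ℍ → ℂ) - (T ψ : ℍ → ℂ)) := rfl
      rw [h1]
      have h2 : c • vFun k p (neb g ψ) = b p • (neb g ψ : ℍ → ℂ) - (T ψ : ℍ → ℂ) := by
        have h3 : ((T ψ : ℍ → ℂ) - b p • (neb g ψ : ℍ → ℂ)) + c • vFun k p (neb g ψ) = 0 := hFψ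
        rw [eq_neg_of_add_eq_zero_right h3, neg_sub]
      rw [← h2, smul_smul, inv_mul_cancel₀ hdiff, one_smul]
    exact noOld hH ψ k hpp hpM hψp (neb g ψ) (hasNeb_neb g ψ) _ hG hGv
  -- conclusion
  have hgχ : (g : ℍ → ℂ) = neb g χ := by
    funext z
    rw [sum_neb g z, Finset.sum_eq_single χ]
    · intro ψ _ hψ
      rw [key ψ hψ]
      rfl
    · intro h
      exact absurd (Finset.mem_univ _) h
  intro γ hγ
  rw [hgχ]
  exact hasNeb_neb g χ γ hγ

end Fermat.Agent.S48.B1.H31
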