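import Fermat.Agent.S48.B1.Defs
import Fermat.Agent.S48.B1.H31_NoOld
import Fermat.Agent.S48.Int.H31_Decomp
import Fermat.Agent.S48.Int.H22_ProdPow
import Fermat.Prelude.Thm_UpperHalfPlane_qCoeff_heckeT
import Fermat.Prelude.Thm_UpperHalfPlane_qCoeff_heckeU
import Fermat.Prelude.Thm_ModularForm_mdifferentiable_heckeT
import Fermat.Prelude.Thm_ModularForm_mdifferentiable_heckeU
import Fermat.Prelude.Thm_ModularForm_isBoundedAtImInfty_heckeT
import Fermat.Prelude.Thm_ModularForm_isBoundedAtImInfty_heckeU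
import Fermat.Prelude.Thm_ModularForm_periodic_heckeT_comp_ofComplex
import Fermat.Prelude.Thm_ModularForm_periodic_heckeU_comp_ofComplex

/-!
# S48, B1, leaf NebOfRel, part 1 (helper31): coefficient map, `h(p z)`, uniqueness of the
decomposition into nebentypus components

* `coeffMap M k` : the `q`-coefficients as a linear map on `S_k(Γ₁(M))`, injective;
* `vFun k p f = f ∣[k] diag(p, 1)` : `Nice`, coefficients `seqV p (p^(k-1))`, and it transforms
  under `Γ₀(M p)` with the character of `f`;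
* `eq_zero_of_sum_eq_zero` : functions transforming under `Γ₀(M p)` with pairwise different
  characters mod `M` are linearly independent.
-/

set_option autoImplicit false

open CongruenceSubgroup UpperHalfPlane ModularForm
open scoped MatrixGroups ModularForm Manifold

noncomputable section

namespace Fermat.Agent.S48.B1.H31

open Fermat.Agent.S48.Int (HasNeb)
open Fermat.Agent.S23.H22 (Nice)
open Fermat.Agent.S48.Int.H22 (nice_cusp1 one_mem_strictPeriods_Gamma1)
open Fermat.Agent.S48.Int.H31 (lr gam gam_mem lr_gam)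

/-! ### The coefficient map -/

/-- The `q`-coefficients of a cusp form on `Γ₁(M)`, as a linear map. -/
def coeffMap (M : ℕ) (k : ℤ) : CuspForm (Gamma1 M) k →ₗ[ℂ] (ℕ → ℂ) where
  toFun f n := ModularFormClass.qCoeff f n
  map_add' f g := by
    funext n
    simp only [Pi.add_apply]
    unfold ModularFormClass.qCoeff
    rw [FunLike.coe_add, Nice.qExpansion_add one_pos (nice_cusp1 f) (nice_cusp1 g), map_add]
  map_smul' c f := by
    funext n
    simp only [Pi.smul_apply, RingHom.id_apply, smul_eq_mul]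
    unfold ModularFormClass.qCoeff
    have hcoe : ((c • f : CuspForm (Gamma1 M) k) : ℍ → ℂ) = c • (f : ℍ → ℂ) := rfl
    rw [hcoe, Nice.qExpansion_smul one_pos (nice_cusp1 f) c]
    simp

theorem coeffMap_apply (M : ℕ) (k : ℤ) (f : CuspForm (Gamma1 M) k) (n : ℕ) :
    coeffMap M k f n = ModularFormClass.qCoeff f n := rfl

theorem coeffMap_zero_coeff (M : ℕ) (k : ℤ) (f : CuspForm (Gamma1 M) k) :
    coeffMap M k f 0 = 0 :=
  CuspFormClass.qExpansion_coeff_zero f one_pos (one_mem_strictPeriods_Gamma1 M)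

theorem eq_of_qCoeff_eq {F G : ℍ → ℂ} (hF : Nice 1 F) (hG : Nice 1 G)
    (h : ∀ n, ModularFormClass.qCoeff F n = ModularFormClass.qCoeff G n) : F = G :=
  Nice.eq_of_qExpansion_eq one_pos hF hG (PowerSeries.ext h)

theorem coeffMap_injective (M : ℕ) (k : ℤ) : Function.Injective (coeffMap M k) := by
  intro f g h
  have h1 : (f : ℍ → ℂ) = g :=
    eq_of_qCoeff_eq (nice_cusp1 f) (nice_cusp1 g) (fun n => congrFun h n)
  exact DFunLike.coe_injective h1

/-! ### The function `h(p z)` -/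

/-- `f ∣[k] diag(p, 1)`, i.e. `z ↦ p^(k-1) f(p z)`. -/
def vFun (k : ℤ) (p : ℕ) (f : ℍ → ℂ) : ℍ → ℂ := f ∣[k] ModularForm.heckeDiagMatrix p

theorem vFun_eq (k : ℤ) (p : ℕ) (f : ℍ → ℂ) :
    vFun k p f = ModularForm.heckeT k p f - ModularForm.heckeU k p f := by
  rw [ModularForm.heckeT_eq_heckeU_add, add_sub_cancel_left]
  rfl

theorem nice_heckeT {f : ℍ → ℂ} (hf : Nice 1 f) (k : ℤ) (p : ℕ) :
    Nice 1 (ModularForm.heckeT k p f) :=
  ⟨ModularForm.periodic_heckeT_comp_ofComplex hf.per k p,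
    ModularForm.mdifferentiable_heckeT hf.hol k p,
    ModularForm.isBoundedAtImInfty_heckeT hf.bdd k p⟩

theorem nice_heckeU {f : ℍ → ℂ} (hf : Nice 1 f) (k : ℤ) (p : ℕ) :
    Nice 1 (ModularForm.heckeU k p f) :=
  ⟨ModularForm.periodic_heckeU_comp_ofComplex hf.per k p,
    ModularForm.mdifferentiable_heckeU hf.hol k p,
    ModularForm.isBoundedAtImInfty_heckeU hf.bdd k p⟩

theorem nice_vFun {f : ℍ → ℂ} (hf : Nice 1 f) (k : ℤ) (p : ℕ) : Nice 1 (vFun k p f) := by
  rw [vFun_eq]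
  exact (nice_heckeT hf k p).sub (nice_heckeU hf k p)

theorem qCoeff_vFun {f : ℍ → ℂ} (hf : Nice 1 f) (k : ℤ) {p : ℕ} (hp : p ≠ 0) (n : ℕ) :
    ModularFormClass.qCoeff (vFun k p f) n =
      seqV p ((p : ℂ) ^ (k - 1)) (fun m => ModularFormClass.qCoeff f m) n := by
  have h1 := UpperHalfPlane.qCoeff_heckeT hf.per hf.hol hf.bdd k hp n
  have h2 := UpperHalfPlane.qCoeff_heckeU hf.per hf.hol hf.bdd k hp n
  have h3 : ModularFormClass.qCoeff (vFun k p f) n =
      ModularFormClass.qCoeff (ModularForm.heckeT k p f) n -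
        ModularFormClass.qCoeff (ModularForm.heckeU k p f) n := by
    unfold ModularFormClass.qCoeff
    rw [vFun_eq, Nice.qExpansion_sub one_pos (nice_heckeT hf k p) (nice_heckeU hf k p), map_sub]
  rw [h3, h1, h2, ModularForm.coeffHeckeT_eq_coeffHeckeU_add, add_sub_cancel_left, seqV_apply]

/-! ### Transformation of `h(p z)` under `Γ₀(M p)` -/

theorem det_eq_one (g : SL(2, ℤ)) : g 0 0 * g 1 1 - g 0 1 * g 1 0 = 1 := by
  have h := g.det_coe
  rwa [Matrix.det_fin_two] at h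

/-- `diag(p, 1) γ = γ' diag(p, 1)` with `γ' = [a, p b; c / p, d]`. -/
theorem diag_mul_eq {p : ℕ} (hp : p ≠ 0) (g : SL(2, ℤ)) (e : ℤ) (he : g 1 0 = p * e) :
    ∃ g' : SL(2, ℤ), g' 1 0 = e ∧ g' 1 1 = g 1 1 ∧
      ModularForm.heckeDiagMatrix p * Matrix.SpecialLinearGroup.mapGL ℝ g =
        Matrix.SpecialLinearGroup.mapGL ℝ g' * ModularForm.heckeDiagMatrix p := by
  have hdet := det_eq_one g
  obtain ⟨g', h00, h01, h10, h11⟩ : ∃ g' : SL(2, ℤ), g' 0 0 = g 0 0 ∧ g' 0 1 = p * g 0 1 ∧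
      g' 1 0 = e ∧ g' 1 1 = g 1 1 := by
    refine ⟨⟨!![g 0 0, p * g 0 1; e, g 1 1], ?_⟩, rfl, rfl, rfl, rfl⟩
    rw [Matrix.det_fin_two_of]
    linear_combination hdet + (g 0 1) * he
  refine ⟨g', h10, h11, ?_⟩
  ext i j
  fin_cases i <;> fin_cases j <;>
    simp [hp, Matrix.mul_apply, Fin.sum_univ_two, h00, h01, h10, h11]
  all_goals first
    | ring1
    | (have := congrArg (Int.cast : ℤ → ℝ) he; push_cast at this ⊢; linear_combination this)

theorem vFun_slash {M p : ℕ} (hp : p ≠ 0) {ψ : DirichletCharacter ℂ M} {k : ℤ} {f : ℍ → ℂ}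
    (hf : HasNeb M ψ k f) (γ : SL(2, ℤ)) (hγ : γ ∈ Gamma0 (M * p)) :
    vFun k p f ∣[k] γ = ψ (((γ 1 1 : ℤ) : ZMod M)) • vFun k p f := by
  have hc : ((γ 1 0 : ℤ) : ZMod (M * p)) = 0 := Gamma0_mem.mp hγ
  rw [ZMod.intCast_zmod_eq_zero_iff_dvd] at hc
  obtain ⟨e', he'⟩ := hc
  have he : γ 1 0 = p * ((M : ℤ) * e') := by rw [he']; push_cast; ring
  obtain ⟨γ', h10, h11, hmat⟩ := diag_mul_eq hp γ _ he
  have hγ' : γ' ∈ Gamma0 M := by
    rw [Gamma0_mem, h10]
    push_cast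
    simp
  have h1 := hf γ' hγ'
  rw [h11] at h1
  unfold vFun
  rw [ModularForm.SL_slash, ← SlashAction.slash_mul]
  change f ∣[k] (ModularForm.heckeDiagMatrix p * Matrix.SpecialLinearGroup.mapGL ℝ γ) = _
  rw [hmat, SlashAction.slash_mul]
  have h2 : f ∣[k] (Matrix.SpecialLinearGroup.mapGL ℝ γ') = f ∣[k] γ' := rfl
  rw [h2, h1, ModularForm.smul_slash, ModularForm.σ_heckeDiagMatrix,
    ContinuousAlgEquiv.refl_apply]

end Fermat.Agent.S48.B1.H31
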