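import Fermat.Agent.S48.B1.Defs

/-!
# S48, mountain B1, leaf Teich (helper32): the inverse Teichmüller character

`stmt_Teich : Stmt_Teich`: for an odd prime `ℓ` and a ring homomorphism `φ : ℤ̄ → k` into a field
of characteristic `ℓ` there is an odd Dirichlet character `ψ` mod `ℓ` with `φ (ψ a) · a = 1` for
all units `a` of `ℤ / ℓ`.

Proof: `φ` maps the `(ℓ-1)`-th roots of unity of `ℂ` injectively (geometric sum: `ℓ - 1 ≠ 0` in
`k`) into the `(ℓ-1)`-th roots of unity of `k`, which are the `ℓ - 1` units of the prime field; so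
both `μ_{ℓ-1}(ℂ) → μ_{ℓ-1}(k)` and `(ℤ/ℓ)ˣ → μ_{ℓ-1}(k)` are bijective.
-/

set_option autoImplicit false
set_option linter.style.haveILetI false

namespace Fermat.Agent.S48.B1.H32

open Fermat.Agent.S48.B1

/-- A root of unity of `ℂ` is an algebraic integer. -/
lemma isIntegral_rootOfUnity (n : ℕ) (hn : n ≠ 0) (ζ : rootsOfUnity n ℂ) :
    IsIntegral ℤ ((ζ : ℂˣ) : ℂ) := by
  have h : ((ζ : ℂˣ) : ℂ) ^ n = 1 := by
    have := (mem_rootsOfUnity n (ζ : ℂˣ)).mp ζ.2
    rw [← Units.val_pow_eq_pow_val, this, Units.val_one]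
  exact IsIntegral.of_pow (Nat.pos_of_ne_zero hn) (by rw [h]; exact isIntegral_one)

/-- The roots of unity of `ℂ` as algebraic integers. -/
noncomputable def rootToInt (n : ℕ) (hn : n ≠ 0) : rootsOfUnity n ℂ →* integralClosure ℤ ℂ where
  toFun ζ := ⟨((ζ : ℂˣ) : ℂ), isIntegral_rootOfUnity n hn ζ⟩
  map_one' := Subtype.ext (by simp)
  map_mul' a b := Subtype.ext (by simp)

@[simp]
lemma coe_rootToInt (n : ℕ) (hn : n ≠ 0) (ζ : rootsOfUnity n ℂ) :
    ((rootToInt n hn ζ : integralClosure ℤ ℂ) : ℂ) = ((ζ : ℂˣ) : ℂ) := rfl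

/-- **Teich**: the inverse Teichmüller character with respect to `φ`. -/
theorem stmt_Teich : Stmt_Teich := by
  intro ℓ _ hℓ hℓ2 k _ _ φ
  haveI : Fact ℓ.Prime := ⟨hℓ⟩
  obtain ⟨n, hn⟩ : ∃ n, n = ℓ - 1 := ⟨_, rfl⟩
  have hℓ2' := hℓ.two_le
  have hn0 : n ≠ 0 := by omega
  haveI : NeZero n := ⟨hn0⟩
  have hnk : (n : k) = -1 := by
    have h1 : ((n + 1 : ℕ) : k) = 0 := by
      have : n + 1 = ℓ := by omega
      rw [this]
      exact CharP.cast_eq_zero k ℓ
    have h2 : (n : k) + 1 = 0 := by exact_mod_cast h1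
    exact eq_neg_of_add_eq_zero_left h2
  -- the map `μ_n(ℂ) → kˣ`
  set f0 : rootsOfUnity n ℂ →* k := (φ : integralClosure ℤ ℂ →* k).comp (rootToInt n hn0) with hf0
  set f : rootsOfUnity n ℂ →* kˣ := f0.toHomUnits with hf
  have hf_coe : ∀ ζ, ((f ζ : kˣ) : k) = φ (rootToInt n hn0 ζ) := fun ζ => rfl
  have hf_mem : ∀ ζ, f ζ ∈ rootsOfUnity n k := by
    intro ζ
    rw [mem_rootsOfUnity, ← map_pow]
    have : ζ ^ n = 1 := by
      apply Subtype.ext
      have := (mem_rootsOfUnity n (ζ : ℂˣ)).mp ζ.2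
      simpa using this
    rw [this, map_one]
  set fC : rootsOfUnity n ℂ →* rootsOfUnity n k := f.codRestrict _ hf_mem with hfC
  -- injectivity
  have hf_inj : Function.Injective fC := by
    rw [injective_iff_map_eq_one]
    intro ζ hζ
    by_contra hne
    have h1 : ((f ζ : kˣ) : k) = 1 := by
      have h0 : ((fC ζ : rootsOfUnity n k) : kˣ) = f ζ := rfl
      rw [← h0, hζ]
      rfl
    have hz1 : ((ζ : ℂˣ) : ℂ) ≠ 1 := by
      intro h
      apply hne
      apply Subtype.ext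
      apply Units.ext
      simpa using h
    have hzn : ((ζ : ℂˣ) : ℂ) ^ n = 1 := by
      have := (mem_rootsOfUnity n (ζ : ℂˣ)).mp ζ.2
      rw [← Units.val_pow_eq_pow_val, this, Units.val_one]
    have hsum : ∑ i ∈ Finset.range n, ((ζ : ℂˣ) : ℂ) ^ i = 0 := by
      have := mul_geom_sum ((ζ : ℂˣ) : ℂ) n
      rw [hzn, sub_self] at this
      rcases mul_eq_zero.mp this with h | h
      · exact absurd (sub_eq_zero.mp h) hz1
      · exact h
    have hsum' : ∑ i ∈ Finset.range n, (rootToInt n hn0 ζ) ^ i = 0 := by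
      apply Subtype.ext
      rw [AddSubmonoidClass.coe_finsetSum]
      simpa using hsum
    have h2 := congrArg φ hsum'
    rw [map_sum, map_zero] at h2
    simp only [map_pow] at h2
    rw [← hf_coe ζ, h1] at h2
    simp only [one_pow, Finset.sum_const, Finset.card_range, nsmul_eq_mul, mul_one] at h2
    rw [hnk] at h2
    exact one_ne_zero (neg_eq_zero.mp h2)
  have hcardC : Nat.card (rootsOfUnity n k) ≤ n := card_rootsOfUnity k n
  have hf_bij : Function.Bijective fC :=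
    hf_inj.bijective_of_nat_card_le (by rw [Complex.card_rootsOfUnity]; exact hcardC)
  -- the map `(ℤ/ℓ)ˣ → kˣ`
  set g : (ZMod ℓ)ˣ →* kˣ := Units.map ((ZMod.castHom (dvd_refl ℓ) k : ZMod ℓ →+* k) : ZMod ℓ →* k)
    with hg
  have hg_coe : ∀ a : (ZMod ℓ)ˣ, ((g a : kˣ) : k) = ZMod.castHom (dvd_refl ℓ) k (a : ZMod ℓ) :=
    fun a => rfl
  have hg_mem : ∀ a, g a ∈ rootsOfUnity n k := by
    intro a
    rw [mem_rootsOfUnity, ← map_pow, hn, ZMod.units_pow_card_sub_one_eq_one, map_one]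
  set gC : (ZMod ℓ)ˣ →* rootsOfUnity n k := g.codRestrict _ hg_mem with hgC
  -- the Teichmüller character
  set e : rootsOfUnity n ℂ ≃* rootsOfUnity n k := MulEquiv.ofBijective fC hf_bij with he
  set ω : (ZMod ℓ)ˣ →* rootsOfUnity n ℂ := (e.symm : rootsOfUnity n k →* rootsOfUnity n ℂ).comp gC
    with hω
  have hωf : ∀ a, φ (rootToInt n hn0 (ω a)) = ZMod.castHom (dvd_refl ℓ) k (a : ZMod ℓ) := by
    intro a
    have h1 : fC (ω a) = gC a := by
      show e (e.symm (gC a)) = gC a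
      exact e.apply_symm_apply _
    have h2 := congrArg (fun x : rootsOfUnity n k => ((x : kˣ) : k)) h1
    exact h2
  set ψhom : (ZMod ℓ)ˣ →* ℂˣ := ((rootsOfUnity n ℂ).subtype.comp ω)⁻¹ with hψhom
  have hψ : ∀ a : (ZMod ℓ)ˣ, (MulChar.ofUnitHom ψhom) (a : ZMod ℓ) * ((ω a : ℂˣ) : ℂ) = 1 := by
    intro a
    rw [MulChar.ofUnitHom_coe]
    show (((((rootsOfUnity n ℂ).subtype.comp ω) a)⁻¹ : ℂˣ) : ℂ) * ((ω a : ℂˣ) : ℂ) = 1
    rw [← Units.val_mul]
    simp
  have key : ∀ (a : (ZMod ℓ)ˣ) (x : integralClosure ℤ ℂ),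
      (x : ℂ) = (MulChar.ofUnitHom ψhom) (a : ZMod ℓ) →
        φ x * (ZMod.castHom (dvd_refl ℓ) k (a : ZMod ℓ)) = 1 := by
    intro a x hx
    have h1 : x * rootToInt n hn0 (ω a) = 1 := by
      apply Subtype.ext
      rw [MulMemClass.coe_mul, hx, coe_rootToInt, hψ a]
      rfl
    rw [← hωf a, ← map_mul, h1, map_one]
  refine ⟨MulChar.ofUnitHom ψhom, ?_, key⟩
  -- oddness
  have hm1 : (-1 : ZMod ℓ) = (((-1 : (ZMod ℓ)ˣ) : (ZMod ℓ)ˣ) : ZMod ℓ) := by simp
  have hsq : (MulChar.ofUnitHom ψhom) (-1 : ZMod ℓ) ^ 2 = 1 := by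
    rw [← map_pow]
    simp
  have hpm : (MulChar.ofUnitHom ψhom) (-1 : ZMod ℓ) = 1 ∨
      (MulChar.ofUnitHom ψhom) (-1 : ZMod ℓ) = -1 := sq_eq_one_iff.mp hsq
  rcases hpm with h | h
  · exfalso
    have h1 := key (-1) 1 (by rw [← hm1, h]; rfl)
    rw [map_one, one_mul, ← hm1, map_neg, map_one] at h1
    -- `-1 = 1` in `k`, so `2 = 0`, so `ℓ ∣ 2`
    have h2 : ((2 : ℕ) : k) = 0 := by
      have : (1 : k) + 1 = 0 := by
        nth_rewrite 1 [← h1]
        exact neg_add_cancel 1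
      push_cast
      rw [← one_add_one_eq_two]
      exact this
    have h3 := (CharP.cast_eq_zero_iff k ℓ 2).mp h2
    have h4 := Nat.le_of_dvd (by norm_num) h3
    omega
  · exact h
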