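import Fermat.Agent.S48.B1.Defs
import Fermat.Agent.S48.Int.H22_ProdPow
import Fermat.Prelude.Thm_ModularForm_sturm_bound_Gamma0

/-!
# S48, B1, leaf FinDimNeb (helper34): `S_k(M, χ)` is finite dimensional

Power trick: if `χ ^ m = 1` then `g ^ m ∈ S_{km}(Γ₀(M))` (helper22's `stmt_Pow`), so the Sturm bound
of the prelude for `Γ₀(M)` in weight `k m` shows that `g ↦ (a_n(g))_{n ≤ B}` is injective on
`S_k(M, χ)`, `B = k m [SL₂(ℤ) : Γ₀(M)] / 12`.  Works for every weight `k`.
-/

set_option autoImplicit false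
set_option linter.unusedSectionVars false
set_option linter.style.haveILetI false

open CongruenceSubgroup UpperHalfPlane ModularForm
open scoped MatrixGroups ModularForm Manifold

noncomputable section

namespace Fermat.Agent.S48.B1.H34

open Fermat.Agent.S48.Int (HasNeb)
open Fermat.Agent.S48.Int.H22 (nice_cusp1 stmt_Pow)
open Fermat.Agent.S23.H22 (Nice)

/-- If the coefficients of `P` of index `≤ B` vanish, so do those of `P ^ m`, `m > 0`. -/
theorem coeff_pow_eq_zero {P : PowerSeries ℂ} {B m : ℕ} (hm : 0 < m)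
    (hP : ∀ i ≤ B, P.coeff i = 0) {n : ℕ} (hn : n ≤ B) : (P ^ m).coeff n = 0 := by
  have h1 : (PowerSeries.X : PowerSeries ℂ) ^ (B + 1) ∣ P :=
    PowerSeries.X_pow_dvd_iff.mpr fun i hi => hP i (Nat.lt_succ_iff.mp hi)
  have h2 : (PowerSeries.X : PowerSeries ℂ) ^ (B + 1) ∣ P ^ m := dvd_pow h1 hm.ne'
  exact PowerSeries.X_pow_dvd_iff.mp h2 n (Nat.lt_succ_of_le hn)

variable (M : ℕ) [NeZero M] (χ : DirichletCharacter ℂ M) (k : ℤ)

/-- The Sturm bound used for `S_k(M, χ)`. -/
def nebBound : ℕ := ((k * (orderOf χ : ℕ)) * (Gamma0 M).index).toNat / 12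

/-- Truncation of the `q`-expansion. -/
def nebTrunc : nebSubmodule M χ k →ₗ[ℂ] (Fin (nebBound M χ k + 1) → ℂ) where
  toFun g i := (qExpansion 1 ((g : CuspForm (Gamma1 M) k) : ℍ → ℂ)).coeff i
  map_add' g g' := by
    funext i
    have h : (((g + g' : nebSubmodule M χ k) : CuspForm (Gamma1 M) k) : ℍ → ℂ) =
        ((g : CuspForm (Gamma1 M) k) : ℍ → ℂ) + ((g' : CuspForm (Gamma1 M) k) : ℍ → ℂ) := rfl
    simp only [Pi.add_apply]
    rw [h, Nice.qExpansion_add one_pos (nice_cusp1 _) (nice_cusp1 _), map_add]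
  map_smul' c g := by
    funext i
    have h : (((c • g : nebSubmodule M χ k) : CuspForm (Gamma1 M) k) : ℍ → ℂ) =
        c • ((g : CuspForm (Gamma1 M) k) : ℍ → ℂ) := rfl
    simp only [Pi.smul_apply, RingHom.id_apply]
    rw [h, Nice.qExpansion_smul one_pos (nice_cusp1 _)]
    simp

theorem nebTrunc_injective : Function.Injective (nebTrunc M χ k) := by
  rw [← LinearMap.ker_eq_bot, LinearMap.ker_eq_bot']
  rintro ⟨g, hg⟩ h0
  have hm : 0 < orderOf χ := orderOf_pos χ
  obtain ⟨G, hG, hGq⟩ := stmt_Pow M χ k g (orderOf χ) hm (pow_orderOf_eq_one χ) hg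
  have hcoeff : ∀ i ≤ nebBound M χ k, (qExpansion 1 (g : ℍ → ℂ)).coeff i = 0 := by
    intro i hi
    exact congrFun h0 ⟨i, Nat.lt_succ_of_le hi⟩
  have hmf : (ModularFormClass.modularForm G : ModularForm (Gamma0 M) (k * (orderOf χ : ℕ))) = 0 := by
    refine ModularForm.sturm_bound_Gamma0 M _ fun n hn => ?_
    have h1 : (qExpansion 1 (ModularFormClass.modularForm G :
        ModularForm (Gamma0 M) (k * (orderOf χ : ℕ)))) = qExpansion 1 G := rfl
    rw [h1, hGq]
    exact coeff_pow_eq_zero hm hcoeff hn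
  have hG0 : ∀ z, G z = 0 := by
    intro z
    have := congrArg (fun F : ModularForm (Gamma0 M) (k * (orderOf χ : ℕ)) => F z) hmf
    exact this
  apply Subtype.ext
  apply DFunLike.ext
  intro z
  have h2 := hG z
  rw [hG0 z] at h2
  exact pow_eq_zero_iff hm.ne' |>.mp h2.symm

/-- `S_k(M, χ)` is finite dimensional, for every weight `k`. -/
theorem finiteDimensional_neb : FiniteDimensional ℂ (nebSubmodule M χ k) :=
  FiniteDimensional.of_injective (nebTrunc M χ k) (nebTrunc_injective M χ k)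

/-- **FinDimNeb.** -/
theorem stmt_FinDimNeb : Stmt_FinDimNeb := fun M _ χ k _ => finiteDimensional_neb M χ k

end Fermat.Agent.S48.B1.H34
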