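import Fermat.Agent.S48.B1.Defs
import Fermat.Agent.S48.Int.H55_NebGS

/-!
# S48, B1 assembly, part 1 (helper55): the product `f · E ∈ S₂(N ℓ, ε ψ)`

* `prodChar N ℓ ε ψ`: the character `ε ψ` mod `N ℓ`;
* `prodNeb`: the product of a cusp form of weight one with character `ε` mod `N` and a holomorphic
  function of weight one, bounded at the cusps, with character `ψ` mod `ℓ`, is a cusp form of
  weight two on `Γ₁(N ℓ)` with character `ε ψ`; the `q`-expansions multiply.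
-/

set_option autoImplicit false

open CongruenceSubgroup UpperHalfPlane ModularForm
open scoped MatrixGroups ModularForm Manifold

noncomputable section

namespace Fermat.Agent.S48.B1.H55

open Fermat.Agent.S48.Int (HasNeb)
open Fermat.Agent.S23.H22 (Nice nice_of_modularForm)

/-- The character `ε ψ` modulo `N ℓ`. -/
def prodChar (N ℓ : ℕ) (ε : DirichletCharacter ℂ N) (ψ : DirichletCharacter ℂ ℓ) :
    DirichletCharacter ℂ (N * ℓ) :=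
  DirichletCharacter.changeLevel (Dvd.intro ℓ rfl) ε *
    DirichletCharacter.changeLevel (Dvd.intro_left N rfl) ψ

/-- Value of `ε ψ` on an integer which is a unit modulo `N ℓ`. -/
theorem prodChar_intCast {N ℓ : ℕ} (ε : DirichletCharacter ℂ N) (ψ : DirichletCharacter ℂ ℓ)
    (d : ℤ) (hd : IsUnit ((d : ZMod (N * ℓ)))) :
    prodChar N ℓ ε ψ ((d : ZMod (N * ℓ))) = ε ((d : ZMod N)) * ψ ((d : ZMod ℓ)) := by
  obtain ⟨u, hu⟩ := hd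
  have h1 := DirichletCharacter.changeLevel_eq_cast_of_dvd ε (Dvd.intro ℓ rfl : N ∣ N * ℓ) u
  have h2 := DirichletCharacter.changeLevel_eq_cast_of_dvd ψ (Dvd.intro_left N rfl : ℓ ∣ N * ℓ) u
  rw [hu] at h1 h2
  have hN : (N : ℕ) ∣ N * ℓ := Dvd.intro ℓ rfl
  have hℓ : (ℓ : ℕ) ∣ N * ℓ := Dvd.intro_left N rfl
  have c1 : ZMod.cast ((d : ZMod (N * ℓ))) = ((d : ZMod N)) := ZMod.cast_intCast hN d
  have c2 : ZMod.cast ((d : ZMod (N * ℓ))) = ((d : ZMod ℓ)) := ZMod.cast_intCast hℓ d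
  rw [c1] at h1
  rw [c2] at h2
  rw [prodChar, MulChar.mul_apply, h1, h2]

/-- Value of `ε ψ` on a natural number prime to `N ℓ`. -/
theorem prodChar_natCast {N ℓ : ℕ} (ε : DirichletCharacter ℂ N) (ψ : DirichletCharacter ℂ ℓ)
    (p : ℕ) (hp : p.Coprime (N * ℓ)) :
    prodChar N ℓ ε ψ ((p : ZMod (N * ℓ))) = ε ((p : ZMod N)) * ψ ((p : ZMod ℓ)) := by
  have h := prodChar_intCast ε ψ (p : ℤ) (by
    rw [Int.cast_natCast]
    exact (ZMod.isUnit_iff_coprime p (N * ℓ)).2 hp)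
  simpa using h

theorem Gamma0_mul_le_left (N ℓ : ℕ) {γ : SL(2, ℤ)} (hγ : γ ∈ Gamma0 (N * ℓ)) :
    γ ∈ Gamma0 N := by
  rw [Gamma0_mem] at hγ ⊢
  rw [ZMod.intCast_zmod_eq_zero_iff_dvd] at hγ ⊢
  exact dvd_trans (by exact_mod_cast (Dvd.intro ℓ rfl : N ∣ N * ℓ)) hγ

theorem Gamma0_mul_le_right (N ℓ : ℕ) {γ : SL(2, ℤ)} (hγ : γ ∈ Gamma0 (N * ℓ)) :
    γ ∈ Gamma0 ℓ := by
  rw [Gamma0_mem] at hγ ⊢
  rw [ZMod.intCast_zmod_eq_zero_iff_dvd] at hγ ⊢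
  exact dvd_trans (by exact_mod_cast (Dvd.intro_left N rfl : ℓ ∣ N * ℓ)) hγ

/-- Nebentypus of a product. -/
theorem hasNeb_mul {N ℓ : ℕ} {ε : DirichletCharacter ℂ N} {ψ : DirichletCharacter ℂ ℓ}
    {k₁ k₂ : ℤ} {f E : ℍ → ℂ} (hf : HasNeb N ε k₁ f) (hE : HasNeb ℓ ψ k₂ E) :
    HasNeb (N * ℓ) (prodChar N ℓ ε ψ) (k₁ + k₂) (f * E) := by
  intro γ hγ
  rw [mul_slash_SL2, hf γ (Gamma0_mul_le_left N ℓ hγ), hE γ (Gamma0_mul_le_right N ℓ hγ),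
    prodChar_intCast ε ψ _ (Fermat.Agent.S48.Int.H22.isUnit_lowerRight hγ)]
  funext z
  simp only [Pi.mul_apply, Pi.smul_apply, smul_eq_mul]
  ring

/-- **ProdNeb**: `f · E ∈ S₂(N ℓ, ε ψ)`. -/
theorem prodNeb (N ℓ : ℕ) [NeZero N] [NeZero ℓ] [NeZero (N * ℓ)] (ε : DirichletCharacter ℂ N)
    (ψ : DirichletCharacter ℂ ℓ) (f : CuspForm (Gamma1 N) 1) (E : ℍ → ℂ)
    (hf : HasNeb N ε 1 f) (hEd : MDifferentiable 𝓘(ℂ) 𝓘(ℂ) E)
    (hEb : ∀ A : SL(2, ℤ), IsBoundedAtImInfty (E ∣[(1 : ℤ)] A)) (hE : HasNeb ℓ ψ 1 E) :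
    ∃ G : CuspForm (Gamma1 (N * ℓ)) 2, HasNeb (N * ℓ) (prodChar N ℓ ε ψ) 2 G ∧
      qExpansion 1 G = qExpansion 1 f * qExpansion 1 E := by
  have hneb : HasNeb (N * ℓ) (prodChar N ℓ ε ψ) 2 ((f : ℍ → ℂ) * E) := hasNeb_mul hf hE
  have hinv : ∀ γ : SL(2, ℤ), γ ∈ Gamma1 (N * ℓ) →
      ((f : ℍ → ℂ) * E) ∣[(2 : ℤ)] γ = (f : ℍ → ℂ) * E :=
    fun γ hγ => Fermat.Agent.S48.Int.H22.slash_eq_of_hasNeb hneb hγ
  have hzero : ∀ A : SL(2, ℤ), IsZeroAtImInfty (((f : ℍ → ℂ) * E) ∣[(2 : ℤ)] A) := by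
    intro A
    have h := mul_slash_SL2 1 1 A (f : ℍ → ℂ) E
    have h' : ((f : ℍ → ℂ) * E) ∣[(2 : ℤ)] A = ((f : ℍ → ℂ) ∣[(1 : ℤ)] A) * (E ∣[(1 : ℤ)] A) := h
    rw [h']
    exact (Fermat.Agent.S48.Int.H22.isZeroAtImInfty_slash f A).mul_boundedAtFilter (hEb A)
  refine ⟨Fermat.Agent.S48.Int.H55.mkCusp1 (N * ℓ) 2 ((f : ℍ → ℂ) * E) (f.holo'.mul hEd) hinv hzero,
    ?_, ?_⟩
  · rw [Fermat.Agent.S48.Int.H55.mkCusp1_coe]
    exact hneb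
  · rw [Fermat.Agent.S48.Int.H55.mkCusp1_coe]
    exact Nice.qExpansion_mul one_pos (Fermat.Agent.S48.Int.H22.nice_cusp1 f)
      (Fermat.Agent.S48.Int.H22.nice_of_hasNeb hE hEd hEb)

end Fermat.Agent.S48.B1.H55
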