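import Fermat.Agent.S48.B1.H55_Asm1

/-!
# S48, B1 assembly, part 2 (helper55): the Hecke operators on `S_k(M, χ)` as commuting
endomorphisms, through the coefficient sequences

* `coeffOp p c a n = a (p n) + c · [p ∣ n] a (n / p)`: the formal operator; `coeffOp_comm`;
* `coeffSeq g`: the sequence of `q`-coefficients, additive, homogeneous, injective;
* `heckeOp hH M χ k p`: the operator `T_p` on `nebSubmodule M χ k`, from `Stmt_HeckeNeb`;
  `coeffSeq_heckeOp`, `heckeOp_commute`.
-/

set_option autoImplicit false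

open CongruenceSubgroup UpperHalfPlane ModularForm
open scoped MatrixGroups ModularForm Manifold

noncomputable section

namespace Fermat.Agent.S48.B1.H55

open Fermat.Agent.S48.Int (HasNeb)
open Fermat.Agent.S23.H22 (Nice nice_of_modularForm)

/-- The formal Hecke operator on coefficient sequences. -/
def coeffOp (p : ℕ) (c : ℂ) (a : ℕ → ℂ) : ℕ → ℂ :=
  fun n => a (p * n) + c * (if p ∣ n then a (n / p) else 0)

theorem coeffOp_apply (p : ℕ) (c : ℂ) (a : ℕ → ℂ) (n : ℕ) :
    coeffOp p c a n = a (p * n) + c * (if p ∣ n then a (n / p) else 0) := rfl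

theorem coeffOp_add (p : ℕ) (c : ℂ) (a b : ℕ → ℂ) :
    coeffOp p c (a + b) = coeffOp p c a + coeffOp p c b := by
  funext n
  simp only [coeffOp, Pi.add_apply]
  split_ifs <;> ring

theorem coeffOp_smul (p : ℕ) (c : ℂ) (t : ℂ) (a : ℕ → ℂ) :
    coeffOp p c (t • a) = t • coeffOp p c a := by
  funext n
  simp only [coeffOp, Pi.smul_apply, smul_eq_mul]
  split_ifs <;> ring

/-- The formal Hecke operators at distinct primes commute. -/
theorem coeffOp_comm {p q : ℕ} (hp : p.Prime) (hq : q.Prime) (hpq : p ≠ q) (c d : ℂ)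
    (a : ℕ → ℂ) : coeffOp p c (coeffOp q d a) = coeffOp q d (coeffOp p c a) := by
  funext n
  have h1 : q ∣ p * n ↔ q ∣ n := by
    rw [hq.dvd_mul]
    constructor
    · rintro (h | h)
      · exact absurd ((Nat.prime_dvd_prime_iff_eq hq hp).1 h).symm hpq
      · exact h
    · exact Or.inr
  have h2 : p ∣ q * n ↔ p ∣ n := by
    rw [hp.dvd_mul]
    constructor
    · rintro (h | h)
      · exact absurd ((Nat.prime_dvd_prime_iff_eq hp hq).1 h) hpq
      · exact h
    · exact Or.inr
  have hcomm : q * (p * n) = p * (q * n) := by ring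
  simp only [coeffOp, h1, h2, hcomm]
  by_cases hpn : p ∣ n
  · by_cases hqn : q ∣ n
    · -- both divide
      have e1 : p * n / q = p * (n / q) := Nat.mul_div_assoc p hqn
      have e2 : q * n / p = q * (n / p) := Nat.mul_div_assoc q hpn
      have hqnp : q ∣ n / p := by
        obtain ⟨m, rfl⟩ := hpn
        rw [Nat.mul_div_cancel_left m hp.pos]
        rcases hq.dvd_mul.1 hqn with h | h
        · exact absurd ((Nat.prime_dvd_prime_iff_eq hq hp).1 h).symm hpq
        · exact h
      have hpnq : p ∣ n / q := by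
        obtain ⟨m, rfl⟩ := hqn
        rw [Nat.mul_div_cancel_left m hq.pos]
        rcases hp.dvd_mul.1 hpn with h | h
        · exact absurd ((Nat.prime_dvd_prime_iff_eq hp hq).1 h) hpq
        · exact h
      have e3 : n / p / q = n / q / p := by
        rw [Nat.div_div_eq_div_mul, Nat.div_div_eq_div_mul, mul_comm]
      simp only [hpn, hqn, hqnp, hpnq, if_true, e1, e2, e3]
      ring
    · have hqnp : ¬ q ∣ n / p := fun h => hqn (dvd_trans h (Nat.div_dvd_of_dvd hpn))
      have e2 : q * n / p = q * (n / p) := Nat.mul_div_assoc q hpn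
      simp only [hpn, hqn, hqnp, if_true, if_false, e2]
      ring
  · by_cases hqn : q ∣ n
    · have hpnq : ¬ p ∣ n / q := fun h => hpn (dvd_trans h (Nat.div_dvd_of_dvd hqn))
      have e1 : p * n / q = p * (n / q) := Nat.mul_div_assoc p hqn
      simp only [hpn, hqn, hpnq, if_true, if_false, e1]
      ring
    · simp only [hpn, hqn, if_false]
      ring

/-- The sequence of `q`-coefficients of a cusp form. -/
def coeffSeq {M : ℕ} {k : ℤ} (g : CuspForm (Gamma1 M) k) : ℕ → ℂ :=
  fun n => ModularFormClass.qCoeff g n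

theorem coeffSeq_apply {M : ℕ} {k : ℤ} (g : CuspForm (Gamma1 M) k) (n : ℕ) :
    coeffSeq g n = ModularFormClass.qCoeff g n := rfl

theorem coeffSeq_eq {M : ℕ} {k : ℤ} (g : CuspForm (Gamma1 M) k) (n : ℕ) :
    coeffSeq g n = (qExpansion 1 (g : ℍ → ℂ)).coeff n := rfl

theorem coeffSeq_add {M : ℕ} {k : ℤ} (g h : CuspForm (Gamma1 M) k) :
    coeffSeq (g + h) = coeffSeq g + coeffSeq h := by
  funext n
  have hcoe : ((g + h : CuspForm (Gamma1 M) k) : ℍ → ℂ) = (g : ℍ → ℂ) + (h : ℍ → ℂ) := rfl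
  rw [Pi.add_apply, coeffSeq_eq, coeffSeq_eq, coeffSeq_eq, hcoe,
    Nice.qExpansion_add one_pos (Fermat.Agent.S48.Int.H22.nice_cusp1 g)
      (Fermat.Agent.S48.Int.H22.nice_cusp1 h), map_add]

theorem coeffSeq_smul {M : ℕ} {k : ℤ} (t : ℂ) (g : CuspForm (Gamma1 M) k) :
    coeffSeq (t • g) = t • coeffSeq g := by
  funext n
  have hcoe : ((t • g : CuspForm (Gamma1 M) k) : ℍ → ℂ) = t • (g : ℍ → ℂ) := rfl
  rw [Pi.smul_apply, coeffSeq_eq, coeffSeq_eq, hcoe,
    Nice.qExpansion_smul one_pos (Fermat.Agent.S48.Int.H22.nice_cusp1 g), smul_eq_mul]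
  simp

theorem coeffSeq_injective {M : ℕ} {k : ℤ} :
    Function.Injective (coeffSeq : CuspForm (Gamma1 M) k → ℕ → ℂ) := by
  intro g h hgh
  have hq : qExpansion 1 (g : ℍ → ℂ) = qExpansion 1 (h : ℍ → ℂ) := by
    ext n
    exact congrFun hgh n
  have hfun : (g : ℍ → ℂ) = (h : ℍ → ℂ) :=
    Nice.eq_of_qExpansion_eq one_pos (Fermat.Agent.S48.Int.H22.nice_cusp1 g)
      (Fermat.Agent.S48.Int.H22.nice_cusp1 h) hq
  exact DFunLike.coe_injective hfun

/-- The eigenvalue factor `χ(p) p^{k-1}`. -/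
def heckeFactor {M : ℕ} (χ : DirichletCharacter ℂ M) (k : ℤ) (p : ℕ) : ℂ :=
  χ (p : ZMod M) * (p : ℂ) ^ (k - 1)

theorem exists_hecke (hH : Stmt_HeckeNeb) (M : ℕ) [NeZero M] (χ : DirichletCharacter ℂ M)
    (k : ℤ) (p : ℕ) (hp : p.Prime) (hpM : ¬ p ∣ M) (g : nebSubmodule M χ k) :
    ∃ g' : nebSubmodule M χ k,
      coeffSeq (g' : CuspForm (Gamma1 M) k) =
        coeffOp p (heckeFactor χ k p) (coeffSeq (g : CuspForm (Gamma1 M) k)) := by
  obtain ⟨g', hg', hc⟩ := hH M χ k g.1 g.2 p hp hpM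
  refine ⟨⟨g', hg'⟩, ?_⟩
  funext n
  exact hc n

/-- The Hecke operator `T_p` on `S_k(M, χ)`. -/
def heckeOp (hH : Stmt_HeckeNeb) (M : ℕ) [NeZero M] (χ : DirichletCharacter ℂ M)
    (k : ℤ) (p : ℕ) (hp : p.Prime) (hpM : ¬ p ∣ M) : Module.End ℂ (nebSubmodule M χ k) where
  toFun g := Classical.choose (exists_hecke hH M χ k p hp hpM g)
  map_add' g h := by
    apply Subtype.ext
    apply coeffSeq_injective
    have h1 := Classical.choose_spec (exists_hecke hH M χ k p hp hpM (g + h))
    have h2 := Classical.choose_spec (exists_hecke hH M χ k p hp hpM g)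
    have h3 := Classical.choose_spec (exists_hecke hH M χ k p hp hpM h)
    have e1 : coeffSeq ((g + h : nebSubmodule M χ k) : CuspForm (Gamma1 M) k) =
        coeffSeq (g : CuspForm (Gamma1 M) k) + coeffSeq (h : CuspForm (Gamma1 M) k) :=
      coeffSeq_add _ _
    refine h1.trans ?_
    refine Eq.trans ?_ (coeffSeq_add _ _).symm
    rw [h2, h3, e1, coeffOp_add]
  map_smul' t g := by
    apply Subtype.ext
    apply coeffSeq_injective
    have h1 := Classical.choose_spec (exists_hecke hH M χ k p hp hpM (t • g))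
    have h2 := Classical.choose_spec (exists_hecke hH M χ k p hp hpM g)
    have e1 : coeffSeq ((t • g : nebSubmodule M χ k) : CuspForm (Gamma1 M) k) =
        t • coeffSeq (g : CuspForm (Gamma1 M) k) := coeffSeq_smul _ _
    refine h1.trans ?_
    refine Eq.trans ?_ (coeffSeq_smul _ _).symm
    rw [h2, e1, coeffOp_smul]
    rfl

theorem coeffSeq_heckeOp (hH : Stmt_HeckeNeb) (M : ℕ) [NeZero M] (χ : DirichletCharacter ℂ M)
    (k : ℤ) (p : ℕ) (hp : p.Prime) (hpM : ¬ p ∣ M) (g : nebSubmodule M χ k) :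
    coeffSeq ((heckeOp hH M χ k p hp hpM g : nebSubmodule M χ k) : CuspForm (Gamma1 M) k) =
      coeffOp p (heckeFactor χ k p) (coeffSeq (g : CuspForm (Gamma1 M) k)) :=
  Classical.choose_spec (exists_hecke hH M χ k p hp hpM g)

theorem heckeOp_commute (hH : Stmt_HeckeNeb) (M : ℕ) [NeZero M] (χ : DirichletCharacter ℂ M)
    (k : ℤ) (p q : ℕ) (hp : p.Prime) (hpM : ¬ p ∣ M) (hq : q.Prime) (hqM : ¬ q ∣ M) :
    Commute (heckeOp hH M χ k p hp hpM) (heckeOp hH M χ k q hq hqM) := by
  by_cases hpq : p = q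
  · subst hpq
    exact Commute.refl _
  · apply LinearMap.ext
    intro g
    apply Subtype.ext
    apply coeffSeq_injective
    rw [Module.End.mul_apply, Module.End.mul_apply, coeffSeq_heckeOp, coeffSeq_heckeOp,
      coeffSeq_heckeOp, coeffSeq_heckeOp, coeffOp_comm hp hq hpq]

end Fermat.Agent.S48.B1.H55
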