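import Fermat.Agent.S48.B1.H55_Asm2
import Fermat.Agent.S48.Int.H55_IntCoeff

/-!
# S48, B1 assembly, part 3 (helper55): reduction of algebraic integers and the congruences
of the coefficient sequences

* `red φ x`: the image under `φ : ℤ̄ → k` of an algebraic integer `x : ℂ` (`0` otherwise);
* `red_conv`: if `e₀ ≡ -1` and `e_j ≡ 0` (`j ≥ 1`) then the convolution `u * e ≡ -u`;
* `red_hecke_rel`: the approximate eigenvector property;
* `eis1_integral`, `red_eis1_zero`, `red_eis1_pos`: the coefficients of `eis1Series`.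
-/

set_option autoImplicit false

open CongruenceSubgroup UpperHalfPlane ModularForm
open scoped MatrixGroups ModularForm Manifold

noncomputable section

namespace Fermat.Agent.S48.B1.H55

open Fermat.Agent.S48.Int (HasNeb)

variable {k : Type} [Field k]

/-- Reduction of an algebraic integer under `φ` (junk value `0` on the other numbers). -/
def red (φ : integralClosure ℤ ℂ →+* k) (x : ℂ) : k :=
  open Classical in if h : IsIntegral ℤ x then φ ⟨x, h⟩ else 0

theorem red_coe (φ : integralClosure ℤ ℂ →+* k) (y : integralClosure ℤ ℂ) :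
    red φ (y : ℂ) = φ y := by
  have hy : IsIntegral ℤ (y : ℂ) := y.2
  unfold red
  rw [dif_pos hy]

theorem exists_lift_of_isIntegral {x : ℂ} (hx : IsIntegral ℤ x) :
    ∃ y : integralClosure ℤ ℂ, (y : ℂ) = x := ⟨⟨x, hx⟩, rfl⟩

theorem red_zero (φ : integralClosure ℤ ℂ →+* k) : red φ 0 = 0 := by
  have := red_coe φ 0
  simpa using this

theorem red_one (φ : integralClosure ℤ ℂ →+* k) : red φ 1 = 1 := by
  have := red_coe φ 1
  simpa using this

theorem red_add (φ : integralClosure ℤ ℂ →+* k) {x y : ℂ} (hx : IsIntegral ℤ x)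
    (hy : IsIntegral ℤ y) : red φ (x + y) = red φ x + red φ y := by
  obtain ⟨a, rfl⟩ := exists_lift_of_isIntegral hx
  obtain ⟨b, rfl⟩ := exists_lift_of_isIntegral hy
  have h : ((a + b : integralClosure ℤ ℂ) : ℂ) = (a : ℂ) + (b : ℂ) := rfl
  rw [← h, red_coe, red_coe, red_coe, map_add]

theorem red_mul (φ : integralClosure ℤ ℂ →+* k) {x y : ℂ} (hx : IsIntegral ℤ x)
    (hy : IsIntegral ℤ y) : red φ (x * y) = red φ x * red φ y := by
  obtain ⟨a, rfl⟩ := exists_lift_of_isIntegral hx
  obtain ⟨b, rfl⟩ := exists_lift_of_isIntegral hy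
  have h : ((a * b : integralClosure ℤ ℂ) : ℂ) = (a : ℂ) * (b : ℂ) := rfl
  rw [← h, red_coe, red_coe, red_coe, map_mul]

theorem red_neg (φ : integralClosure ℤ ℂ →+* k) {x : ℂ} (hx : IsIntegral ℤ x) :
    red φ (-x) = -red φ x := by
  obtain ⟨a, rfl⟩ := exists_lift_of_isIntegral hx
  have h : ((-a : integralClosure ℤ ℂ) : ℂ) = -(a : ℂ) := rfl
  rw [← h, red_coe, red_coe, map_neg]

theorem red_sub (φ : integralClosure ℤ ℂ →+* k) {x y : ℂ} (hx : IsIntegral ℤ x)
    (hy : IsIntegral ℤ y) : red φ (x - y) = red φ x - red φ y := by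
  rw [sub_eq_add_neg, red_add φ hx hy.neg, red_neg φ hy, sub_eq_add_neg]

theorem red_natCast (φ : integralClosure ℤ ℂ →+* k) (n : ℕ) : red φ (n : ℂ) = (n : k) := by
  have h : (((n : ℕ) : integralClosure ℤ ℂ) : ℂ) = (n : ℂ) := by
    simp
  rw [← h, red_coe, map_natCast]

theorem red_sum (φ : integralClosure ℤ ℂ →+* k) {ι : Type*} (s : Finset ι) (F : ι → ℂ)
    (hF : ∀ i ∈ s, IsIntegral ℤ (F i)) : red φ (∑ i ∈ s, F i) = ∑ i ∈ s, red φ (F i) := by
  classical
  induction s using Finset.induction_on with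
  | empty => simp [red_zero]
  | insert a s ha ih =>
    rw [Finset.sum_insert ha, Finset.sum_insert ha,
      red_add φ (hF a (Finset.mem_insert_self a s))
        (IsIntegral.sum _ fun i hi => hF i (Finset.mem_insert_of_mem hi)),
      ih fun i hi => hF i (Finset.mem_insert_of_mem hi)]

/-- The convolution with a sequence `e`, `e₀ ≡ -1`, `e_j ≡ 0` for `j ≥ 1`. -/
theorem red_conv (φ : integralClosure ℤ ℂ →+* k) (u e : ℕ → ℂ)
    (hu : ∀ n, IsIntegral ℤ (u n)) (he : ∀ n, IsIntegral ℤ (e n))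
    (he0 : red φ (e 0) = -1) (hej : ∀ j, j ≠ 0 → red φ (e j) = 0) (n : ℕ) :
    IsIntegral ℤ (∑ x ∈ Finset.HasAntidiagonal.antidiagonal n, u x.1 * e x.2) ∧
      red φ (∑ x ∈ Finset.HasAntidiagonal.antidiagonal n, u x.1 * e x.2) = -red φ (u n) := by
  refine ⟨IsIntegral.sum _ fun x _ => (hu _).mul (he _), ?_⟩
  rw [red_sum φ _ _ fun x _ => (hu x.1).mul (he x.2)]
  rw [Finset.sum_eq_single (n, 0)]
  · rw [red_mul φ (hu _) (he _), he0]
    ring
  · rintro ⟨i, j⟩ hx hne
    have hj : j ≠ 0 := by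
      rintro rfl
      apply hne
      rw [Finset.HasAntidiagonal.mem_antidiagonal] at hx
      simp only [add_zero] at hx
      rw [hx]
    rw [red_mul φ (hu _) (he _), hej j hj, mul_zero]
  · intro h
    exact absurd (Finset.HasAntidiagonal.mem_antidiagonal.2 (add_zero n)) h

/-- The approximate eigenvector property. -/
theorem red_hecke_rel (φ : integralClosure ℤ ℂ →+* k) (u w : ℕ → ℂ)
    (hu : ∀ n, IsIntegral ℤ (u n)) (hw : ∀ n, IsIntegral ℤ (w n))
    (hwu : ∀ n, red φ (w n) = -red φ (u n)) (p : ℕ) (c α e : ℂ)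
    (hc : IsIntegral ℤ c) (hα : IsIntegral ℤ α) (he : IsIntegral ℤ e)
    (hce : red φ c = red φ e)
    (hrel : ∀ n, u (p * n) + e * (if p ∣ n then u (n / p) else 0) = α * u n) (n : ℕ) :
    IsIntegral ℤ (coeffOp p c w n - α * w n) ∧ red φ (coeffOp p c w n - α * w n) = 0 := by
  have hif : ∀ v : ℕ → ℂ, (∀ m, IsIntegral ℤ (v m)) →
      IsIntegral ℤ (if p ∣ n then v (n / p) else 0) := by
    intro v hv
    split_ifs
    · exact hv _
    · exact isIntegral_zero
  have hifred : ∀ v : ℕ → ℂ, red φ (if p ∣ n then v (n / p) else 0) =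
      if p ∣ n then red φ (v (n / p)) else 0 := by
    intro v
    split_ifs
    · rfl
    · exact red_zero φ
  have h1 : IsIntegral ℤ (coeffOp p c w n) := (hw _).add (hc.mul (hif w hw))
  refine ⟨h1.sub (hα.mul (hw _)), ?_⟩
  have hr := congrArg (red φ) (hrel n)
  rw [red_add φ (hu _) (he.mul (hif u hu)), red_mul φ he (hif u hu), red_mul φ hα (hu _),
    hifred] at hr
  rw [red_sub φ h1 (hα.mul (hw _)), coeffOp_apply, red_add φ (hw _) (hc.mul (hif w hw)),
    red_mul φ hc (hif w hw), red_mul φ hα (hw _), hifred, hce]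
  simp only [hwu]
  by_cases hpn : p ∣ n
  · simp only [hpn, if_true] at hr ⊢
    linear_combination -hr
  · simp only [hpn, if_false] at hr ⊢
    linear_combination -hr

end Fermat.Agent.S48.B1.H55
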