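import Fermat.Agent.S48.B1.H55_Asm3
import Fermat.Agent.S49.H44_AbstractLift

/-!
# S48, B1 assembly, part 4 (helper55): the lattices and the coefficients of `eis1Series`

* `coeffLin`: the coefficient sequence as a linear map;
* `latA M χ k`, `latI φ M χ k`: forms with integral coefficients / coefficients in `ker φ`;
  stability under `ℤ̄` and the Hecke operators;
* `eis1_integral`, `red_eis1_zero`, `red_eis1_pos`: the coefficients of `eis1Series`.
-/

set_option autoImplicit false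

open CongruenceSubgroup UpperHalfPlane ModularForm
open scoped MatrixGroups ModularForm Manifold

noncomputable section

namespace Fermat.Agent.S48.B1.H55

open Fermat.Agent.S48.Int (HasNeb)

variable {k : Type} [Field k]

/-- The coefficient sequence as a linear map. -/
def coeffLin (M : ℕ) (w : ℤ) : CuspForm (Gamma1 M) w →ₗ[ℂ] (ℕ → ℂ) where
  toFun := coeffSeq
  map_add' := coeffSeq_add
  map_smul' := coeffSeq_smul

theorem coeffLin_apply (M : ℕ) (w : ℤ) (g : CuspForm (Gamma1 M) w) :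
    coeffLin M w g = coeffSeq g := rfl

theorem coeffSeq_zero (M : ℕ) (w : ℤ) : coeffSeq (0 : CuspForm (Gamma1 M) w) = 0 :=
  (coeffLin M w).map_zero

theorem coeffSeq_neg {M : ℕ} {w : ℤ} (g : CuspForm (Gamma1 M) w) :
    coeffSeq (-g) = -coeffSeq g :=
  (coeffLin M w).map_neg g

theorem coeffSeq_sub {M : ℕ} {w : ℤ} (g h : CuspForm (Gamma1 M) w) :
    coeffSeq (g - h) = coeffSeq g - coeffSeq h :=
  (coeffLin M w).map_sub g h

/-- Forms with integral coefficients. -/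
def latA (M : ℕ) (χ : DirichletCharacter ℂ M) (w : ℤ) : AddSubgroup (nebSubmodule M χ w) where
  carrier := {g | ∀ n, IsIntegral ℤ (coeffSeq (g : CuspForm (Gamma1 M) w) n)}
  zero_mem' := by
    intro n
    have h : coeffSeq (((0 : nebSubmodule M χ w)) : CuspForm (Gamma1 M) w) = 0 :=
      coeffSeq_zero M w
    rw [h]
    exact isIntegral_zero
  add_mem' := by
    intro a b ha hb n
    have h : coeffSeq (((a + b : nebSubmodule M χ w)) : CuspForm (Gamma1 M) w) =
        coeffSeq (a : CuspForm (Gamma1 M) w) + coeffSeq (b : CuspForm (Gamma1 M) w) :=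
      coeffSeq_add _ _
    rw [h]
    exact (ha n).add (hb n)
  neg_mem' := by
    intro a ha n
    have h : coeffSeq (((-a : nebSubmodule M χ w)) : CuspForm (Gamma1 M) w) =
        -coeffSeq (a : CuspForm (Gamma1 M) w) := coeffSeq_neg _
    rw [h]
    exact (ha n).neg

/-- Forms with coefficients in `ker φ`. -/
def latI (φ : integralClosure ℤ ℂ →+* k) (M : ℕ) (χ : DirichletCharacter ℂ M) (w : ℤ) :
    AddSubgroup (nebSubmodule M χ w) where
  carrier := {g | ∀ n, IsIntegral ℤ (coeffSeq (g : CuspForm (Gamma1 M) w) n) ∧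
    red φ (coeffSeq (g : CuspForm (Gamma1 M) w) n) = 0}
  zero_mem' := by
    intro n
    have h : coeffSeq (((0 : nebSubmodule M χ w)) : CuspForm (Gamma1 M) w) = 0 :=
      coeffSeq_zero M w
    rw [h]
    exact ⟨isIntegral_zero, red_zero φ⟩
  add_mem' := by
    intro a b ha hb n
    have h : coeffSeq (((a + b : nebSubmodule M χ w)) : CuspForm (Gamma1 M) w) =
        coeffSeq (a : CuspForm (Gamma1 M) w) + coeffSeq (b : CuspForm (Gamma1 M) w) :=
      coeffSeq_add _ _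
    rw [h]
    refine ⟨(ha n).1.add (hb n).1, ?_⟩
    rw [Pi.add_apply, red_add φ (ha n).1 (hb n).1, (ha n).2, (hb n).2, add_zero]
  neg_mem' := by
    intro a ha n
    have h : coeffSeq (((-a : nebSubmodule M χ w)) : CuspForm (Gamma1 M) w) =
        -coeffSeq (a : CuspForm (Gamma1 M) w) := coeffSeq_neg _
    rw [h]
    refine ⟨(ha n).1.neg, ?_⟩
    rw [Pi.neg_apply, red_neg φ (ha n).1, (ha n).2, neg_zero]

theorem mem_latA {M : ℕ} {χ : DirichletCharacter ℂ M} {w : ℤ} {g : nebSubmodule M χ w} :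
    g ∈ latA M χ w ↔ ∀ n, IsIntegral ℤ (coeffSeq (g : CuspForm (Gamma1 M) w) n) := Iff.rfl

theorem mem_latI {φ : integralClosure ℤ ℂ →+* k} {M : ℕ} {χ : DirichletCharacter ℂ M} {w : ℤ}
    {g : nebSubmodule M χ w} :
    g ∈ latI φ M χ w ↔ ∀ n, IsIntegral ℤ (coeffSeq (g : CuspForm (Gamma1 M) w) n) ∧
      red φ (coeffSeq (g : CuspForm (Gamma1 M) w) n) = 0 := Iff.rfl

theorem coeffSeq_smul_sub {M : ℕ} {χ : DirichletCharacter ℂ M} {w : ℤ} (t : ℂ)
    (g : nebSubmodule M χ w) (n : ℕ) :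
    coeffSeq (((t • g : nebSubmodule M χ w)) : CuspForm (Gamma1 M) w) n =
      t * coeffSeq (g : CuspForm (Gamma1 M) w) n := by
  have h : coeffSeq (((t • g : nebSubmodule M χ w)) : CuspForm (Gamma1 M) w) =
      t • coeffSeq (g : CuspForm (Gamma1 M) w) := coeffSeq_smul _ _
  rw [h]
  rfl

theorem smul_mem_latA {M : ℕ} {χ : DirichletCharacter ℂ M} {w : ℤ}
    (a : integralClosure ℤ ℂ) (g : nebSubmodule M χ w) (hg : g ∈ latA M χ w) :
    (algebraMap (integralClosure ℤ ℂ) ℂ a) • g ∈ latA M χ w := by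
  intro n
  rw [coeffSeq_smul_sub]
  exact (show IsIntegral ℤ (a : ℂ) from a.2).mul (hg n)

theorem smul_mem_latI (φ : integralClosure ℤ ℂ →+* k) {M : ℕ} {χ : DirichletCharacter ℂ M}
    {w : ℤ} (a : integralClosure ℤ ℂ) (g : nebSubmodule M χ w) (hg : g ∈ latI φ M χ w) :
    (algebraMap (integralClosure ℤ ℂ) ℂ a) • g ∈ latI φ M χ w := by
  intro n
  rw [coeffSeq_smul_sub]
  have ha : IsIntegral ℤ (a : ℂ) := a.2
  refine ⟨ha.mul (hg n).1, ?_⟩
  have h1 : red φ ((a : ℂ) * coeffSeq (g : CuspForm (Gamma1 M) w) n) =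
      red φ (a : ℂ) * red φ (coeffSeq (g : CuspForm (Gamma1 M) w) n) := red_mul φ ha (hg n).1
  exact h1.trans (by rw [(hg n).2, mul_zero])

theorem isIntegral_coeffOp {p : ℕ} {c : ℂ} (hc : IsIntegral ℤ c) {a : ℕ → ℂ}
    (ha : ∀ n, IsIntegral ℤ (a n)) (n : ℕ) : IsIntegral ℤ (coeffOp p c a n) := by
  rw [coeffOp_apply]
  refine (ha _).add (hc.mul ?_)
  split_ifs
  · exact ha _
  · exact isIntegral_zero

theorem red_coeffOp (φ : integralClosure ℤ ℂ →+* k) {p : ℕ} {c : ℂ} (hc : IsIntegral ℤ c)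
    {a : ℕ → ℂ} (ha : ∀ n, IsIntegral ℤ (a n)) (ha0 : ∀ n, red φ (a n) = 0) (n : ℕ) :
    red φ (coeffOp p c a n) = 0 := by
  have hif : IsIntegral ℤ (if p ∣ n then a (n / p) else 0) := by
    split_ifs
    · exact ha _
    · exact isIntegral_zero
  have hif0 : red φ (if p ∣ n then a (n / p) else 0) = 0 := by
    split_ifs
    · exact ha0 _
    · exact red_zero φ
  rw [coeffOp_apply, red_add φ (ha _) (hc.mul hif), red_mul φ hc hif, ha0, hif0, mul_zero,
    add_zero]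

theorem heckeOp_mem_latA (hH : Stmt_HeckeNeb) {M : ℕ} [NeZero M] {χ : DirichletCharacter ℂ M}
    {w : ℤ} {p : ℕ} (hp : p.Prime) (hpM : ¬ p ∣ M) (hc : IsIntegral ℤ (heckeFactor χ w p))
    (g : nebSubmodule M χ w) (hg : g ∈ latA M χ w) :
    heckeOp hH M χ w p hp hpM g ∈ latA M χ w := by
  intro n
  rw [coeffSeq_heckeOp]
  exact isIntegral_coeffOp hc hg n

theorem heckeOp_mem_latI (hH : Stmt_HeckeNeb) (φ : integralClosure ℤ ℂ →+* k) {M : ℕ} [NeZero M]
    {χ : DirichletCharacter ℂ M}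
    {w : ℤ} {p : ℕ} (hp : p.Prime) (hpM : ¬ p ∣ M) (hc : IsIntegral ℤ (heckeFactor χ w p))
    (g : nebSubmodule M χ w) (hg : g ∈ latI φ M χ w) :
    heckeOp hH M χ w p hp hpM g ∈ latI φ M χ w := by
  intro n
  rw [coeffSeq_heckeOp]
  exact ⟨isIntegral_coeffOp hc (fun m => (hg m).1) n,
    red_coeffOp φ hc (fun m => (hg m).1) (fun m => (hg m).2) n⟩

theorem isIntegral_natC (n : ℕ) : IsIntegral ℤ (n : ℂ) := by
  have h := isIntegral_algebraMap (R := ℤ) (A := ℂ) (x := (n : ℤ))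
  simpa using h

theorem isIntegral_neg_two : IsIntegral ℤ (-2 : ℂ) := by
  have h := isIntegral_algebraMap (R := ℤ) (A := ℂ) (x := (-2 : ℤ))
  simpa using h

theorem heckeFactor_two {M : ℕ} (χ : DirichletCharacter ℂ M) (p : ℕ) :
    heckeFactor χ 2 p = χ (p : ZMod M) * (p : ℂ) := by
  unfold heckeFactor
  norm_num

theorem heckeFactor_one {M : ℕ} (χ : DirichletCharacter ℂ M) (p : ℕ) :
    heckeFactor χ 1 p = χ (p : ZMod M) := by
  unfold heckeFactor
  norm_num

theorem isIntegral_heckeFactor_two {M : ℕ} [NeZero M] (χ : DirichletCharacter ℂ M) (p : ℕ) :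
    IsIntegral ℤ (heckeFactor χ 2 p) := by
  rw [heckeFactor_two]
  exact (Fermat.Agent.S48.Int.H55.isIntegral_charVal χ _).mul (isIntegral_natC p)

/-- Eigenvalues of `T_p` on `S₂(M, χ)` are algebraic integers. -/
theorem heckeOp_eigenvalue_integral (hH : Stmt_HeckeNeb) (hEig : Stmt_EigInt) {M : ℕ} [NeZero M]
    {χ : DirichletCharacter ℂ M} {p : ℕ} (hp : p.Prime) (hpM : ¬ p ∣ M) (μ : ℂ)
    (hμ : (heckeOp hH M χ 2 p hp hpM).HasEigenvalue μ) :
    ∃ x : integralClosure ℤ ℂ, algebraMap (integralClosure ℤ ℂ) ℂ x = μ := by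
  obtain ⟨g, hg⟩ := hμ.exists_hasEigenvector
  have hg0 : g ≠ 0 := hg.2
  have happ : heckeOp hH M χ 2 p hp hpM g = μ • g := hg.apply_eq_smul
  have hint : IsIntegral ℤ μ := by
    refine hEig M χ (g : CuspForm (Gamma1 M) 2) g.2 (fun h => hg0 (Subtype.ext h)) p hp hpM μ ?_
    intro n
    have h1 := congrFun (coeffSeq_heckeOp hH M χ 2 p hp hpM g) n
    rw [happ, coeffSeq_smul_sub, coeffOp_apply, heckeFactor_two] at h1
    exact h1.symm
  exact ⟨⟨μ, hint⟩, rfl⟩

/-! ### The coefficients of `eis1Series` -/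

theorem coeff_eis1_zero (ℓ : ℕ) (ψ : DirichletCharacter ℂ ℓ) :
    (eis1Series ℓ ψ).coeff 0 = ∑ a ∈ Finset.range ℓ, ψ (a : ZMod ℓ) * (a : ℂ) := by
  simp [eis1Series, PowerSeries.coeff_mk]

theorem coeff_eis1_pos (ℓ : ℕ) (ψ : DirichletCharacter ℂ ℓ) {n : ℕ} (hn : n ≠ 0) :
    (eis1Series ℓ ψ).coeff n = (ℓ : ℂ) * (-2 * ∑ d ∈ n.divisors, ψ (d : ZMod ℓ)) := by
  simp only [eis1Series, PowerSeries.coeff_mk, if_neg hn]
  ring

theorem eis1_integral (ℓ : ℕ) [NeZero ℓ] (ψ : DirichletCharacter ℂ ℓ) (n : ℕ) :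
    IsIntegral ℤ ((eis1Series ℓ ψ).coeff n) := by
  by_cases hn : n = 0
  · subst hn
    rw [coeff_eis1_zero]
    exact IsIntegral.sum _ fun a _ =>
      (Fermat.Agent.S48.Int.H55.isIntegral_charVal ψ _).mul (isIntegral_natC a)
  · rw [coeff_eis1_pos ℓ ψ hn]
    refine (isIntegral_natC ℓ).mul (IsIntegral.mul isIntegral_neg_two ?_)
    exact IsIntegral.sum _ fun a _ => Fermat.Agent.S48.Int.H55.isIntegral_charVal ψ _

end Fermat.Agent.S48.B1.H55
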