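import Mathlib
import Fermat.Agent.S48.B1.Defs
import Fermat.Agent.S48.Int.H55_Int12
import Fermat.Agent.S48.Int.H01_CoeffFG
import Fermat.Agent.S48.Int.H01_Eis
import Fermat.Agent.S48.Int.H22_ProdPow

/-!
# S48, mountain B, part B1, leaf EigInt (helper61)

`stmt_EigInt : Stmt_EigInt`: an eigenvalue of `T_p` on `S₂(M, χ)` is an algebraic integer.

Route: the `q`-coefficients of `g ∈ S₂(M, χ)` lie in a finitely generated subgroup `Λ` of `ℂ`
stable under the values of the characters (multiply `g` by two Eisenstein series of weight `3`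
with odd characters `θ`, `(χ θ)⁻¹` to land in `S₈(Γ₀(M))`; for `M ≤ 2` multiply by `1`).  The
eigen-relation gives `μ ^ r a_n ∈ Λ` for all `r`, so `μ` is integral.

No `sorry`.
-/

set_option autoImplicit false

open CongruenceSubgroup UpperHalfPlane ModularForm
open scoped MatrixGroups ModularForm Manifold

namespace Fermat.Agent.S48.B1.H61

open Fermat.Agent.S48.B1 Fermat.Agent.S48.Int

/-- **Algebraic core**: an eigenvalue of the formal Hecke operator on sequences with values in a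
finitely generated group is integral. -/
theorem isIntegral_of_eigen (Λ : Submodule ℤ ℂ) (hΛ : Λ.FG) (a : ℕ → ℂ) (c μ : ℂ) (p : ℕ)
    (ha : ∀ n, a n ∈ Λ) (hc : ∀ x ∈ Λ, c * x ∈ Λ)
    (hrel : ∀ n, a (p * n) + c * (if p ∣ n then a (n / p) else 0) = μ * a n)
    (hne : ∃ n, a n ≠ 0) : IsIntegral ℤ μ := by
  have hpow : ∀ r n, μ ^ r * a n ∈ Λ := by
    intro r
    induction r with
    | zero =>
      intro n
      simpa using ha n
    | succ r ih =>
      intro n
      have h1 : μ ^ (r + 1) * a n =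
          μ ^ r * a (p * n) + c * (if p ∣ n then μ ^ r * a (n / p) else 0) := by
        rw [pow_succ, mul_assoc, ← hrel n]
        split_ifs <;> ring
      rw [h1]
      refine Λ.add_mem (ih _) (hc _ ?_)
      split_ifs
      · exact ih _
      · exact Λ.zero_mem
  obtain ⟨n₀, hn₀⟩ := hne
  have hNle : Submodule.span ℤ (Set.range fun r : ℕ => μ ^ r * a n₀) ≤ Λ :=
    Submodule.span_le.mpr (by rintro _ ⟨r, rfl⟩; exact hpow r n₀)
  have hNfg : (Submodule.span ℤ (Set.range fun r : ℕ => μ ^ r * a n₀)).FG := hΛ.of_le hNle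
  have hNne : Submodule.span ℤ (Set.range fun r : ℕ => μ ^ r * a n₀) ≠ ⊥ := by
    intro h
    have h1 : a n₀ ∈ Submodule.span ℤ (Set.range fun r : ℕ => μ ^ r * a n₀) :=
      Submodule.subset_span ⟨0, by simp⟩
    rw [h] at h1
    exact hn₀ ((Submodule.mem_bot ℤ).mp h1)
  refine isIntegral_of_smul_mem_submodule _ hNne hNfg μ ?_
  intro x hx
  induction hx using Submodule.span_induction with
  | mem x hx =>
    obtain ⟨r, rfl⟩ := hx
    refine Submodule.subset_span ⟨r + 1, ?_⟩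
    simp only [smul_eq_mul]
    ring
  | zero => simp
  | add x y _ _ hx hy =>
    rw [smul_add]
    exact Submodule.add_mem _ hx hy
  | smul t x _ hx =>
    rw [smul_comm]
    exact Submodule.smul_mem _ t hx


/-- Slash by `-1` in weight two. -/
theorem slash_neg_one_weight_two (g : ℍ → ℂ) : g ∣[(2 : ℤ)] (-1 : SL(2, ℤ)) = g := by
  ext z
  rw [SL_slash_apply]
  have h1 : (-1 : SL(2, ℤ)) • z = z := by
    have := ModularGroup.SL_neg_smul (1 : SL(2, ℤ)) z
    rw [this, one_smul]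
  rw [h1, ModularGroup.denom_apply]
  simp

/-- The character of a nonzero function of weight two is even. -/
theorem even_of_hasNeb_two {M : ℕ} {χ : DirichletCharacter ℂ M} {g : ℍ → ℂ}
    (hg : HasNeb M χ 2 g) (hne : g ≠ 0) : χ (-1) = 1 := by
  have hmem : (-1 : SL(2, ℤ)) ∈ Gamma0 M := by
    rw [Gamma0_mem]
    simp
  have h := hg (-1) hmem
  rw [slash_neg_one_weight_two] at h
  have hval : (((-1 : SL(2, ℤ)) 1 1 : ℤ) : ZMod M) = -1 := by simp
  rw [hval] at h
  by_contra hχ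
  apply hne
  ext z
  have hz := congrFun h z
  simp only [Pi.smul_apply, smul_eq_mul, Pi.zero_apply] at hz ⊢
  have h3 : (χ (-1) - 1) * g z = 0 := by
    rw [sub_mul, one_mul, ← hz, sub_self]
  rcases mul_eq_zero.1 h3 with h4 | h4
  · exact absurd (sub_eq_zero.mp h4) hχ
  · exact h4

/-- There is an odd character modulo `M ≥ 3`. -/
theorem exists_odd_char (M : ℕ) [NeZero M] (hM : 3 ≤ M) :
    ∃ θ : DirichletCharacter ℂ M, θ (-1) = -1 := by
  have : Fact (2 < M) := ⟨by omega⟩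
  have hne : (-1 : ZMod M) ≠ 1 := ZMod.neg_one_ne_one
  obtain ⟨θ, hθ⟩ := DirichletCharacter.exists_apply_ne_one_of_hasEnoughRootsOfUnity ℂ hne
  refine ⟨θ, ?_⟩
  have hsq : θ (-1) * θ (-1) = 1 := by
    rw [← map_mul]
    simp
  rcases mul_self_eq_one_iff.mp hsq with h1 | h1
  · exact absurd h1 hθ
  · exact h1

/-- For `M ≤ 2` every unit of `ZMod M` is `1`. -/
theorem unit_eq_one_of_le_two {M : ℕ} (hM : M ≠ 0) (hM2 : M ≤ 2) {d : ZMod M} (hd : IsUnit d) :
    d = 1 := by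
  have h12 : M = 1 ∨ M = 2 := by omega
  rcases h12 with rfl | rfl
  · exact Subsingleton.elim _ _
  · revert hd
    revert d
    decide

/-- The coefficients of a nonzero cusp form of weight two with nebentypus lie in a finitely
generated subgroup of `ℂ`. -/
theorem exists_fg_coeff_neb2 (M : ℕ) [NeZero M] (χ : DirichletCharacter ℂ M)
    (g : CuspForm (Gamma1 M) 2) (hg : HasNeb M χ 2 g) (hne : (g : ℍ → ℂ) ≠ 0) :
    ∃ Λ : Submodule ℤ ℂ, Λ.FG ∧
      ∀ n, (qExpansion 1 g).coeff n ∈ Λ * (H55.charRing M).toSubmodule := by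
  have hχ : χ (-1) = 1 := even_of_hasNeb_two hg hne
  by_cases hM : 3 ≤ M
  · obtain ⟨θ, hθ⟩ := exists_odd_char M hM
    have hψ : (χ * θ)⁻¹ (-1) = -1 := by
      rw [MulChar.inv_apply_eq_inv', MulChar.mul_apply, hχ, hθ]
      norm_num
    obtain ⟨E₁, hd₁, hb₁, hn₁, hq₁⟩ := H01.stmt_Eis M hM θ hθ
    obtain ⟨E₂, hd₂, hb₂, hn₂, hq₂⟩ := H01.stmt_Eis M hM (χ * θ)⁻¹ hψ
    have hchar : θ * (χ * θ)⁻¹ = χ⁻¹ := by
      rw [mul_inv, mul_comm χ⁻¹ θ⁻¹, mul_inv_cancel_left]
    have hbdd : ∀ A : SL(2, ℤ), IsBoundedAtImInfty ((E₁ * E₂) ∣[(3 + 3 : ℤ)] A) := by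
      intro A
      rw [mul_slash_SL2]
      exact (hb₁ A).mul (hb₂ A)
    have hneb : HasNeb M χ⁻¹ (3 + 3) (E₁ * E₂) := by
      intro γ hγ
      rw [mul_slash_SL2, hn₁ γ hγ, hn₂ γ hγ, ← hchar, MulChar.mul_apply]
      funext z
      simp only [Pi.mul_apply, Pi.smul_apply, smul_eq_mul]
      ring
    obtain ⟨G, -, hGq⟩ := H22.stmt_Prod M χ 2 (3 + 3) g (E₁ * E₂) hg (hd₁.mul hd₂) hbdd hneb
    obtain ⟨Λ, hΛ, hΛc⟩ := H01.coeff_mem_fg (N := M) (2 + (3 + 3)) 7 (by norm_num) G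
    have hqE : qExpansion 1 (E₁ * E₂) = eisSeries M θ * eisSeries M (χ * θ)⁻¹ := by
      rw [Fermat.Agent.S23.H22.Nice.qExpansion_mul one_pos (H22.nice_of_hasNeb hn₁ hd₁ hb₁)
        (H22.nice_of_hasNeb hn₂ hd₂ hb₂), hq₁, hq₂]
    refine ⟨Λ, hΛ, fun n => ?_⟩
    have h1 : ∀ m, PowerSeries.coeff m (qExpansion 1 g * eisSeries M θ) ∈
        Λ * (H55.charRing M).toSubmodule := by
      intro m
      refine H55.coeff_mem_of_mul_eisSeries M (χ * θ)⁻¹ _ Λ (fun j => ?_) m
      rw [mul_assoc, ← hqE, ← hGq]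
      exact hΛc j
    have h2 := H55.coeff_mem_of_mul_eisSeries M θ (qExpansion 1 g) _ h1 n
    rwa [mul_assoc, (Subalgebra.isIdempotentElem_toSubmodule (H55.charRing M)).eq] at h2
  · have hM2 : M ≤ 2 := by omega
    have hneb : HasNeb M χ⁻¹ 0 (1 : ℍ → ℂ) := by
      intro γ hγ
      have hu := H22.isUnit_lowerRight hγ
      rw [unit_eq_one_of_le_two (NeZero.ne M) hM2 hu, map_one, one_smul]
      funext z
      simp [SL_slash_apply]
    have hbdd : ∀ A : SL(2, ℤ), IsBoundedAtImInfty ((1 : ℍ → ℂ) ∣[(0 : ℤ)] A) := by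
      intro A
      have h1 : (1 : ℍ → ℂ) ∣[(0 : ℤ)] A = 1 := by
        funext z
        simp [SL_slash_apply]
      rw [h1]
      exact Filter.const_boundedAtFilter _ (1 : ℂ)
    obtain ⟨G, hG, -⟩ := H22.stmt_Prod M χ 2 0 g (1 : ℍ → ℂ) hg mdifferentiable_const hbdd hneb
    obtain ⟨Λ, hΛ, hΛc⟩ := H01.coeff_mem_fg (N := M) (2 + 0) 1 (by norm_num) G
    have hfun : (G : ℍ → ℂ) = (g : ℍ → ℂ) := by
      funext z
      rw [hG z]
      simp
    refine ⟨Λ, hΛ, fun n => ?_⟩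
    have h1 : (qExpansion 1 g).coeff n ∈ Λ := by
      rw [← hfun]
      exact hΛc n
    have h2 : (qExpansion 1 g).coeff n * 1 ∈ Λ * (H55.charRing M).toSubmodule :=
      Submodule.mul_mem_mul h1 (Subalgebra.one_mem _)
    rwa [mul_one] at h2

/-- **EigInt**. -/
theorem stmt_EigInt : Stmt_EigInt := by
  intro M _ χ g hg hne p hp hpM μ hrel
  have hne' : (g : ℍ → ℂ) ≠ 0 := by
    intro h
    apply hne
    ext z
    rw [h]
    rfl
  obtain ⟨Λ, hΛ, hc⟩ := exists_fg_coeff_neb2 M χ g hg hne'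
  refine isIntegral_of_eigen (Λ * (H55.charRing M).toSubmodule) (hΛ.mul (H55.charRing_fg M))
    (fun n => ModularFormClass.qCoeff g n) (χ (p : ZMod M) * (p : ℂ)) μ p hc ?_ hrel ?_
  · intro x hx
    rw [mul_assoc]
    refine H55.charVal_mul_mem _ χ _ _ ?_
    have h1 : (p : ℂ) * x = (p : ℤ) • x := by
      rw [zsmul_eq_mul]
      norm_cast
    rw [h1]
    exact Submodule.smul_mem _ _ hx
  · by_contra hall
    apply hne'
    refine Fermat.Agent.S23.H22.Nice.eq_zero_of_qExpansion_eq_zero one_pos (H22.nice_cusp1 g) ?_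
    ext n
    have := not_exists.mp hall n
    simp only [ne_eq, not_not] at this
    rw [map_zero]
    exact this

end Fermat.Agent.S48.B1.H61
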