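/-
S48 / B1, leaf AlgForm (helper96), part 1: abstract descent.

* `exists_fixed_of_stable`: `V` a finite dimensional space with a coefficient map
  `c : V → (ℕ → ℂ)`, `W ⊆ V` a subspace stable under a set `S` of ring endomorphisms of `ℂ` acting
  on the coefficients; if some `f ∈ W` has `c f i₀ = 1`, some `f' ∈ W` with `c f' i₀ = 1` has all
  its coefficients fixed by `S` (element of minimal support).
* `exists_ringEquiv_fix_ne`: a transcendental number is moved by an automorphism of `ℂ` which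
  fixes all algebraic numbers.
* `exists_common_denominator`: algebraic numbers in a finitely generated subgroup of `ℂ` have a
  common denominator.
-/
import Mathlib
import Fermat.Agent.S23.H77_Fix

set_option autoImplicit false

namespace Fermat.Agent.S48.B1.H96

section descent

variable {V : Type*} [AddCommGroup V] [Module ℂ V]

/-- The elements of `W` whose support is contained in the support of `g`. -/
def suppSub (c : V →ₗ[ℂ] (ℕ → ℂ)) (W : Submodule ℂ V) (g : V) : Submodule ℂ V where
  carrier := {h | h ∈ W ∧ ∀ n, c g n = 0 → c h n = 0}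
  add_mem' := by
    rintro a b ⟨ha, ha'⟩ ⟨hb, hb'⟩
    refine ⟨W.add_mem ha hb, fun n hn => ?_⟩
    rw [map_add, Pi.add_apply, ha' n hn, hb' n hn, add_zero]
  zero_mem' := ⟨W.zero_mem, fun n _ => by rw [map_zero, Pi.zero_apply]⟩
  smul_mem' := by
    rintro r a ⟨ha, ha'⟩
    refine ⟨W.smul_mem r ha, fun n hn => ?_⟩
    rw [map_smul, Pi.smul_apply, ha' n hn, smul_zero]

theorem mem_suppSub (c : V →ₗ[ℂ] (ℕ → ℂ)) (W : Submodule ℂ V) (g h : V) :
    h ∈ suppSub c W g ↔ h ∈ W ∧ ∀ n, c g n = 0 → c h n = 0 := Iff.rfl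

variable [FiniteDimensional ℂ V]

/-- **Descent**: an element of minimal support normalised at `i₀` is fixed. -/
theorem exists_fixed_of_stable (c : V →ₗ[ℂ] (ℕ → ℂ)) (S : Set (ℂ →+* ℂ)) (W : Submodule ℂ V)
    (hW : ∀ σ ∈ S, ∀ v ∈ W, ∃ v' ∈ W, ∀ n, c v' n = σ (c v n))
    (i₀ : ℕ) (f : V) (hf : f ∈ W) (hf1 : c f i₀ = 1) :
    ∃ f' ∈ W, c f' i₀ = 1 ∧ ∀ σ ∈ S, ∀ n, σ (c f' n) = c f' n := by
  have key : ∀ d : ℕ, ∀ g : V, g ∈ W → c g i₀ = 1 →
      Module.finrank ℂ (suppSub c W g) ≤ d →
      ∃ f' ∈ W, c f' i₀ = 1 ∧ ∀ σ ∈ S, ∀ n, σ (c f' n) = c f' n := by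
    intro d
    induction d with
    | zero =>
      intro g hg hg1 hd
      exfalso
      have h0 : suppSub c W g = ⊥ := by
        apply Submodule.finrank_eq_zero.mp
        exact Nat.le_zero.mp hd
      have hmem : g ∈ suppSub c W g := ⟨hg, fun n hn => hn⟩
      rw [h0, Submodule.mem_bot] at hmem
      rw [hmem, map_zero, Pi.zero_apply] at hg1
      exact zero_ne_one hg1
    | succ d ih =>
      intro g hg hg1 hd
      by_cases hfix : ∀ σ ∈ S, ∀ n, σ (c g n) = c g n
      · exact ⟨g, hg, hg1, hfix⟩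
      · push Not at hfix
        obtain ⟨σ, hσ, n₀, hn₀⟩ := hfix
        obtain ⟨gσ, hgσW, hgσ⟩ := hW σ hσ g hg
        set h : V := g - gσ with hh
        have hhW : h ∈ W := W.sub_mem hg hgσW
        have hc : ∀ n, c h n = c g n - σ (c g n) := by
          intro n
          rw [hh, map_sub, Pi.sub_apply, hgσ]
        have hh1 : c h i₀ = 0 := by rw [hc, hg1, map_one, sub_self]
        have hhn₀ : c h n₀ ≠ 0 := by
          rw [hc]
          exact fun h0 => hn₀ (sub_eq_zero.mp h0).symm
        have hgn₀ : c g n₀ ≠ 0 := by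
          intro h0
          apply hhn₀
          rw [hc, h0, map_zero, sub_zero]
        set g' : V := g - (c g n₀ / c h n₀) • h with hg'
        have hg'W : g' ∈ W := W.sub_mem hg (W.smul_mem _ hhW)
        have hc' : ∀ n, c g' n = c g n - (c g n₀ / c h n₀) * c h n := by
          intro n
          rw [hg', map_sub, map_smul, Pi.sub_apply, Pi.smul_apply, smul_eq_mul]
        have hg'1 : c g' i₀ = 1 := by rw [hc', hh1, mul_zero, sub_zero, hg1]
        have hg'n₀ : c g' n₀ = 0 := by
          rw [hc', div_mul_cancel₀ _ hhn₀, sub_self]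
        have hsupp : ∀ n, c g n = 0 → c g' n = 0 := by
          intro n hn
          have h0 : c h n = 0 := by rw [hc, hn, map_zero, sub_zero]
          rw [hc', h0, hn, mul_zero, sub_zero]
        have hlt : suppSub c W g' < suppSub c W g := by
          refine lt_of_le_of_ne ?_ ?_
          · rintro x ⟨hxW, hx⟩
            exact ⟨hxW, fun n hn => hx n (hsupp n hn)⟩
          · intro heq
            have hmem : g ∈ suppSub c W g := ⟨hg, fun n hn => hn⟩
            rw [← heq] at hmem
            exact hgn₀ (hmem.2 n₀ hg'n₀)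
        have hlt' := Submodule.finrank_lt_finrank_of_lt hlt
        exact ih g' hg'W hg'1 (by omega)
  exact key _ f hf hf1 le_rfl

end descent

section fix

open MvPolynomial

/-- The "shift one variable" automorphism of a polynomial ring over a field `K₀`. -/
noncomputable def shiftEquivK (K₀ : Type) [Field K₀] {ι : Type} [DecidableEq ι] (i₀ : ι) :
    MvPolynomial ι K₀ ≃ₐ[K₀] MvPolynomial ι K₀ :=
  AlgEquiv.ofAlgHom
    (MvPolynomial.aeval fun i => if i = i₀ then (X i + 1 : MvPolynomial ι K₀) else X i)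
    (MvPolynomial.aeval fun i => if i = i₀ then (X i - 1 : MvPolynomial ι K₀) else X i)
    (by
      ext i
      by_cases h : i = i₀ <;> simp [h])
    (by
      ext i
      by_cases h : i = i₀ <;> simp [h])

theorem shiftEquivK_X (K₀ : Type) [Field K₀] {ι : Type} [DecidableEq ι] (i₀ : ι) :
    shiftEquivK K₀ i₀ (X i₀) = X i₀ + 1 := by
  simp [shiftEquivK]

/-- A transcendental number is moved by an automorphism of `ℂ` fixing all algebraic numbers. -/
theorem exists_ringEquiv_fix_ne {x : ℂ} (hx : Transcendental ℚ x) :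
    ∃ σ : ℂ ≃+* ℂ, (∀ y : ℂ, IsAlgebraic ℚ y → σ y = y) ∧ σ x ≠ x := by
  classical
  have hxK : Transcendental (algebraicClosure ℚ ℂ) x := by
    intro halg
    have : Algebra.IsAlgebraic ℚ (algebraicClosure ℚ ℂ) := algebraicClosure.isAlgebraic ℚ ℂ
    exact hx (halg.restrictScalars ℚ)
  let K₀ := algebraicClosure ℚ ℂ
  have hs : AlgebraicIndepOn K₀ id ({x} : Set ℂ) := by
    have : AlgebraicIndependent K₀ (fun i : ({x} : Set ℂ) => (i : ℂ)) := by
      rw [algebraicIndependent_unique_type_iff]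
      simpa using hxK
    exact this
  obtain ⟨t, hst, ht⟩ := exists_isTranscendenceBasis_superset hs
  let i₀ : t := ⟨x, hst rfl⟩
  obtain ⟨σ, hσ⟩ := Fermat.Agent.S23.H77.exists_ringEquiv_of_mvPolynomial_equiv (K₀ := K₀) _ ht
    (shiftEquivK K₀ i₀).toRingEquiv
  refine ⟨σ, fun y hy => ?_, ?_⟩
  · have hyK : y ∈ K₀ := (mem_algebraicClosure_iff).2 hy
    have h := hσ (C (⟨y, hyK⟩ : K₀))
    have h2 : (shiftEquivK K₀ i₀).toRingEquiv (C (⟨y, hyK⟩ : K₀)) = C (⟨y, hyK⟩ : K₀) := by
      have := (shiftEquivK K₀ i₀).commutes (⟨y, hyK⟩ : K₀)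
      simpa [MvPolynomial.algebraMap_eq] using this
    rw [h2] at h
    simp only [aeval_C] at h
    exact h
  · have h := hσ (X i₀)
    have h2 : (shiftEquivK K₀ i₀).toRingEquiv (X i₀) = X i₀ + 1 := shiftEquivK_X K₀ i₀
    rw [h2] at h
    simp only [aeval_X, map_add, map_one] at h
    intro hfix
    have hx' : ((i₀ : t) : ℂ) = x := rfl
    rw [hx'] at h
    rw [hfix] at h
    simp at h

/-- A complex number fixed by all ring endomorphisms of `ℂ` which fix the algebraic numbers is
algebraic. -/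
theorem isAlgebraic_of_forall_fixed (x : ℂ)
    (h : ∀ σ : ℂ →+* ℂ, (∀ y : ℂ, IsAlgebraic ℚ y → σ y = y) → σ x = x) : IsAlgebraic ℚ x := by
  by_contra hx
  obtain ⟨σ, hσ, hne⟩ := exists_ringEquiv_fix_ne hx
  exact hne (h σ.toRingHom hσ)

end fix

section denominators

/-- An algebraic number has a nonzero natural multiple which is integral. -/
theorem exists_nat_mul_isIntegral {x : ℂ} (hx : IsAlgebraic ℚ x) :
    ∃ d : ℕ, d ≠ 0 ∧ IsIntegral ℤ ((d : ℂ) * x) := by
  have hx' : IsAlgebraic ℤ x := (IsFractionRing.isAlgebraic_iff ℤ ℚ ℂ).mpr hx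
  obtain ⟨y, hy0, hy⟩ := hx'.exists_integral_multiple
  refine ⟨y.natAbs, Int.natAbs_ne_zero.mpr hy0, ?_⟩
  rcases Int.natAbs_eq y with h | h
  · have e : ((y.natAbs : ℕ) : ℂ) * x = y • x := by
      rw [zsmul_eq_mul]
      congr 1
      conv_rhs => rw [h]
      simp
    rw [e]
    exact hy
  · have e : ((y.natAbs : ℕ) : ℂ) * x = -(y • x) := by
      rw [zsmul_eq_mul, ← neg_mul]
      congr 1
      conv_rhs => rw [h]
      simp
    rw [e]
    exact hy.neg

/-- Algebraic numbers in a finitely generated subgroup of `ℂ` have a common denominator. -/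
theorem exists_common_denominator (Λ : Submodule ℤ ℂ) (hΛ : Λ.FG) (a : ℕ → ℂ)
    (ha : ∀ n, a n ∈ Λ) (halg : ∀ n, IsAlgebraic ℚ (a n)) :
    ∃ D : ℕ, D ≠ 0 ∧ ∀ n, IsIntegral ℤ ((D : ℂ) * a n) := by
  classical
  -- the subgroup generated by the `a n`
  set M : Submodule ℤ ℂ := Submodule.span ℤ (Set.range a) with hM
  have hMΛ : M ≤ Λ := Submodule.span_le.mpr (by rintro _ ⟨n, rfl⟩; exact ha n)
  have hnoeth : IsNoetherian ℤ Λ := isNoetherian_of_fg_of_noetherian Λ hΛ
  have hMfg : M.FG := by
    have h1 : (M.comap Λ.subtype).FG := IsNoetherian.noetherian _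
    have h2 := h1.map Λ.subtype
    rwa [Submodule.map_comap_subtype, inf_eq_right.mpr hMΛ] at h2
  have hMalg : ∀ x ∈ M, IsAlgebraic ℚ x := by
    intro x hx
    induction hx using Submodule.span_induction with
    | mem y hy =>
      obtain ⟨n, rfl⟩ := hy
      exact halg n
    | zero => exact isAlgebraic_zero
    | add y z _ _ hy hz => exact hy.add hz
    | smul r y _ hy =>
      rw [zsmul_eq_mul]
      exact (isAlgebraic_intCast r).mul hy
  obtain ⟨T, hT⟩ := hMfg
  have hTM : ∀ t ∈ T, t ∈ M := fun t ht => hT ▸ Submodule.subset_span ht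
  choose! d hd0 hd using fun t (ht : t ∈ T) => exists_nat_mul_isIntegral (hMalg t (hTM t ht))
  refine ⟨∏ t ∈ T, d t, Finset.prod_ne_zero_iff.mpr hd0, fun n => ?_⟩
  have hn : a n ∈ Submodule.span ℤ (T : Set ℂ) := by
    rw [hT]
    exact Submodule.subset_span ⟨n, rfl⟩
  generalize a n = z at hn
  induction hn using Submodule.span_induction with
  | mem y hy =>
    have hy' : y ∈ T := hy
    rw [← Finset.mul_prod_erase T d hy']
    push_cast
    have : (d y : ℂ) * (∏ t ∈ T.erase y, (d t : ℂ)) * y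
        = (∏ t ∈ T.erase y, (d t : ℂ)) * ((d y : ℂ) * y) := by ring
    rw [this]
    refine IsIntegral.mul ?_ (hd y hy')
    exact IsIntegral.prod _ (fun t _ => isIntegral_natCast (R := ℤ) (d t))
  | zero => rw [mul_zero]; exact isIntegral_zero
  | add y z _ _ hy hz => rw [mul_add]; exact hy.add hz
  | smul r y _ hy =>
    rw [zsmul_eq_mul, mul_left_comm]
    exact (isIntegral_intCast (R := ℤ) r).mul hy

end denominators

end Fermat.Agent.S48.B1.H96
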