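/-
S48 / B1, leaf AlgForm (helper96), part 2: `stmt_AlgForm_of : Stmt_FinDimNeb → Stmt_AlgForm`.

`f` a weight one form with `a₁ = 1` satisfying the Hecke relations for `ε` at all `p ∤ N`.
The space `W` of the cusp forms `g` with `a_{pn}(g) + ε(p) a_{n/p}(g) = a_p(f) a_n(g)` is stable
under the coefficientwise action of the ring endomorphisms of `ℂ` which fix the algebraic numbers
(`a_p(f)`, `ε(p)` are algebraic: leaf A), and `S₁(Γ₁(N))` is finite dimensional.  An element
`f' ∈ W` with `a₁(f') = 1` of minimal support has fixed, hence algebraic, coefficients; they lie in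
a finitely generated subgroup of `ℂ` (leaf A), so they have a common denominator.
-/
import Fermat.Agent.S48.B1.Defs
import Fermat.Agent.S48.B1.H96_Descent
import Fermat.Agent.S48.Int.H55_Main

set_option autoImplicit false

open CongruenceSubgroup UpperHalfPlane ModularForm
open scoped MatrixGroups ModularForm Manifold

namespace Fermat.Agent.S48.B1.H96

open Fermat.Agent.S48.Int (HasNeb Stmt_Decomp Stmt_Int3)
open Fermat.Agent.S48.Int.H55 (nice_G1)
open Fermat.Agent.S23.H22 (Nice)

variable (N : ℕ)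

theorem qCoeff_add' (f g : CuspForm (Gamma1 N) 1) (n : ℕ) :
    ModularFormClass.qCoeff (⇑(f + g)) n =
      ModularFormClass.qCoeff (⇑f) n + ModularFormClass.qCoeff (⇑g) n := by
  unfold ModularFormClass.qCoeff
  rw [FunLike.coe_add, Nice.qExpansion_add one_pos (nice_G1 f) (nice_G1 g), map_add]

theorem qCoeff_smul' (c : ℂ) (f : CuspForm (Gamma1 N) 1) (n : ℕ) :
    ModularFormClass.qCoeff (⇑(c • f)) n = c * ModularFormClass.qCoeff (⇑f) n := by
  unfold ModularFormClass.qCoeff
  have h1 : (⇑(c • f) : ℍ → ℂ) = c • (⇑f : ℍ → ℂ) := rfl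
  rw [h1, Nice.qExpansion_smul one_pos (nice_G1 f) c]
  simp

/-- The coefficient map of `S₁(Γ₁(N))`. -/
noncomputable def coeffMap : CuspForm (Gamma1 N) 1 →ₗ[ℂ] (ℕ → ℂ) where
  toFun f n := ModularFormClass.qCoeff (⇑f) n
  map_add' f g := by
    funext n
    exact qCoeff_add' N f g n
  map_smul' c f := by
    funext n
    exact qCoeff_smul' N c f n

theorem coeffMap_apply (f : CuspForm (Gamma1 N) 1) (n : ℕ) :
    coeffMap N f n = ModularFormClass.qCoeff (⇑f) n := rfl

section findim

variable [NeZero N]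

/-- `S₁(Γ₁(N))` is finite dimensional, from the finite dimensionality of the nebentypus
components. -/
theorem finiteDimensional_of_neb (hfd : Stmt_FinDimNeb) :
    FiniteDimensional ℂ (CuspForm (Gamma1 N) 1) := by
  classical
  have hdec := Fermat.Agent.S48.Int.H31.stmt_Decomp
  have hall : ∀ χ : DirichletCharacter ℂ N, FiniteDimensional ℂ (nebSubmodule N χ 1) :=
    fun χ => hfd N χ 1 (Or.inl rfl)
  have hsup : FiniteDimensional ℂ (⨆ χ : DirichletCharacter ℂ N, nebSubmodule N χ 1 :
      Submodule ℂ (CuspForm (Gamma1 N) 1)) := Submodule.finiteDimensional_iSup _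
  have htop : (⨆ χ : DirichletCharacter ℂ N, nebSubmodule N χ 1 :
      Submodule ℂ (CuspForm (Gamma1 N) 1)) = ⊤ := by
    rw [eq_top_iff]
    intro f _
    obtain ⟨F, hF, hsum⟩ := hdec N f
    have hf : f = ∑ χ, F χ := by
      apply DFunLike.ext
      intro z
      rw [hsum z]
      exact (map_sum (⟨⟨fun G : CuspForm (Gamma1 N) 1 => G z, rfl⟩, fun _ _ => rfl⟩ :
        CuspForm (Gamma1 N) 1 →+ ℂ) F Finset.univ).symm
    rw [hf]
    refine Submodule.sum_mem _ (fun χ _ => ?_)
    exact (le_iSup (fun χ : DirichletCharacter ℂ N => nebSubmodule N χ 1) χ) (hF χ)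
  rw [htop] at hsup
  exact Module.finite_def.mpr ((Submodule.fg_iff_finiteDimensional _).mpr hsup)

end findim

section main

variable [NeZero N]

/-- The space of the cusp forms satisfying the Hecke relations of `f`. -/
def relSub (ε : DirichletCharacter ℂ N) (f : CuspForm (Gamma1 N) 1) :
    Submodule ℂ (CuspForm (Gamma1 N) 1) where
  carrier := {g | ∀ p : ℕ, p.Prime → ¬ p ∣ N → ∀ n : ℕ,
    coeffMap N g (p * n) + ε (p : ZMod N) * (if p ∣ n then coeffMap N g (n / p) else 0) =
      ModularFormClass.qCoeff (⇑f) p * coeffMap N g n}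
  add_mem' := by
    intro a b ha hb p hp hpN n
    have h1 := ha p hp hpN n
    have h2 := hb p hp hpN n
    simp only [map_add, Pi.add_apply]
    split_ifs at h1 h2 ⊢ <;> linear_combination h1 + h2
  zero_mem' := by
    intro p hp hpN n
    simp
  smul_mem' := by
    intro c a ha p hp hpN n
    have h1 := ha p hp hpN n
    simp only [map_smul, Pi.smul_apply, smul_eq_mul]
    split_ifs at h1 ⊢ <;> linear_combination c * h1

/-- The ring endomorphisms of `ℂ` fixing the algebraic numbers. -/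
def fixAlg : Set (ℂ →+* ℂ) := {σ | ∀ y : ℂ, IsAlgebraic ℚ y → σ y = y}

/-- **AlgForm**, modulo the finite dimensionality of the nebentypus components. -/
theorem stmt_AlgForm_of (hfd : Stmt_FinDimNeb) : Stmt_AlgForm := by
  intro N _ ε f hf
  classical
  have hfin : FiniteDimensional ℂ (CuspForm (Gamma1 N) 1) := finiteDimensional_of_neb N hfd
  have hInt := Fermat.Agent.S48.Int.H55.stmt_Int N ε f hf
  have hint := hInt.1
  have hInt3 : Stmt_Int3 :=
    Fermat.Agent.S48.Int.H55.stmt_Int3_of Fermat.Agent.S48.Int.H31.stmt_Decomp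
      (Fermat.Agent.S48.Int.H55.stmt_NebGS_of Fermat.Agent.S48.Int.H01.stmt_Eis
        Fermat.Agent.S48.Int.H22.stmt_Prod Fermat.Agent.S48.Int.H22.stmt_Pow)
  have hεalg : ∀ a : ZMod N, IsAlgebraic ℚ (ε a) := fun a =>
    ((Fermat.Agent.S48.Int.H55.isIntegral_charVal ε a).isAlgebraic).extendScalars
      (algebraMap ℤ ℚ).injective_int
  have hapalg : ∀ p : ℕ, p.Prime → ¬ p ∣ N → IsAlgebraic ℚ (ModularFormClass.qCoeff (⇑f) p) :=
    fun p hp hpN => ((hint p hp hpN).isAlgebraic).extendScalars (algebraMap ℤ ℚ).injective_int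
  -- stability of the relation space
  have hW : ∀ σ ∈ fixAlg, ∀ v ∈ relSub N ε f, ∃ v' ∈ relSub N ε f,
      ∀ n, coeffMap N v' n = σ (coeffMap N v n) := by
    intro σ hσ v hv
    obtain ⟨v', hv'⟩ := hInt3 N v σ
    refine ⟨v', ?_, hv'⟩
    intro p hp hpN n
    have h1 := congrArg σ (hv p hp hpN n)
    rw [map_add, map_mul, map_mul, hσ _ (hεalg _), hσ _ (hapalg p hp hpN)] at h1
    simp only [coeffMap_apply] at h1 ⊢
    rw [hv' (p * n), hv' n]
    split_ifs at h1 ⊢ with hdvd
    · rw [hv' (n / p)]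
      exact h1
    · rw [map_zero] at h1
      exact h1
  have hfW : f ∈ relSub N ε f := fun p hp hpN n => hf.hecke p hp hpN n
  obtain ⟨f', hf'W, hf'1, hfix⟩ :=
    exists_fixed_of_stable (coeffMap N) fixAlg (relSub N ε f) hW 1 f hfW hf.one
  have hcoef : ∀ p : ℕ, p.Prime → ¬ p ∣ N →
      ModularFormClass.qCoeff (⇑f') p = ModularFormClass.qCoeff (⇑f) p := by
    intro p hp hpN
    have h1 := hf'W p hp hpN 1
    have hnd : ¬ p ∣ 1 := fun h => hp.one_lt.ne' (Nat.dvd_one.mp h)
    rw [if_neg hnd, mul_zero, add_zero, mul_one, hf'1, mul_one] at h1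
    exact h1
  refine ⟨f', ⟨hf'1, fun p hp hpN n => ?_⟩, hcoef, ?_⟩
  · rw [hcoef p hp hpN]
    exact hf'W p hp hpN n
  · have halg : ∀ n, IsAlgebraic ℚ (ModularFormClass.qCoeff (⇑f') n) := fun n =>
      isAlgebraic_of_forall_fixed _ (fun σ hσ => hfix σ hσ n)
    obtain ⟨Λ, hΛ, hc, -⟩ := Fermat.Agent.S48.Int.H55.exists_fg_coeff
      Fermat.Agent.S48.Int.H31.stmt_Decomp Fermat.Agent.S48.Int.H01.stmt_Eis
      Fermat.Agent.S48.Int.H22.stmt_Prod Fermat.Agent.S48.Int.H01.stmt_CoeffFG N f'
    exact exists_common_denominator Λ hΛ (fun n => ModularFormClass.qCoeff (⇑f') n) hc halg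

end main

end Fermat.Agent.S48.B1.H96
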