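/-
S48 / B1, leaf AlgForm (helper96), part 3: `stmt_AlgForm : Stmt_AlgForm`, unconditional
(`Stmt_FinDimNeb` by helper34).
-/
import Fermat.Agent.S48.B1.H96_AlgForm
import Fermat.Agent.S48.B1.H34_FinDimNeb

set_option autoImplicit false

namespace Fermat.Agent.S48.B1.H96

/-- **AlgForm**: a form with the same Hecke relations and eigenvalues as `f`, all of whose
coefficients are algebraic with a common denominator. -/
theorem stmt_AlgForm : Stmt_AlgForm :=
  stmt_AlgForm_of Fermat.Agent.S48.B1.H34.stmt_FinDimNeb

end Fermat.Agent.S48.B1.H96
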