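import Fermat.Agent.S48.B1.H55_Asm5
import Fermat.Agent.S48.B1.H32_Teich
import Fermat.Agent.S48.B1.H19_HeckeNeb
import Fermat.Agent.S48.B1.H34_FinDimNeb
import Fermat.Agent.S48.B1.H31_NebOfRel
import Fermat.Agent.S48.B1.H61_EigInt
import Fermat.Agent.S48.B1.H96_AlgFormFinal
import Fermat.Agent.S48.Int.H55_Main

/-!
# S48, B1 (helper55): `B.Stmt_EisLift` from `Stmt_Eis1` alone

All the other leaves are proved: Teich (helper32), HeckeNeb (helper19), FinDimNeb (helper34),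
NebOfRel (helper31), EigInt (helper61), AlgForm (helper96), Int (leaf A).
-/

set_option autoImplicit false

namespace Fermat.Agent.S48.B1.H55

theorem stmt_EisLiftNeb_of_eis1 (hEis1 : Stmt_Eis1) : Stmt_EisLiftNeb :=
  stmt_EisLiftNeb_of Fermat.Agent.S48.B1.H32.stmt_Teich hEis1
    Fermat.Agent.S48.B1.H19.stmt_HeckeNeb Fermat.Agent.S48.B1.H34.stmt_FinDimNeb
    (Fermat.Agent.S48.B1.H31.stmt_NebOfRel_of Fermat.Agent.S48.B1.H19.stmt_HeckeNeb
      Fermat.Agent.S48.B1.H34.stmt_FinDimNeb)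
    Fermat.Agent.S48.B1.H61.stmt_EigInt Fermat.Agent.S48.B1.H96.stmt_AlgForm
    Fermat.Agent.S48.Int.H55.stmt_Int

theorem stmt_EisLift_of_eis1 (hEis1 : Stmt_Eis1) : B.Stmt_EisLift :=
  stmt_EisLift_of_neb (stmt_EisLiftNeb_of_eis1 hEis1)

end Fermat.Agent.S48.B1.H55
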