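import Mathlib
import Fermat.Agent.S48.B1.Defs

/-!
# S48, mountain B, part B1, leaf Teich (helper61)

`stmt_Teich : Stmt_Teich`: the inverse Teichmüller character with respect to a residue map
`φ : ℤ̄ → k` (`k` a field of odd characteristic `ℓ`).

Route: `ζ = exp(2πi/(ℓ-1))` is an algebraic integer and `φ ζ` is still a primitive `(ℓ-1)`-th root
of unity, because `∏_{0<j<ℓ-1} (1 - ζ^j) = ℓ - 1` is a unit of `k`.  For a generator `g` of
`(ℤ/ℓ)ˣ` write `g⁻¹ = (φ ζ)^i` in `k` and let `ψ` be the character with `ψ g = ζ^i`.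

No `sorry`.
-/

set_option autoImplicit false

namespace Fermat.Agent.S48.B1.H61

open Fermat.Agent.S48.B1

/-- The image of a primitive `n`-th root of unity under a ring hom to a domain in which `n` is
nonzero is a primitive `n`-th root of unity. -/
lemma isPrimitiveRoot_map_of_ne_zero {A k : Type*} [CommRing A] [IsDomain A] [CommRing k]
    [IsDomain k] (φ : A →+* k) {n : ℕ} (hn : (n : k) ≠ 0) {ζ : A} (hζ : IsPrimitiveRoot ζ n) :
    IsPrimitiveRoot (φ ζ) n := by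
  have hn0 : n ≠ 0 := by
    rintro rfl
    exact hn (by simp)
  obtain ⟨m, rfl⟩ := Nat.exists_eq_succ_of_ne_zero hn0
  have hprod := hζ.prod_one_sub_pow_eq_order
  have hprod' := congrArg φ hprod
  rw [map_prod] at hprod'
  refine IsPrimitiveRoot.mk_of_lt _ (Nat.succ_pos m) ?_ ?_
  · rw [← map_pow, hζ.pow_eq_one, map_one]
  · intro l hl0 hlt h1
    obtain ⟨j, rfl⟩ := Nat.exists_eq_succ_of_ne_zero hl0.ne'
    have hj : j ∈ Finset.range m := Finset.mem_range.mpr (by omega)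
    have hzero : ∏ x ∈ Finset.range m, φ (1 - ζ ^ (x + 1)) = 0 := by
      refine Finset.prod_eq_zero hj ?_
      rw [map_sub, map_one, map_pow, h1, sub_self]
    rw [hzero] at hprod'
    apply hn
    rw [hprod']
    simp

/-- **Teich**. -/
theorem stmt_Teich : Stmt_Teich := by
  intro ℓ _ hℓ hℓ2 k _ _ φ
  have : Fact ℓ.Prime := ⟨hℓ⟩
  have hℓ1 : 1 < ℓ := hℓ.one_lt
  have hn0 : ℓ - 1 ≠ 0 := by omega
  have : NeZero (ℓ - 1) := ⟨hn0⟩
  have hnk : ((ℓ - 1 : ℕ) : k) ≠ 0 := by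
    rw [Ne, CharP.cast_eq_zero_iff k ℓ]
    intro hdvd
    have := Nat.le_of_dvd (by omega) hdvd
    omega
  -- the root of unity
  have hζ : IsPrimitiveRoot (Complex.exp (2 * Real.pi * Complex.I / ((ℓ - 1 : ℕ) : ℂ))) (ℓ - 1) :=
    Complex.isPrimitiveRoot_exp (ℓ - 1) hn0
  set ζ : ℂ := Complex.exp (2 * Real.pi * Complex.I / ((ℓ - 1 : ℕ) : ℂ)) with hζdef
  have hζint : ζ ∈ integralClosure ℤ ℂ := hζ.isIntegral (Nat.pos_of_ne_zero hn0)
  have hζ' : IsPrimitiveRoot (⟨ζ, hζint⟩ : integralClosure ℤ ℂ) (ℓ - 1) :=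
    IsPrimitiveRoot.of_map_of_injective (f := (integralClosure ℤ ℂ).val) hζ
      Subtype.val_injective
  have hφζ : IsPrimitiveRoot (φ ⟨ζ, hζint⟩) (ℓ - 1) := isPrimitiveRoot_map_of_ne_zero φ hnk hζ'
  -- a generator
  obtain ⟨g, hg⟩ := IsCyclic.exists_generator (α := (ZMod ℓ)ˣ)
  have hcard : Fintype.card (ZMod ℓ)ˣ = ℓ - 1 := ZMod.card_units ℓ
  have hgpow : g ^ (ℓ - 1) = 1 := by
    rw [← hcard]
    exact pow_card_eq_one
  set c : k := ZMod.castHom (dvd_refl ℓ) k ((g : (ZMod ℓ)ˣ) : ZMod ℓ) with hc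
  have hcpow : c ^ (ℓ - 1) = 1 := by
    rw [hc, ← map_pow, ← Units.val_pow_eq_pow_val, hgpow, Units.val_one, map_one]
  have hc0 : c ≠ 0 := by
    intro h0
    rw [h0, zero_pow hn0] at hcpow
    exact zero_ne_one hcpow
  have hcinv : c⁻¹ ^ (ℓ - 1) = 1 := by rw [inv_pow, hcpow, inv_one]
  obtain ⟨i, -, hi⟩ := hφζ.eq_pow_of_pow_eq_one hcinv
  -- the character
  have hζne : ζ ≠ 0 := hζ.ne_zero hn0
  set ξ : ℂˣ := (Units.mk0 ζ hζne) ^ i with hξdef
  have hξ : ξ ∈ rootsOfUnity (Fintype.card (ZMod ℓ)ˣ) ℂ := by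
    rw [mem_rootsOfUnity, hcard, hξdef, ← pow_mul, mul_comm, pow_mul]
    have : (Units.mk0 ζ hζne) ^ (ℓ - 1) = 1 := by
      ext
      simpa using hζ.pow_eq_one
    rw [this, one_pow]
  set ψ : DirichletCharacter ℂ ℓ := MulChar.ofRootOfUnity hξ hg with hψ
  have hψg : ψ ((g : (ZMod ℓ)ˣ) : ZMod ℓ) = ζ ^ i := by
    rw [hψ, MulChar.ofRootOfUnity_spec, hξdef]
    simp
  -- the key property
  have key : ∀ (a : (ZMod ℓ)ˣ) (e : integralClosure ℤ ℂ), (e : ℂ) = ψ (a : ZMod ℓ) →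
      φ e * (ZMod.castHom (dvd_refl ℓ) k (a : ZMod ℓ)) = 1 := by
    intro a e he
    obtain ⟨j, hj⟩ := (mem_powers_iff_mem_zpowers).mpr (hg a)
    have ha : (a : ZMod ℓ) = ((g : (ZMod ℓ)ˣ) : ZMod ℓ) ^ j := by
      rw [← Units.val_pow_eq_pow_val]
      exact congrArg Units.val hj.symm
    have he' : e = (⟨ζ, hζint⟩ : integralClosure ℤ ℂ) ^ (i * j) := by
      apply Subtype.ext
      rw [he, ha, map_pow, hψg, ← pow_mul]
      simp
    rw [he', map_pow, pow_mul, hi, ha, map_pow, ← hc, inv_pow, inv_mul_cancel₀ (pow_ne_zero j hc0)]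
  refine ⟨ψ, ?_, key⟩
  -- oddness
  have hsq : ψ (-1) * ψ (-1) = 1 := by
    rw [← map_mul]
    simp
  have hneg : ((-1 : (ZMod ℓ)ˣ) : ZMod ℓ) = -1 := by simp
  rcases mul_self_eq_one_iff.mp hsq with h1 | h1
  · exfalso
    have h2 := key (-1) 1 (by rw [hneg, h1]; rfl)
    rw [hneg, map_one, one_mul, map_neg, map_one] at h2
    have h3 : ((2 : ℕ) : k) = 0 := by
      have : (1 : k) + 1 = 0 := by
        nth_rewrite 1 [← h2]
        ring
      rw [Nat.cast_ofNat]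
      rw [← this]
      norm_num
    rw [CharP.cast_eq_zero_iff k ℓ] at h3
    exact hℓ2 ((Nat.prime_dvd_prime_iff_eq hℓ Nat.prime_two).mp h3)
  · exact h1

end Fermat.Agent.S48.B1.H61
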