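/-
S48, mountain B, part B1, leaf FinDimNeb (helper72): `stmt_FinDimNeb : Stmt_FinDimNeb`.

`S_k(M, χ)` is finite dimensional for `k ∈ {1, 2}`: multiplication by a nonzero holomorphic
function `E` of weight `w` with character `χ⁻¹`, bounded at the cusps, embeds `S_k(M, χ)` into
`S_{k+w}(Γ₀(M))`, which is finite dimensional by the Sturm bound.
`k = 1`, `χ` odd: `E = E_{3,χ⁻¹}`;  `k = 2`, `χ` even: `E = E_{3,θ} E_{3,(χθ)⁻¹}` (`θ` odd) if
`M ≥ 3`, `E = 1` if `M ≤ 2`;  wrong parity: the space is zero.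
-/
import Fermat.Agent.S48.B1.Defs
import Fermat.Agent.S48.Int.H22_ProdPow
import Fermat.Agent.S48.Int.H01_Eis
import Fermat.Agent.S23.H77_Assembly
import Fermat.Agent.S23.H96_Div
import Fermat.Agent.S48.Int.H55_Int3

set_option autoImplicit false

open CongruenceSubgroup UpperHalfPlane ModularForm
open scoped MatrixGroups ModularForm Manifold

noncomputable section

namespace Fermat.Agent.S48.B1.H72

open Fermat.Agent.S48.Int (HasNeb)

/-- `S_k(Γ₀(N))` is finite dimensional (Sturm bound). -/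
theorem finiteDimensional_cuspForm_Gamma0 (N : ℕ) [NeZero N] (k : ℤ) :
    FiniteDimensional ℂ (CuspForm (Gamma0 N) k) :=
  FiniteDimensional.of_injective (Fermat.Agent.S23.H77.truncC N k)
    (Fermat.Agent.S23.H77.truncC_injective N k)

/-- Multiplication by a nonzero function of weight `w` and character `χ⁻¹` embeds `S_k(M, χ)`
into `S_{k+w}(Γ₀(M))`. -/
theorem finDim_of_multiplier (M : ℕ) [NeZero M] (χ : DirichletCharacter ℂ M) (k w : ℤ)
    (E : ℍ → ℂ) (hol : MDifferentiable 𝓘(ℂ) 𝓘(ℂ) E)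
    (hbdd : ∀ A : SL(2, ℤ), IsBoundedAtImInfty (E ∣[w] A)) (hE : HasNeb M χ⁻¹ w E)
    (hE0 : E ≠ 0) : FiniteDimensional ℂ (nebSubmodule M χ k) := by
  haveI := finiteDimensional_cuspForm_Gamma0 M (k + w)
  have key : ∀ g : nebSubmodule M χ k, ∃ G : CuspForm (Gamma0 M) (k + w),
      ∀ z, G z = (g.1 : ℍ → ℂ) z * E z := fun g => by
    obtain ⟨G, hG, -⟩ := Fermat.Agent.S48.Int.H22.stmt_Prod M χ k w g.1 E g.2 hol hbdd hE
    exact ⟨G, hG⟩
  choose L hL using key
  let Llin : nebSubmodule M χ k →ₗ[ℂ] CuspForm (Gamma0 M) (k + w) :=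
    { toFun := L
      map_add' := fun a b => by
        ext z
        rw [CuspForm.add_apply, hL, hL, hL]
        show (a.1 + b.1 : CuspForm (Gamma1 M) k) z * E z = _
        rw [CuspForm.add_apply, add_mul]
      map_smul' := fun c a => by
        ext z
        rw [RingHom.id_apply, CuspForm.smul_apply, hL, hL]
        show (c • a.1 : CuspForm (Gamma1 M) k) z * E z = _
        rw [CuspForm.smul_apply, smul_eq_mul, smul_eq_mul, mul_assoc] }
  refine FiniteDimensional.of_injective Llin ?_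
  rw [← LinearMap.ker_eq_bot, LinearMap.ker_eq_bot']
  intro g hg
  have hg' : L g = 0 := hg
  have h0 : ∀ z, (g.1 : ℍ → ℂ) z * E z = 0 := fun z => by
    rw [← hL g z, hg']
    rfl
  have h1 := Fermat.Agent.S23.H96.mdiff_eq_zero_of_mul_eq_zero (g.1 : ℍ → ℂ) E g.1.holo' hol
    hE0 h0
  apply Subtype.ext
  apply DFunLike.coe_injective
  exact h1

/-- Slash by `-1`. -/
theorem slash_neg_one (f : ℍ → ℂ) (k : ℤ) (z : ℍ) :
    (f ∣[k] (-1 : SL(2, ℤ))) z = f z * ((-1 : ℂ) ^ (-k)) := by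
  rw [SL_slash_apply]
  have h1 : ((-1 : SL(2, ℤ)) • z) = z := by
    simp
  rw [h1]
  congr 1
  simp [denom]

theorem neg_one_mem_Gamma0 (M : ℕ) : (-1 : SL(2, ℤ)) ∈ Gamma0 M := by
  rw [Gamma0_mem]
  simp

/-- Wrong parity: the space is zero. -/
theorem eq_zero_of_parity (M : ℕ) (χ : DirichletCharacter ℂ M) (k : ℤ)
    (g : CuspForm (Gamma1 M) k) (hg : HasNeb M χ k g) (h : χ (-1) ≠ (-1 : ℂ) ^ (-k)) :
    g = 0 := by
  apply DFunLike.coe_injective
  funext z
  have h1 := congrFun (hg (-1) (neg_one_mem_Gamma0 M)) z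
  rw [slash_neg_one] at h1
  have h2 : (((-1 : SL(2, ℤ)) 1 1 : ℤ) : ZMod M) = -1 := by simp
  rw [h2, Pi.smul_apply, smul_eq_mul] at h1
  have h3 : (χ (-1) - (-1 : ℂ) ^ (-k)) * (g : ℍ → ℂ) z = 0 := by
    rw [sub_mul, ← h1]; ring
  rcases mul_eq_zero.1 h3 with h4 | h4
  · exact absurd (sub_eq_zero.1 h4) h
  · exact h4

theorem nebSubmodule_eq_bot_of_parity (M : ℕ) (χ : DirichletCharacter ℂ M) (k : ℤ)
    (h : χ (-1) ≠ (-1 : ℂ) ^ (-k)) : nebSubmodule M χ k = ⊥ := by
  rw [eq_bot_iff]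
  intro g hg
  rw [Submodule.mem_bot]
  exact eq_zero_of_parity M χ k g hg h

/-- The value at `-1` of a Dirichlet character is `1` or `-1`. -/
theorem apply_neg_one (M : ℕ) (χ : DirichletCharacter ℂ M) : χ (-1) = 1 ∨ χ (-1) = -1 := by
  have h : χ (-1) * χ (-1) = 1 := by
    rw [← map_mul]
    simp
  have h2 : (χ (-1) - 1) * (χ (-1) + 1) = 0 := by
    have : (χ (-1) - 1) * (χ (-1) + 1) = χ (-1) * χ (-1) - 1 := by ring
    rw [this, h, sub_self]
  rcases mul_eq_zero.1 h2 with h3 | h3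
  · exact Or.inl (sub_eq_zero.1 h3)
  · exact Or.inr (eq_neg_of_add_eq_zero_left h3)

/-- The Eisenstein series of weight 3 is not zero. -/
theorem eis_ne_zero (M : ℕ) (ψ : DirichletCharacter ℂ M) (E : ℍ → ℂ)
    (hq : qExpansion 1 E = Fermat.Agent.S48.Int.eisSeries M ψ) : E ≠ 0 := by
  intro h0
  rw [h0, Fermat.Agent.S48.Int.H55.qExpansion_zero_fun] at hq
  have h1 := congrArg (fun s : PowerSeries ℂ => s.coeff 1) hq
  simp only [Fermat.Agent.S48.Int.eisSeries, PowerSeries.coeff_mk, map_zero,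
    Fermat.Agent.NEB.H34.sigmaChi] at h1
  simp at h1

/-- For `M ≤ 2` every unit of `ZMod M` is `1`. -/
theorem unit_eq_one_of_le_two {M : ℕ} (hM : M ≠ 0) (hM2 : M ≤ 2) (x : ZMod M) (hx : IsUnit x) :
    x = 1 := by
  have h12 : M = 1 ∨ M = 2 := by omega
  rcases h12 with rfl | rfl
  · exact Subsingleton.elim _ _
  · revert hx
    revert x
    decide

/-- `-1 = 1` in `ZMod M` for `M ≤ 2`. -/
theorem neg_one_eq_one_of_le_two {M : ℕ} (hM : M ≠ 0) (hM2 : M ≤ 2) : (-1 : ZMod M) = 1 :=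
  unit_eq_one_of_le_two hM hM2 _ isUnit_one.neg

/-- The constant function `1` as a multiplier of weight `0` (`M ≤ 2`). -/
theorem finDim_of_le_two (M : ℕ) [NeZero M] (hM2 : M ≤ 2) (χ : DirichletCharacter ℂ M) (k : ℤ) :
    FiniteDimensional ℂ (nebSubmodule M χ k) := by
  have hslash : ∀ A : SL(2, ℤ), ((fun _ => 1 : ℍ → ℂ) ∣[(0 : ℤ)] A) = fun _ => 1 := by
    intro A
    funext z
    rw [SL_slash_apply]
    simp
  refine finDim_of_multiplier M χ k 0 (fun _ => 1) mdifferentiable_const ?_ ?_ ?_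
  · intro A
    rw [hslash]
    exact Filter.const_boundedAtFilter _ (1 : ℂ)
  · intro γ hγ
    rw [hslash]
    have hu := Fermat.Agent.S48.Int.H22.isUnit_lowerRight hγ
    rw [unit_eq_one_of_le_two (NeZero.ne M) hM2 _ hu, map_one, one_smul]
  · intro h
    have := congrFun h (⟨Complex.I, by simp⟩ : ℍ)
    simp at this

/-- **FinDimNeb.** -/
theorem stmt_FinDimNeb : Stmt_FinDimNeb := by
  intro M _ χ k hk
  by_cases hM2 : M ≤ 2
  · exact finDim_of_le_two M hM2 χ k
  have hM3 : 3 ≤ M := by omega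
  haveI : Fact (2 < M) := ⟨by omega⟩
  rcases hk with rfl | rfl
  · -- weight one
    rcases apply_neg_one M χ with h1 | h1
    · rw [nebSubmodule_eq_bot_of_parity M χ 1 (by rw [h1]; norm_num)]
      infer_instance
    · have hodd : χ⁻¹ (-1) = -1 := by
        rw [MulChar.inv_apply_eq_inv', h1]; norm_num
      obtain ⟨E, hol, hbdd, hE, hq⟩ := Fermat.Agent.S48.Int.H01.stmt_Eis M hM3 χ⁻¹ hodd
      exact finDim_of_multiplier M χ 1 3 E hol hbdd hE (eis_ne_zero M _ E hq)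
  · -- weight two
    rcases apply_neg_one M χ with h1 | h1
    · obtain ⟨θ, hθ⟩ := DirichletCharacter.exists_apply_ne_one_of_hasEnoughRootsOfUnity ℂ
        (ZMod.neg_one_ne_one (n := M))
      have hθ1 : θ (-1) = -1 := (apply_neg_one M θ).resolve_left hθ
      have hodd2 : (χ⁻¹ * θ⁻¹) (-1) = -1 := by
        rw [MulChar.mul_apply, MulChar.inv_apply_eq_inv', MulChar.inv_apply_eq_inv', h1, hθ1]
        norm_num
      obtain ⟨E1, hol1, hbdd1, hE1, hq1⟩ := Fermat.Agent.S48.Int.H01.stmt_Eis M hM3 θ hθ1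
      obtain ⟨E2, hol2, hbdd2, hE2, hq2⟩ :=
        Fermat.Agent.S48.Int.H01.stmt_Eis M hM3 (χ⁻¹ * θ⁻¹) hodd2
      have hE10 := eis_ne_zero M _ E1 hq1
      have hE20 := eis_ne_zero M _ E2 hq2
      refine finDim_of_multiplier M χ 2 (3 + 3) (E1 * E2) (hol1.mul hol2) ?_ ?_ ?_
      · intro A
        rw [mul_slash_SL2]
        exact (hbdd1 A).mul (hbdd2 A)
      · intro γ hγ
        rw [mul_slash_SL2, hE1 γ hγ, hE2 γ hγ]
        have hu := Fermat.Agent.S48.Int.H22.isUnit_lowerRight hγ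
        have hc : θ (((γ 1 1 : ℤ) : ZMod M)) * (χ⁻¹ * θ⁻¹) (((γ 1 1 : ℤ) : ZMod M)) =
            χ⁻¹ (((γ 1 1 : ℤ) : ZMod M)) := by
          rw [← MulChar.mul_apply]
          congr 1
          rw [mul_comm χ⁻¹ θ⁻¹, ← mul_assoc, mul_inv_cancel, one_mul]
        funext z
        simp only [Pi.mul_apply, Pi.smul_apply, smul_eq_mul]
        rw [← hc]
        ring
      · intro h
        exact hE10 (Fermat.Agent.S23.H96.mdiff_eq_zero_of_mul_eq_zero E1 E2 hol1 hol2 hE20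
          (fun z => congrFun h z))
    · rw [nebSubmodule_eq_bot_of_parity M χ 2 (by rw [h1]; norm_num)]
      infer_instance

end Fermat.Agent.S48.B1.H72
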